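import Mathlib
import Fermat.Agent.S56x.Flat.InertiaField
import Fermat.Agent.S19x.Alg.LocalOrder
import Fermat.Agent.S19x.Alg.ConductorQbar
import Fermat.Agent.S19x.Alg.Compositum
import Fermat.Agent.S19x.Alg.LocalGensOfChart
import Fermat.Agent.S33x.CPFull

/-!
# S33 study, Layer 3, packaging (L3-d): exact coordinate functions ⟹ Hopf order ⟹ `NoTriv`

`X` a finite abelian `ℓ`-group with an action `act` of `G_ℚ` (axioms only used on the inertia group
`I` of `P`), `u : Fin g → X → ℚ̄` EXACT functions which are `I`-equivariant, with values in the maximal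
ideal of `P`, separating the points of `X`, and whose comultiplications `u i (s + t)` decompose as
`∑ a k s * b k t` with `a k, b k` in the `O`-algebra `O[u]` generated by the `u i`
(`O = inertiaInt P`).  Then

* `exists_hopfOrder` : `O[u]` is a `CPFull.HopfOrder` (basis from `LocalOrder.exists_basis_of_adjoin`,
  conductor from `LocalOrder.exists_conductor_of_adjoin'`, comultiplication on all of `O[u]` by
  `Compositum.IsDec`);
* `sub_mem_nonunits_of_mem_adjoin` : it is connected;
* `noTriv_of_coords` : for `I`-stable subgroups `A ≤ B` of `X` with `I` acting trivially on `B / A`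
  one has `B ≤ A`  (via `CPFull.le_of_trivial_quotient`).
-/

set_option autoImplicit false
set_option linter.unusedSectionVars false
set_option linter.unusedVariables false
set_option linter.style.haveILetI false

noncomputable section

namespace Fermat.Agent.S33x.L3.OrderOfCoords

open Fermat.Agent.S56x.Flat.InertiaField Fermat.Agent.S33x.CPFull
open Fermat.Agent.S19x.Alg

local notation "Qbar" => AlgebraicClosure ℚ
local notation "Γℚ" => (AlgebraicClosure ℚ ≃ₐ[ℚ] AlgebraicClosure ℚ)

variable {ℓ : ℕ} (P : ValuationSubring Qbar)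
variable {X : Type} [AddCommGroup X] {act : Γℚ → X → X}

/-- the action of the inertia group of `P` on `X` induced by `act`. -/
@[reducible] def inertiaMulAction (h1 : ∀ x, act 1 x = x)
    (hmul : ∀ σ ∈ P.inertiaSubgroupIn ℚ, ∀ τ ∈ P.inertiaSubgroupIn ℚ, ∀ x,
      act (σ * τ) x = act σ (act τ x)) : MulAction ↥(P.inertiaSubgroupIn ℚ) X where
  smul τ x := act (τ : Γℚ) x
  one_smul x := h1 x
  mul_smul σ τ x := hmul σ σ.2 τ τ.2 x

section Main

variable (hℓ : ℓ.Prime) (hP : P.LiesOverPrime ℓ)
  (h1 : ∀ x, act 1 x = x)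
  (hmul : ∀ σ ∈ P.inertiaSubgroupIn ℚ, ∀ τ ∈ P.inertiaSubgroupIn ℚ, ∀ x,
    act (σ * τ) x = act σ (act τ x))
  (hadd : ∀ σ ∈ P.inertiaSubgroupIn ℚ, ∀ x y, act σ (x + y) = act σ x + act σ y)
  {g : ℕ} (u : Fin g → X → Qbar)
  (hueq : ∀ i, ∀ τ ∈ P.inertiaSubgroupIn ℚ, ∀ x, u i (act τ x) = τ (u i x))
  (humem : ∀ i x, u i x ∈ P.nonunits)
  (husep : ∀ x y : X, x ≠ y → ∃ i, u i x ≠ u i y)
  (hucomul : ∀ i, ∃ (m : ℕ) (a b : Fin m → X → Qbar),
    (∀ k, a k ∈ Algebra.adjoin (inertiaInt P) (Set.range u)) ∧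
    (∀ k, b k ∈ Algebra.adjoin (inertiaInt P) (Set.range u)) ∧
    ∀ s t : X, u i (s + t) = ∑ k, a k s * b k t)

/-- the order generated by the coordinate functions. -/
abbrev coordAlg : Subalgebra (inertiaInt P) (X → Qbar) :=
  Algebra.adjoin (inertiaInt P) (Set.range u)

include hueq in
theorem coordAlg_equivariant : ∀ f ∈ coordAlg P u, ∀ τ ∈ P.inertiaSubgroupIn ℚ, ∀ x,
    f (act τ x) = τ (f x) :=
  OfChart.adjoin_isEqv (P := P) (act := act) (fun f hf => by
    obtain ⟨i, rfl⟩ := hf
    exact hueq i)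

theorem nonunits_le (P : ValuationSubring Qbar) {c : Qbar} (hc : c ∈ P.nonunits) : c ∈ P :=
  P.nonunits_le hc

include humem in
theorem coordAlg_integral : ∀ f ∈ coordAlg P u, ∀ x, f x ∈ P :=
  OfChart.adjoin_integral (P := P) (fun f hf x => by
    obtain ⟨i, rfl⟩ := hf
    exact nonunits_le P (humem i x))

include hucomul in
/-- the comultiplication of every element of the order decomposes inside the order. -/
theorem coordAlg_comul : ∀ f ∈ coordAlg P u,
    Compositum.IsDec P (coordAlg P u) (fun s t => f (s + t)) := by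
  intro f hf
  induction hf using Algebra.adjoin_induction with
  | mem f hf =>
    obtain ⟨i, rfl⟩ := hf
    exact hucomul i
  | algebraMap c => exact Compositum.IsDec.const c
  | add F G _ _ ihF ihG => exact Compositum.IsDec.add ihF ihG
  | mul F G _ _ ihF ihG => exact Compositum.IsDec.mul ihF ihG

include humem in
/-- **connectedness** of the order generated by coordinates with values in the maximal ideal. -/
theorem sub_mem_nonunits_of_mem_adjoin : ∀ f ∈ coordAlg P u, ∀ y : X,
    f y - f 0 ∈ P.nonunits := by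
  intro f hf
  have hint := coordAlg_integral P u humem
  have hsub : ∀ a b : Qbar, a ∈ P.nonunits → b ∈ P.nonunits → a - b ∈ P.nonunits := by
    intro a b ha hb
    have h2 : a - b ∈ nonunitsSubmodule P :=
      (nonunitsSubmodule P).sub_mem ((mem_nonunitsSubmodule P).mpr ha)
        ((mem_nonunitsSubmodule P).mpr hb)
    exact (mem_nonunitsSubmodule P).mp h2
  have hadd' : ∀ a b : Qbar, a ∈ P.nonunits → b ∈ P.nonunits → a + b ∈ P.nonunits := by
    intro a b ha hb
    have h2 : a + b ∈ nonunitsSubmodule P :=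
      (nonunitsSubmodule P).add_mem ((mem_nonunitsSubmodule P).mpr ha)
        ((mem_nonunitsSubmodule P).mpr hb)
    exact (mem_nonunitsSubmodule P).mp h2
  induction hf using Algebra.adjoin_induction with
  | mem f hf =>
    obtain ⟨i, rfl⟩ := hf
    exact fun y => hsub _ _ (humem i y) (humem i 0)
  | algebraMap c =>
    intro y
    rw [Pi.algebraMap_apply, Pi.algebraMap_apply, sub_self]
    exact P.nonunits.zero_mem
  | add F G hF hG ihF ihG =>
    intro y
    have h2 : (F + G) y - (F + G) 0 = (F y - F 0) + (G y - G 0) := by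
      simp only [Pi.add_apply]
      ring
    rw [h2]
    exact hadd' _ _ (ihF y) (ihG y)
  | mul F G hF hG ihF ihG =>
    intro y
    have h2 : (F * G) y - (F * G) 0 = (F y - F 0) * G y + (G y - G 0) * F 0 := by
      simp only [Pi.mul_apply]
      ring
    rw [h2]
    exact hadd' _ _ (Fermat.Agent.Lib.mul_mem_nonunits_of_mem P (ihF y) (hint G hG y))
      (Fermat.Agent.Lib.mul_mem_nonunits_of_mem P (ihG y) (hint F hF 0))

include hℓ hP h1 hmul hueq humem husep hucomul in
/-- **the order generated by exact coordinate functions is a Hopf order** in the sense of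
`CPFull.HopfOrder`. -/
theorem exists_hopfOrder [Finite X] :
    ∃ H : HopfOrder ℓ P act, H.M = Subalgebra.toSubmodule (coordAlg P u) := by
  classical
  haveI : Fintype X := Fintype.ofFinite X
  haveI := isDiscreteValuationRing_inertiaInt P hℓ hP
  letI : MulAction ↥(P.inertiaSubgroupIn ℚ) X := inertiaMulAction P h1 hmul
  set s : Finset (X → Qbar) := Finset.univ.image u with hs
  have hsc : (s : Set (X → Qbar)) = Set.range u := by
    rw [hs]
    simp
  have hOfix : ∀ x ∈ inertiaInt P, ∀ γ : ↥(P.inertiaSubgroupIn ℚ), γ • x = x :=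
    fun x hx γ => hx.2 γ γ.2
  have hOV : ∀ x ∈ inertiaInt P, x ∈ P.toSubring := fun x hx => hx.1
  have hO : ∀ x ∈ P.toSubring, (∀ γ : ↥(P.inertiaSubgroupIn ℚ), γ • x = x) →
      x ∈ inertiaInt P := fun x hx h => ⟨hx, fun t ht => h ⟨t, ht⟩⟩
  have hℓ0 : (ℓ : Qbar) ≠ 0 := Nat.cast_ne_zero.mpr hℓ.ne_zero
  have hℓO : (ℓ : Qbar) ∈ inertiaInt P := natCast_mem _ ℓ
  have harch : ∀ x : Qbar, ∃ n : ℕ, (ℓ : Qbar) ^ n * x ∈ P.toSubring :=
    ConductorQbar.exists_pow_mul_mem hℓ P hP
  have hseq : ∀ f ∈ s, EquivFun.IsEquivariant ↥(P.inertiaSubgroupIn ℚ) f := by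
    intro f hf
    obtain ⟨i, -, rfl⟩ := Finset.mem_image.mp hf
    exact fun τ z => hueq i τ τ.2 z
  have hsV : ∀ f ∈ s, ∀ z, f z ∈ P.toSubring := by
    intro f hf z
    obtain ⟨i, -, rfl⟩ := Finset.mem_image.mp hf
    exact nonunits_le P (humem i z)
  have hsep : ∀ z z' : X, z ≠ z' → ∃ f ∈ s, f z ≠ f z' := by
    intro z z' hz
    obtain ⟨i, hi⟩ := husep z z' hz
    exact ⟨u i, Finset.mem_image.mpr ⟨i, Finset.mem_univ _, rfl⟩, hi⟩
  obtain ⟨e, heq, hspan, hliO, hdet⟩ := LocalOrder.exists_basis_of_adjoin (inertiaInt P)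
    P.toSubring hOfix hO (ℓ : Qbar) hℓ0 hℓO harch s hseq hsV hsep
  obtain ⟨k, hk⟩ := LocalOrder.exists_conductor_of_adjoin' (inertiaInt P) P.toSubring hOfix hOV hO
    (ℓ : Qbar) hℓ0 hℓO harch s hseq hsV hsep
  rw [hsc] at hspan hk
  -- the basis, reindexed by `Fin (card X)`
  set eqv : X ≃ Fin (Fintype.card X) := Fintype.equivFin X with heqv
  have heM : ∀ z, e z ∈ coordAlg P u := by
    intro z
    have h2 : e z ∈ Submodule.span (inertiaInt P) (Set.range e) :=
      Submodule.subset_span (Set.mem_range_self z)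
    rw [hspan] at h2
    exact h2
  have hliK : LinearIndependent Qbar e := by
    have h2 : LinearIndependent Qbar (Matrix.of e).row :=
      Matrix.linearIndependent_rows_iff_isUnit.mpr ((Matrix.isUnit_iff_isUnit_det _).mpr hdet)
    exact h2
  have hliK' : LinearIndependent Qbar (fun i : Fin (Fintype.card X) => e (eqv.symm i)) :=
    hliK.comp _ eqv.symm.injective
  have hspK : Submodule.span Qbar (Set.range fun i : Fin (Fintype.card X) => e (eqv.symm i)) =
      ⊤ := by
    refine hliK'.span_eq_top_of_card_eq_finrank' ?_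
    rw [Fintype.card_fin, Module.finrank_fintype_fun_eq_card]
  refine ⟨{
    M := Subalgebra.toSubmodule (coordAlg P u)
    equivariant := fun f hf τ hτ x => (coordAlg_equivariant P u hueq f hf τ hτ x).symm
    integral := coordAlg_integral P u humem
    conductor := ⟨k, fun W hWeq hWint => ?_⟩
    comul := fun f hf => coordAlg_comul P u hucomul f hf
    n := Fintype.card X
    e := fun i => e (eqv.symm i)
    e_mem := fun i => heM _
    e_li := hliK'
    e_span := hspK
    e_coeff := fun f hf => ?_ }, rfl⟩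
  · -- conductor
    have h2 := hk (((ℓ : Qbar) ^ k) • W) (fun τ z => ?_) 0 (Subalgebra.zero_mem _) (fun z => ?_)
    · exact h2
    · show (ℓ : Qbar) ^ k * W (act (τ : Γℚ) z) = (τ : Γℚ) ((ℓ : Qbar) ^ k * W z)
      rw [map_mul, map_pow, map_natCast, ← hWeq τ τ.2 z]
    · exact ⟨W z, hWint z, by simp⟩
  · -- coefficients
    have h2 : f ∈ Submodule.span (inertiaInt P) (Set.range e) := by
      rw [hspan]
      exact hf
    obtain ⟨c, hc⟩ := (Submodule.mem_span_range_iff_exists_fun (inertiaInt P)).mp h2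
    refine ⟨fun i => c (eqv.symm i), ?_⟩
    rw [← hc]
    exact (Equiv.sum_comp eqv.symm (fun z => c z • e z)).symm

include hℓ hP h1 hmul hadd hueq humem husep hucomul in
/-- **`NoTriv` from exact coordinates**: a finite `ℓ`-group `X` (`ℓ` odd) carrying exact
inertia-equivariant separating coordinate functions with values in the maximal ideal of `P`, whose
comultiplications decompose inside the order they generate over `inertiaInt P`, has no non-zero
subquotient with trivial inertia action. -/
theorem noTriv_of_coords [Finite X] (hℓ2 : ℓ ≠ 2) (htors : ∀ x : X, ∃ m : ℕ, ℓ ^ m • x = 0)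
    {A B : AddSubgroup X} (hAB : A ≤ B)
    (hA : ∀ τ ∈ P.inertiaSubgroupIn ℚ, ∀ a ∈ A, act τ a ∈ A)
    (hB : ∀ τ ∈ P.inertiaSubgroupIn ℚ, ∀ y ∈ B, act τ y - y ∈ A) : B ≤ A := by
  obtain ⟨H, hH⟩ := exists_hopfOrder P hℓ hP h1 hmul u hueq humem husep hucomul
  refine le_of_trivial_quotient hℓ H h1 hmul hadd hAB hA hB hℓ2 hP htors ?_
  intro f hf y _
  rw [hH] at hf
  exact sub_mem_nonunits_of_mem_adjoin P u humem f hf y

end Main

end Fermat.Agent.S33x.L3.OrderOfCoords
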