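import Mathlib
import Fermat.Agent.S56x.Flat.InertiaField
import Fermat.Agent.Lib.FrobeniusValuation
import Fermat.Agent.S19x.Alg.LocalGensOfChart
import Fermat.Agent.S33x.Iface.ApproxChart
import Fermat.Agent.S33x.L3.OrderOfCoords

/-!
# S33, Layer 3, top assembly: `Iface.NoTrivOfCharts` from the leaves (L3-a) and (L3-c)

`Iface.NoTrivOfCharts` (helper22's interface Layer 2 → Layer 3) is proved from

* `AxLiftStatement` (leaf L3-a, function form of Ax's lemma): a `P`-valued family of functions on a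
  finite inertia-set which is inertia-equivariant modulo `p ^ n P` is congruent modulo
  `p ^ (n - 1) P` to an exactly inertia-equivariant `P`-valued family;
* `CoordComulStatement` (leaf L3-c, one-precision comultiplication): exact inertia-equivariant
  `P`-valued coordinates which separate points at precision `p ^ c0` and satisfy a group law over
  `inertiaInt P` modulo `p ^ n P`, `n ≥ c0 * (|X × X| - 1)`, have their comultiplications in the
  tensor square `OfChart.prodAlg` of the order they generate;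

and the landed `OrderOfCoords.noTriv_of_coords` (L3-d + CP).  All action axioms are asked on the
inertia group of `P` only (the application is the Kummer subgroup `K_m` with the restricted action).
-/

set_option autoImplicit false
set_option linter.unusedSectionVars false
set_option linter.unusedVariables false

noncomputable section

namespace Fermat.Agent.S33x.L3.Assemble

open Fermat.Agent.S56x.Flat.InertiaField Fermat.Agent.S33x.Iface
  Fermat.Agent.S33x.L3.OrderOfCoords Fermat.Agent.S19x.Alg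

local notation "Qbar" => AlgebraicClosure ℚ
local notation "Γℚ" => (AlgebraicClosure ℚ ≃ₐ[ℚ] AlgebraicClosure ℚ)

/-- **Leaf (L3-a), function form** (Ax's lemma with uniform loss `1`, transported along the
inertia-orbits). -/
def AxLiftStatement : Prop :=
  ∀ (p : ℕ), p.Prime → p ≠ 2 → ∀ (P : ValuationSubring Qbar), P.LiesOverPrime p →
    ∀ (X : Type) [Finite X] (act : Γℚ → X → X), (∀ x, act 1 x = x) →
      (∀ σ ∈ P.inertiaSubgroupIn ℚ, ∀ τ ∈ P.inertiaSubgroupIn ℚ, ∀ x,
        act (σ * τ) x = act σ (act τ x)) →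
      ∀ (g n : ℕ) (c : X → Fin g → Qbar), (∀ x i, c x i ∈ P) →
        (∀ σ ∈ P.inertiaSubgroupIn ℚ, ∀ x i, PowMem P p n (c (act σ x) i - σ (c x i))) →
        ∃ c' : X → Fin g → Qbar,
          (∀ σ ∈ P.inertiaSubgroupIn ℚ, ∀ x i, c' (act σ x) i = σ (c' x i)) ∧
          (∀ x i, c' x i ∈ P) ∧ ∀ x i, PowMem P p (n - 1) (c' x i - c x i)

/-- **Leaf (L3-c)**: the comultiplication of one-precision coordinates lies in the tensor square
of the order they generate. -/
def CoordComulStatement : Prop :=
  ∀ (p : ℕ), p.Prime → ∀ (P : ValuationSubring Qbar), P.LiesOverPrime p →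
    ∀ (X : Type) [AddCommGroup X] [Finite X] (act : Γℚ → X → X), (∀ x, act 1 x = x) →
      (∀ σ ∈ P.inertiaSubgroupIn ℚ, ∀ τ ∈ P.inertiaSubgroupIn ℚ, ∀ x,
        act (σ * τ) x = act σ (act τ x)) →
      (∀ σ ∈ P.inertiaSubgroupIn ℚ, ∀ x y, act σ (x + y) = act σ x + act σ y) →
      ∀ (g : ℕ) (u : X → Fin g → Qbar),
        (∀ τ ∈ P.inertiaSubgroupIn ℚ, ∀ x i, u (act τ x) i = τ (u x i)) →
        (∀ x i, u x i ∈ P) →
        ∀ (c0 n : ℕ),
          (∀ x x' : X, x ≠ x' → ∃ i, ∃ w ∈ P, (p : Qbar) ^ c0 = (u x i - u x' i) * w) →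
          c0 * (Nat.card (X × X) - 1) ≤ n →
          ∀ F : Fin g → MvPolynomial (Fin g ⊕ Fin g) (inertiaInt P),
            (∀ x y i, PowMem P p n
              (u (x + y) i - MvPolynomial.aeval (Sum.elim (u x) (u y)) (F i))) →
            ∀ i, (fun z : X × X => u (z.1 + z.2) i) ∈
              OfChart.prodAlg (Algebra.adjoin (inertiaInt P)
                (Set.range fun (i : Fin g) (x : X) => u x i))

/-! ### `PowMem` calculus -/

section PowMemCalc

variable {P : ValuationSubring Qbar} {p : ℕ}

theorem powMem_zero (n : ℕ) : PowMem P p n 0 := ⟨0, P.zero_mem, by simp⟩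

theorem powMem_add {n : ℕ} {x y : Qbar} (hx : PowMem P p n x) (hy : PowMem P p n y) :
    PowMem P p n (x + y) := by
  obtain ⟨a, ha, rfl⟩ := hx
  obtain ⟨b, hb, rfl⟩ := hy
  exact ⟨a + b, P.add_mem _ _ ha hb, by ring⟩

theorem powMem_neg {n : ℕ} {x : Qbar} (hx : PowMem P p n x) : PowMem P p n (-x) := by
  obtain ⟨a, ha, rfl⟩ := hx
  exact ⟨-a, P.neg_mem _ ha, by ring⟩

theorem powMem_sub {n : ℕ} {x y : Qbar} (hx : PowMem P p n x) (hy : PowMem P p n y) :
    PowMem P p n (x - y) := by
  rw [sub_eq_add_neg]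
  exact powMem_add hx (powMem_neg hy)

theorem powMem_mul_right {n : ℕ} {x : Qbar} (hx : PowMem P p n x) {a : Qbar} (ha : a ∈ P) :
    PowMem P p n (x * a) := by
  obtain ⟨b, hb, rfl⟩ := hx
  exact ⟨b * a, P.mul_mem _ _ hb ha, by ring⟩

theorem powMem_mul_left {n : ℕ} {x : Qbar} (hx : PowMem P p n x) {a : Qbar} (ha : a ∈ P) :
    PowMem P p n (a * x) := by
  rw [mul_comm]
  exact powMem_mul_right hx ha

theorem natCast_mem_P (P : ValuationSubring Qbar) (p : ℕ) : (p : Qbar) ∈ P := natCast_mem P p

theorem powMem_mono {m n : ℕ} (hmn : m ≤ n) {x : Qbar} (hx : PowMem P p n x) :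
    PowMem P p m x := by
  obtain ⟨a, ha, rfl⟩ := hx
  obtain ⟨k, rfl⟩ := Nat.exists_eq_add_of_le hmn
  exact ⟨(p : Qbar) ^ k * a, P.mul_mem _ _ (P.pow_mem (natCast_mem_P P p) k) ha, by ring⟩

theorem powMem_mem_nonunits (hP : P.LiesOverPrime p) {n : ℕ} (hn : 1 ≤ n) {x : Qbar}
    (hx : PowMem P p n x) : x ∈ P.nonunits := by
  obtain ⟨a, ha, rfl⟩ := hx
  obtain ⟨k, rfl⟩ := Nat.exists_eq_add_of_le hn
  have hpP : ((p : ℕ) : Qbar) ∈ P.nonunits := hP
  have h2 : (p : Qbar) ^ (1 + k) * a = (p : Qbar) * ((p : Qbar) ^ k * a) := by ring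
  rw [h2]
  exact Fermat.Agent.Lib.mul_mem_nonunits_of_mem P hpP
    (P.mul_mem _ _ (P.pow_mem (natCast_mem_P P p) k) ha)

/-- the valuation dichotomy: an element not divisible by `p ^ c` divides `p ^ c`. -/
theorem exists_mul_eq_of_not_powMem (hp0 : p ≠ 0) {c : ℕ} {δ : Qbar} (h : ¬ PowMem P p c δ) :
    ∃ w ∈ P, (p : Qbar) ^ c = δ * w := by
  have hδ : δ ≠ 0 := by
    rintro rfl
    exact h (powMem_zero c)
  have hpc : (p : Qbar) ^ c ≠ 0 := pow_ne_zero _ (Nat.cast_ne_zero.mpr hp0)
  rcases P.mem_or_inv_mem ((p : Qbar) ^ c / δ) with h1 | h1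
  · exact ⟨_, h1, by field_simp⟩
  · exfalso
    refine h ⟨_, h1, ?_⟩
    field_simp

theorem add_mem_nonunits {x y : Qbar} (hx : x ∈ P.nonunits) (hy : y ∈ P.nonunits) :
    x + y ∈ P.nonunits := by
  have h2 : x + y ∈ nonunitsSubmodule P :=
    (nonunitsSubmodule P).add_mem ((mem_nonunitsSubmodule P).mpr hx)
      ((mem_nonunitsSubmodule P).mpr hy)
  exact (mem_nonunitsSubmodule P).mp h2

/-- polynomials over `inertiaInt P` take `P`-valued arguments to `P`. -/
theorem aeval_mem {σ : Type*} (G : MvPolynomial σ (inertiaInt P)) (a : σ → Qbar)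
    (ha : ∀ s, a s ∈ P) : MvPolynomial.aeval a G ∈ P := by
  induction G using MvPolynomial.induction_on with
  | C o =>
    rw [MvPolynomial.aeval_C]
    exact o.2.1
  | add G H hG hH =>
    rw [map_add]
    exact P.add_mem _ _ hG hH
  | mul_X G s hG =>
    rw [map_mul, MvPolynomial.aeval_X]
    exact P.mul_mem _ _ hG (ha s)

/-- polynomials over `inertiaInt P` preserve congruences modulo `p ^ n P`. -/
theorem aeval_sub_aeval_powMem {σ : Type*} (G : MvPolynomial σ (inertiaInt P)) {n : ℕ}
    (a b : σ → Qbar) (ha : ∀ s, a s ∈ P) (hb : ∀ s, b s ∈ P)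
    (hab : ∀ s, PowMem P p n (a s - b s)) :
    PowMem P p n (MvPolynomial.aeval a G - MvPolynomial.aeval b G) := by
  induction G using MvPolynomial.induction_on with
  | C o =>
    rw [MvPolynomial.aeval_C, MvPolynomial.aeval_C, sub_self]
    exact powMem_zero n
  | add G H hG hH =>
    rw [map_add, map_add]
    have h2 : MvPolynomial.aeval a G + MvPolynomial.aeval a H -
        (MvPolynomial.aeval b G + MvPolynomial.aeval b H) =
        (MvPolynomial.aeval a G - MvPolynomial.aeval b G) +
          (MvPolynomial.aeval a H - MvPolynomial.aeval b H) := by ring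
    rw [h2]
    exact powMem_add hG hH
  | mul_X G s hG =>
    rw [map_mul, map_mul, MvPolynomial.aeval_X, MvPolynomial.aeval_X]
    have h2 : MvPolynomial.aeval a G * a s - MvPolynomial.aeval b G * b s =
        (MvPolynomial.aeval a G - MvPolynomial.aeval b G) * a s +
          MvPolynomial.aeval b G * (a s - b s) := by ring
    rw [h2]
    exact powMem_add (powMem_mul_right hG (ha s)) (powMem_mul_left (hab s) (aeval_mem G b hb))

end PowMemCalc

/-! ### The assembly -/

/-- **Layer 3, assembled**: the interface statement `Iface.NoTrivOfCharts` from the leaves (L3-a)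
and (L3-c). -/
theorem noTrivOfCharts_of (hAx : AxLiftStatement) (hCom : CoordComulStatement) :
    NoTrivOfCharts := by
  intro p hp hp2 P hP X _ _ act h1 hmul hadd htors hcharts A B hAB hA hB
  obtain ⟨c0, hC⟩ := hcharts
  set N := Nat.card (X × X) with hN
  obtain ⟨n, hn⟩ : ∃ n : ℕ, n = c0 * (N - 1) + c0 + 2 := ⟨_, rfl⟩
  obtain ⟨C, hsepC⟩ := hC n
  obtain ⟨F, hF⟩ := C.add_approx
  have hcP : ∀ x i, C.coord x i ∈ P := fun x i => P.nonunits_le (C.coord_mem x i)
  obtain ⟨c', hc'eq, hc'P, hc'ap⟩ :=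
    hAx p hp hp2 P hP X act h1 hmul C.g n C.coord hcP C.coord_inertia
  have hn1 : n - 1 = c0 * (N - 1) + c0 + 1 := by omega
  -- values in the maximal ideal
  have humem : ∀ (i : Fin C.g) (x : X), c' x i ∈ P.nonunits := by
    intro i x
    have h2 : c' x i = (c' x i - C.coord x i) + C.coord x i := by ring
    rw [h2]
    exact add_mem_nonunits (powMem_mem_nonunits hP (by omega) (hc'ap x i)) (C.coord_mem x i)
  -- separation at precision `p ^ c0`
  have hsep : ∀ x x' : X, x ≠ x' → ∃ i, ∃ w ∈ P, (p : Qbar) ^ c0 = (c' x i - c' x' i) * w := by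
    intro x x' hxx'
    obtain ⟨i, hi⟩ := hsepC x x' hxx'
    refine ⟨i, exists_mul_eq_of_not_powMem hp.ne_zero (fun h => hi ?_)⟩
    have h2 : C.coord x i - C.coord x' i =
        (c' x i - c' x' i) - (c' x i - C.coord x i) + (c' x' i - C.coord x' i) := by ring
    rw [h2]
    exact powMem_add (powMem_sub h (powMem_mono (by omega) (hc'ap x i)))
      (powMem_mono (by omega) (hc'ap x' i))
  -- the group law modulo `p ^ (n - 1)`
  have hlaw : ∀ x y i, PowMem P p (n - 1)
      (c' (x + y) i - MvPolynomial.aeval (Sum.elim (c' x) (c' y)) (F i)) := by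
    intro x y i
    have h2 : c' (x + y) i - MvPolynomial.aeval (Sum.elim (c' x) (c' y)) (F i) =
        (c' (x + y) i - C.coord (x + y) i) +
          (C.coord (x + y) i -
            MvPolynomial.aeval (Sum.elim (C.coord x) (C.coord y)) (F i)) +
          (MvPolynomial.aeval (Sum.elim (C.coord x) (C.coord y)) (F i) -
            MvPolynomial.aeval (Sum.elim (c' x) (c' y)) (F i)) := by ring
    rw [h2]
    refine powMem_add (powMem_add (hc'ap _ i) (powMem_mono (Nat.sub_le _ _) (hF x y i))) ?_
    refine aeval_sub_aeval_powMem (F i) _ _ ?_ ?_ ?_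
    · rintro (j | j)
      · exact hcP x j
      · exact hcP y j
    · rintro (j | j)
      · exact hc'P x j
      · exact hc'P y j
    · rintro (j | j)
      · have h3 : Sum.elim (C.coord x) (C.coord y) (Sum.inl j) -
            Sum.elim (c' x) (c' y) (Sum.inl j) = -(c' x j - C.coord x j) := by
          simp only [Sum.elim_inl]
          ring
        rw [h3]
        exact powMem_neg (hc'ap x j)
      · have h3 : Sum.elim (C.coord x) (C.coord y) (Sum.inr j) -
            Sum.elim (c' x) (c' y) (Sum.inr j) = -(c' y j - C.coord y j) := by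
          simp only [Sum.elim_inr]
          ring
        rw [h3]
        exact powMem_neg (hc'ap y j)
  -- the comultiplication
  have hle : c0 * (Nat.card (X × X) - 1) ≤ n - 1 := by
    show c0 * (N - 1) ≤ n - 1
    omega
  have hcom := hCom p hp P hP X act h1 hmul hadd C.g c' hc'eq hc'P c0 (n - 1) hsep hle F
    hlaw
  refine noTriv_of_coords P hp hP h1 hmul hadd (fun i x => c' x i)
    (fun i τ hτ x => hc'eq τ hτ x i) humem ?_ ?_ hp2 htors hAB hA hB
  · intro x y hxy
    obtain ⟨i, w, hw, he⟩ := hsep x y hxy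
    refine ⟨i, fun h => ?_⟩
    have h' : c' x i = c' y i := h
    rw [h', sub_self, zero_mul] at he
    exact pow_ne_zero _ (Nat.cast_ne_zero.mpr hp.ne_zero) he
  · intro i
    exact OfChart.exists_fin_of_mem_prodAlg (hcom i)

end Fermat.Agent.S33x.L3.Assemble
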