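import Fermat.Agent.S33x.L3.UniformConductor
import Fermat.Agent.S19x.Alg.LocalGensOfChart

/-!
# S33, Layer 3, leaf (L3-c) (helper41): the order generated by ONE-precision coordinates

`P` a valuation subring of `ℚ̄`, `X` a finite abelian group with an action of `G_ℚ` (axioms only
used on the inertia group `I` of `P`), `u : Fin g → X → ℚ̄` EXACT coordinate functions: exactly
inertia-equivariant, `P`-valued, separating the points of `X` to precision `π` (`π ≠ 0`
inertia-fixed, for `x ≠ x'` some `i` has `π ∈ (u i x - u i x') P`), and satisfying a group law `F`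
over `O^ur = inertiaInt P` to the ONE precision `ϖ ∈ π ^ (|X × X| - 1) P` (`ϖ` inertia-fixed):
`u i (x + y) - F i (u x, u y) ∈ ϖ P`.

Then the `O^ur`-algebra `cAlg P u` generated by the coordinate functions is closed under the
comultiplication (`coord_comul`; `coord_comul_fin` is the literal input `hucomul` of
`L3/OrderOfCoords.noTriv_of_coords`), and the coordinate functions form a `Alg.LocalGens P act`
(`localGens_of_coords`).

One-precision copy of `S19x/Alg/LocalGensOfChart.cfun_comul` (single coset, no indicator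
functions), with the qualitative conductor statement replaced by `UniformConductor.uniform_conductor`
on `Z = X × X`, whose exponent depends only on `|X|` and on the separation precision: this breaks the
circularity "precision ≥ conductor of the algebra generated at that precision".
-/

set_option autoImplicit false
set_option linter.unusedSectionVars false
set_option linter.unusedVariables false

noncomputable section

namespace Fermat.Agent.S33x.L3.CoordComul

open Fermat.Agent.S56x.Flat.InertiaField Fermat.Agent.S19x.Alg Fermat.Agent.S19x.Alg.OfChart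
  Fermat.Agent.S33x.L3.UniformConductor

local notation "Qbar" => AlgebraicClosure ℚ
local notation "Γℚ" => (AlgebraicClosure ℚ ≃ₐ[ℚ] AlgebraicClosure ℚ)

variable {P : ValuationSubring Qbar} {X : Type} [AddCommGroup X] {act : Γℚ → X → X} {g : ℕ}

variable (P) in
/-- the `O^ur`-algebra generated by the coordinate functions. -/
def cAlg (u : Fin g → X → Qbar) : Subalgebra (inertiaInt P) (X → Qbar) :=
  Algebra.adjoin (inertiaInt P) (Set.range u)

theorem coord_mem_cAlg (u : Fin g → X → Qbar) (i : Fin g) : u i ∈ cAlg P u :=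
  Algebra.subset_adjoin ⟨i, rfl⟩

/-- the point of `ℚ̄ ^ (g + g)` attached to a pair of points of `X`. -/
def pairPt (u : Fin g → X → Qbar) (s t : X) : Fin g ⊕ Fin g → Qbar :=
  Sum.elim (fun j => u j s) (fun j => u j t)

/-- a polynomial over `O^ur` in the coordinates of the two factors lies in the tensor square. -/
theorem aeval_mem_prodAlg (u : Fin g → X → Qbar)
    (G : MvPolynomial (Fin g ⊕ Fin g) (inertiaInt P)) :
    (fun z : X × X => MvPolynomial.aeval (pairPt u z.1 z.2) G) ∈ prodAlg (cAlg P u) := by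
  induction G using MvPolynomial.induction_on with
  | C o =>
    have h : (fun z : X × X => MvPolynomial.aeval (pairPt u z.1 z.2)
        (MvPolynomial.C o : MvPolynomial (Fin g ⊕ Fin g) (inertiaInt P))) =
        algebraMap (inertiaInt P) (X × X → Qbar) o := by
      funext z
      simp only [MvPolynomial.aeval_C, Pi.algebraMap_apply]
    rw [h]
    exact (prodAlg _).algebraMap_mem o
  | add p q hp hq =>
    have h : (fun z : X × X => MvPolynomial.aeval (pairPt u z.1 z.2) (p + q)) =
        (fun z : X × X => MvPolynomial.aeval (pairPt u z.1 z.2) p) +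
          fun z : X × X => MvPolynomial.aeval (pairPt u z.1 z.2) q := by
      funext z
      simp only [map_add, Pi.add_apply]
    rw [h]
    exact (prodAlg _).add_mem hp hq
  | mul_X p n hp =>
    rcases n with j | j
    · have h : (fun z : X × X => MvPolynomial.aeval (pairPt u z.1 z.2)
          (p * MvPolynomial.X (Sum.inl j))) =
          (fun z : X × X => MvPolynomial.aeval (pairPt u z.1 z.2) p) *
            fun z : X × X => u j z.1 := by
        funext z
        simp only [map_mul, MvPolynomial.aeval_X, pairPt, Sum.elim_inl, Pi.mul_apply]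
      rw [h]
      exact (prodAlg _).mul_mem hp (pull_fst_mem (coord_mem_cAlg u j))
    · have h : (fun z : X × X => MvPolynomial.aeval (pairPt u z.1 z.2)
          (p * MvPolynomial.X (Sum.inr j))) =
          (fun z : X × X => MvPolynomial.aeval (pairPt u z.1 z.2) p) *
            fun z : X × X => u j z.2 := by
        funext z
        simp only [map_mul, MvPolynomial.aeval_X, pairPt, Sum.elim_inr, Pi.mul_apply]
      rw [h]
      exact (prodAlg _).mul_mem hp (pull_snd_mem (coord_mem_cAlg u j))

section Basic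

variable (u : Fin g → X → Qbar)
  (hueq : ∀ i, ∀ τ ∈ P.inertiaSubgroupIn ℚ, ∀ x, u i (act τ x) = τ (u i x))
  (huint : ∀ i x, u i x ∈ P)

include hueq in
theorem range_isEqv : ∀ f ∈ Set.range u, IsEqv P act f := by
  rintro f ⟨i, rfl⟩
  exact hueq i

include huint in
theorem range_integral : ∀ f ∈ Set.range u, ∀ x, f x ∈ P := by
  rintro f ⟨i, rfl⟩ x
  exact huint i x

include hueq in
theorem cAlg_isEqv : ∀ f ∈ cAlg P u, IsEqv P act f := adjoin_isEqv (range_isEqv u hueq)

include huint in
theorem cAlg_integral : ∀ f ∈ cAlg P u, ∀ x, f x ∈ P := adjoin_integral (range_integral u huint)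

end Basic

/-- the pulled-back coordinate functions on `X × X`. -/
def cgens₂ (u : Fin g → X → Qbar) : Set (X × X → Qbar) :=
  {F | ∃ i, F = fun z : X × X => u i z.1} ∪ {F | ∃ i, F = fun z : X × X => u i z.2}

theorem adjoin_cgens₂_le (u : Fin g → X → Qbar) :
    Algebra.adjoin (inertiaInt P) (cgens₂ u) ≤ prodAlg (cAlg P u) := by
  refine Algebra.adjoin_le ?_
  rintro F (⟨i, rfl⟩ | ⟨i, rfl⟩)
  · exact pull_fst_mem (coord_mem_cAlg u i)
  · exact pull_snd_mem (coord_mem_cAlg u i)

section Comul

variable [Finite X] (u : Fin g → X → Qbar)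
  (h1 : ∀ x, act 1 x = x)
  (hmul : ∀ σ ∈ P.inertiaSubgroupIn ℚ, ∀ τ ∈ P.inertiaSubgroupIn ℚ, ∀ x,
    act (σ * τ) x = act σ (act τ x))
  (hadd : ∀ σ ∈ P.inertiaSubgroupIn ℚ, ∀ x y, act σ (x + y) = act σ x + act σ y)
  (hueq : ∀ i, ∀ τ ∈ P.inertiaSubgroupIn ℚ, ∀ x, u i (act τ x) = τ (u i x))
  (huint : ∀ i x, u i x ∈ P)
  (π : Qbar) (hπ : π ≠ 0) (hπfix : ∀ τ ∈ P.inertiaSubgroupIn ℚ, τ π = π)
  (hsep : ∀ x x', x ≠ x' → ∃ i, ∃ w ∈ P, π = (u i x - u i x') * w)

include h1 hmul in
/-- the inertia group acts on `X` through surjections. -/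
theorem act_surjective : ∀ τ ∈ P.inertiaSubgroupIn ℚ, Function.Surjective (act τ) := by
  intro τ hτ x
  refine ⟨act τ⁻¹ x, ?_⟩
  rw [← hmul τ hτ τ⁻¹ (inv_mem hτ), mul_inv_cancel, h1]

include h1 hmul hueq huint hπ hπfix hsep in
/-- **the uniform conductor of the tensor square**: `π ^ (|X × X| - 1)` times every
inertia-equivariant `P`-valued function on `X × X` lies in `prodAlg (cAlg P u)`. -/
theorem conductor_prodAlg (W : X × X → Qbar) (hWeq : IsEqv P (act₂ act) W)
    (hWint : ∀ z, W z ∈ P) :
    (fun z => π ^ (Nat.card (X × X) - 1) * W z) ∈ prodAlg (cAlg P u) := by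
  refine adjoin_cgens₂_le u ?_
  refine uniform_conductor_of_surjective P (act₂ act) ?_ (cgens₂ u) ?_ ?_ π hπ hπfix ?_ W hWeq
    hWint
  · intro τ hτ z
    obtain ⟨a, ha⟩ := act_surjective (act := act) h1 hmul τ hτ z.1
    obtain ⟨b, hb⟩ := act_surjective (act := act) h1 hmul τ hτ z.2
    exact ⟨(a, b), Prod.ext ha hb⟩
  · rintro F (⟨i, rfl⟩ | ⟨i, rfl⟩) τ hτ z
    · exact hueq i τ hτ z.1
    · exact hueq i τ hτ z.2
  · rintro F (⟨i, rfl⟩ | ⟨i, rfl⟩) z
    · exact huint i z.1
    · exact huint i z.2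
  · intro z z' hz
    by_cases hz1 : z.1 = z'.1
    · have hz2 : z.2 ≠ z'.2 := fun h2 => hz (Prod.ext hz1 h2)
      obtain ⟨i, w, hw, he⟩ := hsep _ _ hz2
      exact ⟨_, Or.inr ⟨i, rfl⟩, w, hw, he⟩
    · obtain ⟨i, w, hw, he⟩ := hsep _ _ hz1
      exact ⟨_, Or.inl ⟨i, rfl⟩, w, hw, he⟩

variable (ϖ : Qbar) (hϖfix : ∀ τ ∈ P.inertiaSubgroupIn ℚ, τ ϖ = ϖ)
  (hϖ : ∃ o ∈ P, ϖ = π ^ (Nat.card (X × X) - 1) * o)
  (F : Fin g → MvPolynomial (Fin g ⊕ Fin g) (inertiaInt P))
  (hF : ∀ x y i, ∃ w ∈ P, u i (x + y) - MvPolynomial.aeval (pairPt u x y) (F i) = ϖ * w)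

include h1 hmul hadd hueq huint hπ hπfix hsep hϖfix hϖ hF in
/-- **(L3-c)**: the comultiplication of a coordinate function lies in the tensor square of the
algebra generated by the coordinate functions. -/
theorem coord_comul (i : Fin g) :
    (fun z : X × X => u i (z.1 + z.2)) ∈ prodAlg (cAlg P u) := by
  set Ft : X × X → Qbar := fun z => MvPolynomial.aeval (pairPt u z.1 z.2) (F i) with hFt
  have hFtmem : Ft ∈ prodAlg (cAlg P u) := aeval_mem_prodAlg u (F i)
  by_cases hϖ0 : ϖ = 0
  · have hsum : (fun z : X × X => u i (z.1 + z.2)) = Ft := by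
      funext z
      obtain ⟨w, _, hw⟩ := hF z.1 z.2 i
      rw [hϖ0, zero_mul, sub_eq_zero] at hw
      exact hw
    rw [hsum]
    exact hFtmem
  obtain ⟨o, hoP, ho⟩ := hϖ
  set k := Nat.card (X × X) - 1 with hk
  have hπk : π ^ k ≠ 0 := pow_ne_zero _ hπ
  have hofix : ∀ τ ∈ P.inertiaSubgroupIn ℚ, τ o = o := by
    intro τ hτ
    apply mul_left_cancel₀ hπk
    have h3 : π ^ k * τ o = τ (π ^ k * o) := by rw [map_mul, map_pow, hπfix τ hτ]
    rw [h3, ← ho, hϖfix τ hτ]
  choose w hwP hw using fun z : X × X => hF z.1 z.2 i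
  have hcf : IsEqv P (act₂ act) (fun z : X × X => u i (z.1 + z.2)) := by
    intro τ hτ z
    show u i (act τ z.1 + act τ z.2) = _
    rw [← hadd τ hτ]
    exact hueq i τ hτ _
  have hweq : IsEqv P (act₂ act) w := by
    intro τ hτ z
    apply mul_left_cancel₀ hϖ0
    have h3 : ϖ * τ (w z) = τ (ϖ * w z) := by rw [map_mul, hϖfix τ hτ]
    rw [h3, ← hw z, ← hw (act₂ act τ z), map_sub]
    have h5 := prodAlg_isEqv (cAlg_isEqv u hueq) Ft hFtmem τ hτ z
    simp only [hFt] at h5
    rw [← h5]
    show u i (act τ z.1 + act τ z.2) - _ = _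
    rw [← hadd τ hτ, hueq i τ hτ _]
  have how : IsEqv P (act₂ act) (fun z => o * w z) := by
    intro τ hτ z
    show o * w (act₂ act τ z) = τ (o * w z)
    rw [map_mul, hofix τ hτ, hweq τ hτ z]
  have hfinal := conductor_prodAlg u h1 hmul hueq huint π hπ hπfix hsep (fun z => o * w z) how
    (fun z => P.mul_mem _ _ hoP (hwP z))
  have hsum : (fun z : X × X => u i (z.1 + z.2)) =
      Ft + fun z => π ^ (Nat.card (X × X) - 1) * (o * w z) := by
    funext z
    rw [Pi.add_apply, ← mul_assoc, ← ho, ← hw z, hFt]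
    ring
  rw [hsum]
  exact (prodAlg _).add_mem hFtmem hfinal

include h1 hmul hadd hueq huint hπ hπfix hsep hϖfix hϖ hF in
/-- **(L3-c), in the literal shape of the hypothesis `hucomul` of
`L3/OrderOfCoords.noTriv_of_coords`.** -/
theorem coord_comul_fin : ∀ i, ∃ (m : ℕ) (a b : Fin m → X → Qbar),
    (∀ k, a k ∈ Algebra.adjoin (inertiaInt P) (Set.range u)) ∧
    (∀ k, b k ∈ Algebra.adjoin (inertiaInt P) (Set.range u)) ∧
    ∀ s t : X, u i (s + t) = ∑ k, a k s * b k t := fun i =>
  exists_fin_of_mem_prodAlg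
    (coord_comul u h1 hmul hadd hueq huint π hπ hπfix hsep ϖ hϖfix hϖ F hF i)

include hπ hsep in
/-- the coordinate functions separate the points. -/
theorem coord_separating : ∀ x y : X, x ≠ y → ∃ i, u i x ≠ u i y := by
  intro s t hst
  obtain ⟨i, w, hw, he⟩ := hsep s t hst
  refine ⟨i, fun h => hπ ?_⟩
  rw [he, h, sub_self, zero_mul]

include h1 hmul hadd hueq huint hπ hπfix hsep hϖfix hϖ hF in
/-- **(L3-c), packaged**: one-precision coordinates give local generators in the sense of block B
of P-S19; the generators are exactly the coordinate functions. -/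
theorem localGens_of_coords : ∃ G : LocalGens P act, G.gens = Set.range u := by
  refine ⟨⟨Set.range u, range_isEqv u hueq, range_integral u huint, ?_, ?_⟩, rfl⟩
  · intro s t hst
    obtain ⟨i, hi⟩ := coord_separating u π hπ hsep s t hst
    exact ⟨u i, ⟨i, rfl⟩, hi⟩
  · rintro f ⟨i, rfl⟩
    exact coord_comul_fin u h1 hmul hadd hueq huint π hπ hπfix hsep ϖ hϖfix hϖ F hF i

end Comul

end Fermat.Agent.S33x.L3.CoordComul
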