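import Mathlib
import Fermat.Agent.S33x.L3.Assemble
import Fermat.Agent.S33x.Ax.EqvLift
import Fermat.Agent.S33x.L3.CoordComul

/-!
# S33, Layer 3, closed: `Iface.NoTrivOfCharts`

The two hypotheses of `Assemble.noTrivOfCharts_of` are discharged by the landed leaves:

* `axLiftStatement` : from `Ax.exists_equivariant_coord` (helper57, Ax's lemma with loss one power of
  `p`, inertia-only action axioms);
* `coordComulStatement` : from `CoordComul.coord_comul` (helper41, one-precision comultiplication on
  top of the uniform conductor, inertia-only action axioms).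

Hence `noTrivOfCharts : Iface.NoTrivOfCharts` : a finite `p`-group (`p` odd) with an action of the
inertia group of `P` carrying approximate Cech charts at every level, separating at one fixed
precision, has no nonzero subquotient with trivial inertia action.
-/

set_option autoImplicit false
set_option linter.unusedSectionVars false
set_option linter.unusedVariables false

noncomputable section

namespace Fermat.Agent.S33x.L3.AssembleDone

open Fermat.Agent.S56x.Flat.InertiaField Fermat.Agent.S33x.Iface
  Fermat.Agent.S33x.L3.Assemble Fermat.Agent.S19x.Alg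

local notation "Qbar" => AlgebraicClosure ℚ
local notation "Γℚ" => (AlgebraicClosure ℚ ≃ₐ[ℚ] AlgebraicClosure ℚ)

/-- **Leaf (L3-a) closed.** -/
theorem axLiftStatement : AxLiftStatement := by
  intro p hp hp2 P hP X _ act h1 hmul g n c hcP hc
  rcases Nat.eq_zero_or_pos n with rfl | hn
  · -- level `0`: nothing to approximate
    refine ⟨fun _ _ => 0, fun σ _ x i => (map_zero σ).symm, fun _ _ => P.zero_mem, fun x i => ?_⟩
    exact ⟨-c x i, P.neg_mem _ (hcP x i), by simp⟩
  · obtain ⟨k, rfl⟩ : ∃ k, n = k + 1 := ⟨n - 1, by omega⟩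
    obtain ⟨c', hc'eq, hc'ap⟩ := Fermat.Agent.S33x.Ax.exists_equivariant_coord (P := P) hp hp2 hP
      (act := act) h1 hmul c k (fun σ hσ x i => hc σ hσ x i)
    refine ⟨c', hc'eq, fun x i => ?_, fun x i => ?_⟩
    · obtain ⟨w, hw, he⟩ := hc'ap x i
      have h2 : c' x i = c x i + (p : Qbar) ^ k * w := by rw [← he]; ring
      rw [h2]
      exact P.add_mem _ _ (hcP x i) (P.mul_mem _ _ (P.pow_mem (natCast_mem_P P p) k) hw)
    · rw [Nat.add_sub_cancel]
      exact hc'ap x i

/-- **Leaf (L3-c) closed.** -/
theorem coordComulStatement : CoordComulStatement := by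
  intro p hp P hP X _ _ act h1 hmul hadd g u hueq huP c0 n hsep hle F hF i
  have hp0 : (p : Qbar) ≠ 0 := Nat.cast_ne_zero.mpr hp.ne_zero
  have hfix : ∀ k : ℕ, ∀ τ ∈ P.inertiaSubgroupIn ℚ, τ ((p : Qbar) ^ k) = (p : Qbar) ^ k :=
    fun k τ _ => by rw [map_pow, map_natCast]
  obtain ⟨d, hd⟩ := Nat.exists_eq_add_of_le hle
  have h := Fermat.Agent.S33x.L3.CoordComul.coord_comul (P := P) (act := act)
    (fun (i : Fin g) (x : X) => u x i) h1 hmul hadd (fun i τ hτ x => hueq τ hτ x i)
    (fun i x => huP x i) ((p : Qbar) ^ c0) (pow_ne_zero _ hp0) (hfix c0) hsep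
    ((p : Qbar) ^ n) (hfix n)
    ⟨(p : Qbar) ^ d, P.pow_mem (natCast_mem_P P p) d, by rw [hd, pow_add, pow_mul]⟩
    F (fun x y i => hF x y i) i
  exact h

/-- **Layer 3, closed**: the interface statement of helper22's `Iface/ApproxChart.lean`. -/
theorem noTrivOfCharts : NoTrivOfCharts :=
  noTrivOfCharts_of axLiftStatement coordComulStatement

end Fermat.Agent.S33x.L3.AssembleDone
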