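/-
P-S33 (blueprint v2), LAYER 3 ASSEMBLY (helper22): approximate Cech charts ⟹ `NoTriv`.

Input: the interface `Iface.HasApproxCharts p P X act` (Layer 2 export: charts at every level `n`,
only approximately inertia-equivariant, separating at one fixed precision `p ^ c0`) and the
function-level form `AxLift p P` of Ax's lemma (leaf L3-a, hypothesis here): a `P`-valued function on
a finite inertia-set which is equivariant modulo `p ^ (n + 1) P` is congruent modulo `p ^ n P` to an
exactly equivariant function.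

Output: `Iface.NoTrivOfCharts`-shaped conclusion for `X`: no non-zero subquotient with trivial
inertia action.  Proof: level `n + 1` with `n = c0 * |X| ^ 2 + 1`; exact lifts `u i` of the
coordinates; `CoordComul.coord_comul_fin` (helper41: uniform conductor, one precision) and
`OrderOfCoords.noTriv_of_coords` (helper90: Hopf order + CP).
-/
import Fermat.Agent.S33x.Iface.ApproxChart
import Fermat.Agent.S33x.L3.CoordComul
import Fermat.Agent.S33x.L3.OrderOfCoords

set_option autoImplicit false
set_option linter.unusedSectionVars false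
set_option linter.unusedVariables false

noncomputable section

namespace Fermat.Agent.S33x.L3.NoTrivOfCharts

open Fermat.Agent.S56x.Flat.InertiaField Fermat.Agent.S33x.Iface

local notation "Qbar" => AlgebraicClosure ℚ
local notation "Γℚ" => (AlgebraicClosure ℚ ≃ₐ[ℚ] AlgebraicClosure ℚ)

/-- **Function-level Ax lemma** (leaf L3-a, to be supplied): a `P`-valued function on a finite
set with an action of the inertia group, equivariant modulo `p ^ (n + 1) P`, is congruent modulo
`p ^ n P` to an exactly equivariant function. -/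
def AxLift (p : ℕ) (P : ValuationSubring Qbar) : Prop :=
  ∀ (X : Type) [Finite X] (act : Γℚ → X → X), (∀ x, act 1 x = x) →
    (∀ σ ∈ P.inertiaSubgroupIn ℚ, ∀ τ ∈ P.inertiaSubgroupIn ℚ, ∀ x,
      act (σ * τ) x = act σ (act τ x)) →
    ∀ (t : X → Qbar) (n : ℕ), (∀ x, t x ∈ P) →
      (∀ σ ∈ P.inertiaSubgroupIn ℚ, ∀ x, PowMem P p (n + 1) (t (act σ x) - σ (t x))) →
      ∃ t' : X → Qbar, (∀ σ ∈ P.inertiaSubgroupIn ℚ, ∀ x, t' (act σ x) = σ (t' x)) ∧
        ∀ x, PowMem P p n (t' x - t x)

section PowMem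

variable {P : ValuationSubring Qbar} {p n : ℕ}

theorem powMem_zero : PowMem P p n 0 := ⟨0, P.zero_mem, by simp⟩

theorem powMem_add {x y : Qbar} (hx : PowMem P p n x) (hy : PowMem P p n y) :
    PowMem P p n (x + y) := by
  obtain ⟨w, hw, rfl⟩ := hx
  obtain ⟨w', hw', rfl⟩ := hy
  exact ⟨w + w', P.add_mem _ _ hw hw', by ring⟩

theorem powMem_neg {x : Qbar} (hx : PowMem P p n x) : PowMem P p n (-x) := by
  obtain ⟨w, hw, rfl⟩ := hx
  exact ⟨-w, P.neg_mem _ hw, by ring⟩

theorem powMem_sub {x y : Qbar} (hx : PowMem P p n x) (hy : PowMem P p n y) :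
    PowMem P p n (x - y) := by
  rw [sub_eq_add_neg]
  exact powMem_add hx (powMem_neg hy)

theorem powMem_mul_mem {x a : Qbar} (hx : PowMem P p n x) (ha : a ∈ P) :
    PowMem P p n (x * a) := by
  obtain ⟨w, hw, rfl⟩ := hx
  exact ⟨w * a, P.mul_mem _ _ hw ha, by ring⟩

theorem powMem_mem_mul {x a : Qbar} (ha : a ∈ P) (hx : PowMem P p n x) :
    PowMem P p n (a * x) := by
  rw [mul_comm]
  exact powMem_mul_mem hx ha

theorem natCast_mem (P : ValuationSubring Qbar) (p : ℕ) : (p : Qbar) ∈ P := by
  induction p with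
  | zero => simp [P.zero_mem]
  | succ k ih =>
    rw [Nat.cast_succ]
    exact P.add_mem _ _ ih P.one_mem

theorem powMem_mono {x : Qbar} {m : ℕ} (hx : PowMem P p n x) (hmn : m ≤ n) :
    PowMem P p m x := by
  obtain ⟨w, hw, rfl⟩ := hx
  refine ⟨(p : Qbar) ^ (n - m) * w, P.mul_mem _ _ (P.pow_mem (natCast_mem P p) _) hw, ?_⟩
  rw [← mul_assoc, ← pow_add, Nat.add_sub_cancel' hmn]

theorem powMem_mem {x : Qbar} (hx : PowMem P p n x) : x ∈ P := by
  obtain ⟨w, hw, rfl⟩ := hx
  exact P.mul_mem _ _ (P.pow_mem (natCast_mem P p) _) hw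

/-- an element of `p ^ (n + 1) P` is a non-unit when `p` is. -/
theorem powMem_mem_nonunits {x : Qbar} (hp : (p : Qbar) ∈ P.nonunits)
    (hx : PowMem P p (n + 1) x) : x ∈ P.nonunits := by
  obtain ⟨w, hw, rfl⟩ := hx
  rw [ValuationSubring.mem_nonunits_iff] at hp ⊢
  have hw1 : P.valuation w ≤ 1 := (P.valuation_le_one_iff w).mpr hw
  have hp1 : P.valuation (p : Qbar) ≤ 1 := le_of_lt hp
  rw [map_mul, map_pow, pow_succ]
  calc P.valuation (p : Qbar) ^ n * P.valuation (p : Qbar) * P.valuation w
      ≤ 1 * P.valuation (p : Qbar) * 1 := by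
        gcongr
        exact pow_le_one₀ zero_le hp1
    _ = P.valuation (p : Qbar) := by rw [one_mul, mul_one]
    _ < 1 := hp

/-- polynomials over `inertiaInt P` respect congruences modulo `p ^ n P` between `P`-points. -/
theorem aeval_congr {σ : Type*} (G : MvPolynomial σ (inertiaInt P)) (a b : σ → Qbar)
    (ha : ∀ s, a s ∈ P) (hb : ∀ s, b s ∈ P) (hab : ∀ s, PowMem P p n (a s - b s)) :
    PowMem P p n (MvPolynomial.aeval a G - MvPolynomial.aeval b G) ∧
      MvPolynomial.aeval a G ∈ P ∧ MvPolynomial.aeval b G ∈ P := by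
  induction G using MvPolynomial.induction_on with
  | C o =>
    simp only [MvPolynomial.aeval_C, sub_self]
    exact ⟨powMem_zero, o.2.1, o.2.1⟩
  | add q r hq hr =>
    obtain ⟨h1, h2, h3⟩ := hq
    obtain ⟨k1, k2, k3⟩ := hr
    refine ⟨?_, ?_, ?_⟩
    · have : MvPolynomial.aeval a (q + r) - MvPolynomial.aeval b (q + r) =
          (MvPolynomial.aeval a q - MvPolynomial.aeval b q) +
            (MvPolynomial.aeval a r - MvPolynomial.aeval b r) := by
        simp only [map_add]; ring
      rw [this]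
      exact powMem_add h1 k1
    · rw [map_add]; exact P.add_mem _ _ h2 k2
    · rw [map_add]; exact P.add_mem _ _ h3 k3
  | mul_X q s hq =>
    obtain ⟨h1, h2, h3⟩ := hq
    refine ⟨?_, ?_, ?_⟩
    · have : MvPolynomial.aeval a (q * MvPolynomial.X s) -
          MvPolynomial.aeval b (q * MvPolynomial.X s) =
          (MvPolynomial.aeval a q - MvPolynomial.aeval b q) * a s +
            MvPolynomial.aeval b q * (a s - b s) := by
        simp only [map_mul, MvPolynomial.aeval_X]; ring
      rw [this]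
      exact powMem_add (powMem_mul_mem h1 (ha s)) (powMem_mem_mul h3 (hab s))
    · rw [map_mul, MvPolynomial.aeval_X]; exact P.mul_mem _ _ h2 (ha s)
    · rw [map_mul, MvPolynomial.aeval_X]; exact P.mul_mem _ _ h3 (hb s)

/-- in a valuation ring, an element which is not in `c P` divides `c`. -/
theorem exists_mul_eq_of_not_powMem (hp0 : (p : Qbar) ≠ 0) {d : Qbar}
    (hd : ¬ PowMem P p n d) : ∃ w ∈ P, (p : Qbar) ^ n = d * w := by
  have hd0 : d ≠ 0 := by
    rintro rfl
    exact hd powMem_zero
  have hpn : (p : Qbar) ^ n ≠ 0 := pow_ne_zero _ hp0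
  rcases P.mem_or_inv_mem (d / (p : Qbar) ^ n) with h | h
  · exact absurd ⟨d / (p : Qbar) ^ n, h, by field_simp⟩ hd
  · refine ⟨(d / (p : Qbar) ^ n)⁻¹, h, ?_⟩
    field_simp

end PowMem

section Main

open Fermat.Agent.S33x.L3.CoordComul

variable {p : ℕ} {P : ValuationSubring Qbar} {X : Type} [AddCommGroup X] {act : Γℚ → X → X}

/-- a sum of two non-units of a valuation ring is a non-unit. -/
theorem add_mem_nonunits {a b : Qbar} (ha : a ∈ P.nonunits) (hb : b ∈ P.nonunits) :
    a + b ∈ P.nonunits := by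
  rw [ValuationSubring.mem_nonunits_iff] at ha hb ⊢
  exact lt_of_le_of_lt (P.valuation.map_add a b) (max_lt ha hb)

/-- **Layer 3 assembly**: approximate charts at every level, separating at one fixed precision,
together with the function-level Ax lemma, exclude non-zero subquotients with trivial inertia
action. -/
theorem noTriv_of_charts (hp : p.Prime) (hp2 : p ≠ 2) (hP : P.LiesOverPrime p)
    (hAx : AxLift p P) [Finite X]
    (h1 : ∀ x, act 1 x = x)
    (hmul : ∀ σ ∈ P.inertiaSubgroupIn ℚ, ∀ τ ∈ P.inertiaSubgroupIn ℚ, ∀ x,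
      act (σ * τ) x = act σ (act τ x))
    (hadd : ∀ σ ∈ P.inertiaSubgroupIn ℚ, ∀ x y, act σ (x + y) = act σ x + act σ y)
    (htors : ∀ x : X, ∃ m : ℕ, p ^ m • x = 0)
    (hC : HasApproxCharts p P X act)
    {A B : AddSubgroup X} (hAB : A ≤ B)
    (hA : ∀ τ ∈ P.inertiaSubgroupIn ℚ, ∀ a ∈ A, act τ a ∈ A)
    (hB : ∀ τ ∈ P.inertiaSubgroupIn ℚ, ∀ y ∈ B, act τ y - y ∈ A) : B ≤ A := by
  classical
  obtain ⟨c0, hc0⟩ := hC
  have hpQ : (p : Qbar) ≠ 0 := by
    have : CharZero Qbar := algebraRat.charZero Qbar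
    exact_mod_cast hp.ne_zero
  have hpnon : (p : Qbar) ∈ P.nonunits := hP
  set N := Nat.card X with hN
  have hNpos : 0 < N := Nat.card_pos
  have hNN : 1 ≤ N * N := Nat.mul_pos hNpos hNpos
  set n0 := c0 * (N * N) with hn0
  -- precision after the Ax step: `n0 + 1`; level of the chart: `n0 + 1 + 1`
  obtain ⟨C, hsep⟩ := hc0 (n0 + 1 + 1)
  have hcoordP : ∀ x i, C.coord x i ∈ P := fun x i =>
    OrderOfCoords.nonunits_le P (C.coord_mem x i)
  have hlift : ∀ i : Fin C.g, ∃ t' : X → Qbar,
      (∀ σ ∈ P.inertiaSubgroupIn ℚ, ∀ x, t' (act σ x) = σ (t' x)) ∧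
        ∀ x, PowMem P p (n0 + 1) (t' x - C.coord x i) := fun i =>
    hAx X act h1 hmul (fun x => C.coord x i) (n0 + 1) (fun x => hcoordP x i)
      (fun σ hσ x => C.coord_inertia σ hσ x i)
  choose u hueq hu using hlift
  have hc0n : c0 ≤ n0 + 1 := by
    have : c0 * 1 ≤ c0 * (N * N) := Nat.mul_le_mul_left _ hNN
    omega
  -- values in the maximal ideal
  have humem : ∀ (i : Fin C.g) (x : X), u i x ∈ P.nonunits := by
    intro i x
    have h := powMem_mem_nonunits hpnon (hu i x)
    have h2 := add_mem_nonunits (C.coord_mem x i) h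
    rwa [add_sub_cancel] at h2
  have huP : ∀ (i : Fin C.g) (x : X), u i x ∈ P := fun i x =>
    OrderOfCoords.nonunits_le P (humem i x)
  -- separation at precision `p ^ c0`
  have hsepu : ∀ x x' : X, x ≠ x' → ∃ i, ¬ PowMem P p c0 (u i x - u i x') := by
    intro x x' hxx
    obtain ⟨i, hi⟩ := hsep x x' hxx
    refine ⟨i, fun hcon => hi ?_⟩
    have e : C.coord x i - C.coord x' i =
        (u i x - u i x') - (u i x - C.coord x i) + (u i x' - C.coord x' i) := by ring
    rw [e]
    exact powMem_add (powMem_sub hcon (powMem_mono (hu i x) hc0n)) (powMem_mono (hu i x') hc0n)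
  have husep : ∀ x y : X, x ≠ y → ∃ i, u i x ≠ u i y := by
    intro x y hxy
    obtain ⟨i, hi⟩ := hsepu x y hxy
    refine ⟨i, fun h => hi ?_⟩
    rw [h, sub_self]
    exact powMem_zero
  -- the comultiplication
  obtain ⟨F, hF⟩ := C.add_approx
  have hfixnat : ∀ (k : ℕ), ∀ τ ∈ P.inertiaSubgroupIn ℚ, τ ((p : Qbar) ^ k) = (p : Qbar) ^ k := by
    intro k τ _
    rw [map_pow, map_natCast]
  have hucomul := coord_comul_fin (P := P) (act := act) u h1 hmul hadd hueq huP
    ((p : Qbar) ^ c0) (pow_ne_zero _ hpQ) (hfixnat c0)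
    (fun x x' hxx => by
      obtain ⟨i, hi⟩ := hsepu x x' hxx
      obtain ⟨w, hw, hw'⟩ := exists_mul_eq_of_not_powMem hpQ hi
      exact ⟨i, w, hw, hw'⟩)
    ((p : Qbar) ^ (n0 + 1)) (hfixnat (n0 + 1))
    (by
      refine ⟨(p : Qbar) ^ (c0 + 1), P.pow_mem (natCast_mem P p) _, ?_⟩
      rw [Nat.card_prod, ← hN, ← pow_mul, ← pow_add]
      congr 1
      have : c0 * (N * N - 1) + c0 = c0 * (N * N) := by
        rw [← Nat.mul_succ, Nat.succ_eq_add_one, Nat.sub_add_cancel hNN]
      omega)
    F
    (fun x y i => by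
      have e : u i (x + y) - MvPolynomial.aeval (pairPt u x y) (F i) =
          (u i (x + y) - C.coord (x + y) i) +
            (C.coord (x + y) i -
              MvPolynomial.aeval (Sum.elim (C.coord x) (C.coord y)) (F i)) +
            (MvPolynomial.aeval (Sum.elim (C.coord x) (C.coord y)) (F i) -
              MvPolynomial.aeval (pairPt u x y) (F i)) := by ring
      have h3 := (aeval_congr (P := P) (p := p) (n := n0 + 1) (F i)
        (Sum.elim (C.coord x) (C.coord y)) (pairPt u x y)
        (fun s => by rcases s with j | j <;> simp [hcoordP])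
        (fun s => by rcases s with j | j <;> simp [pairPt, huP])
        (fun s => by
          rcases s with j | j
          · have := powMem_neg (hu j x)
            simpa [pairPt] using this
          · have := powMem_neg (hu j y)
            simpa [pairPt] using this)).1
      have h2 := powMem_mono (hF x y i) (Nat.le_succ (n0 + 1))
      obtain ⟨w, hw, hw'⟩ := powMem_add (powMem_add (hu i (x + y)) h2) h3
      exact ⟨w, hw, by rw [e, hw']⟩)
  exact OrderOfCoords.noTriv_of_coords P hp hP h1 hmul hadd u hueq humem husep hucomul hp2 htors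
    hAB hA hB

/-- The interface statement `Iface.NoTrivOfCharts` follows from the function-level Ax lemma. -/
theorem noTrivOfCharts_of_axLift
    (hAx : ∀ (p : ℕ), p.Prime → p ≠ 2 → ∀ (P : ValuationSubring Qbar), P.LiesOverPrime p →
      AxLift p P) : NoTrivOfCharts := by
  intro p hp hp2 P hP X _ _ act h1 hmul hadd htors hC A B hAB hA hB
  exact noTriv_of_charts hp hp2 hP (hAx p hp hp2 P hP) h1 hmul hadd htors hC hAB hA hB

end Main

end Fermat.Agent.S33x.L3.NoTrivOfCharts
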