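import Mathlib
import Fermat.Agent.S33x.L3.OrderOfCoords
import Fermat.Agent.S33x.Consumer.OrdPts

/-!
# S33, Layer 3, adapter: coordinates on an inertia-stable subgroup ⟹ `Consumer.Ord.NoTriv`

`X` an abelian group with maps `act : G_ℚ → X → X` satisfying the action axioms on the inertia group
`I` of `P`; `X1 ≤ X` a finite `I`-stable subgroup (in the application `X = J₀(M)[p^m]`,
`X1 = K_m`, which is only stable under the decomposition group of `P`).

* `restrictAct` : the maps `act τ`, `τ ∈ I`, restricted to `X1` (identity for `τ ∉ I`); it satisfies the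
  action axioms on `I` (`restrictAct_one`, `restrictAct_mul`, `restrictAct_add`);
* `noTriv_of_coords_sub` : exact `I`-equivariant separating coordinate functions on the TYPE `↥X1`,
  with values in the maximal ideal of `P` and comultiplications decomposing inside the order they
  generate over `inertiaInt P`, give `Consumer.Ord.NoTriv I act X1`, the form consumed by
  `Consumer.Ord.OrdPts` (helper95's bridge).
-/

set_option autoImplicit false
set_option linter.unusedSectionVars false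
set_option linter.unusedVariables false

noncomputable section

namespace Fermat.Agent.S33x.L3.NoTrivSub

open Fermat.Agent.S56x.Flat.InertiaField Fermat.Agent.S33x.L3.OrderOfCoords

local notation "Qbar" => AlgebraicClosure ℚ
local notation "Γℚ" => (AlgebraicClosure ℚ ≃ₐ[ℚ] AlgebraicClosure ℚ)

variable (P : ValuationSubring Qbar) {X : Type} [AddCommGroup X] (act : Γℚ → X → X)
  (X1 : AddSubgroup X)
  (hstab : ∀ τ ∈ P.inertiaSubgroupIn ℚ, ∀ x ∈ X1, act τ x ∈ X1)

/-- the restriction to the inertia-stable subgroup `X1` of the action of the inertia group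
(extended by the identity outside the inertia group). -/
def restrictAct : Γℚ → ↥X1 → ↥X1 := by
  classical
  exact fun σ x => if h : σ ∈ P.inertiaSubgroupIn ℚ then ⟨act σ x, hstab σ h x x.2⟩ else x

theorem restrictAct_of_mem {σ : Γℚ} (hσ : σ ∈ P.inertiaSubgroupIn ℚ) (x : ↥X1) :
    restrictAct P act X1 hstab σ x = ⟨act σ x, hstab σ hσ x x.2⟩ := by
  classical
  unfold restrictAct
  rw [dif_pos hσ]

theorem coe_restrictAct_of_mem {σ : Γℚ} (hσ : σ ∈ P.inertiaSubgroupIn ℚ) (x : ↥X1) :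
    ((restrictAct P act X1 hstab σ x : ↥X1) : X) = act σ x := by
  rw [restrictAct_of_mem P act X1 hstab hσ]

section Axioms

variable (h1 : ∀ x, act 1 x = x)
  (hmul : ∀ σ ∈ P.inertiaSubgroupIn ℚ, ∀ τ ∈ P.inertiaSubgroupIn ℚ, ∀ x,
    act (σ * τ) x = act σ (act τ x))
  (hadd : ∀ σ ∈ P.inertiaSubgroupIn ℚ, ∀ x y, act σ (x + y) = act σ x + act σ y)

include h1 in
theorem restrictAct_one (x : ↥X1) : restrictAct P act X1 hstab 1 x = x := by
  apply Subtype.ext
  rw [coe_restrictAct_of_mem P act X1 hstab (one_mem _), h1]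

include hmul in
theorem restrictAct_mul : ∀ σ ∈ P.inertiaSubgroupIn ℚ, ∀ τ ∈ P.inertiaSubgroupIn ℚ, ∀ x : ↥X1,
    restrictAct P act X1 hstab (σ * τ) x =
      restrictAct P act X1 hstab σ (restrictAct P act X1 hstab τ x) := by
  intro σ hσ τ hτ x
  apply Subtype.ext
  rw [coe_restrictAct_of_mem P act X1 hstab (mul_mem hσ hτ),
    coe_restrictAct_of_mem P act X1 hstab hσ, coe_restrictAct_of_mem P act X1 hstab hτ,
    hmul σ hσ τ hτ]

include hadd in
theorem restrictAct_add : ∀ σ ∈ P.inertiaSubgroupIn ℚ, ∀ x y : ↥X1,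
    restrictAct P act X1 hstab σ (x + y) =
      restrictAct P act X1 hstab σ x + restrictAct P act X1 hstab σ y := by
  intro σ hσ x y
  apply Subtype.ext
  rw [AddSubgroup.coe_add, coe_restrictAct_of_mem P act X1 hstab hσ,
    coe_restrictAct_of_mem P act X1 hstab hσ, coe_restrictAct_of_mem P act X1 hstab hσ,
    AddSubgroup.coe_add, hadd σ hσ]

end Axioms

section Main

variable {ℓ : ℕ} (hℓ : ℓ.Prime) (hP : P.LiesOverPrime ℓ)
  (h1 : ∀ x, act 1 x = x)
  (hmul : ∀ σ ∈ P.inertiaSubgroupIn ℚ, ∀ τ ∈ P.inertiaSubgroupIn ℚ, ∀ x,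
    act (σ * τ) x = act σ (act τ x))
  (hadd : ∀ σ ∈ P.inertiaSubgroupIn ℚ, ∀ x y, act σ (x + y) = act σ x + act σ y)
  {g : ℕ} (u : Fin g → ↥X1 → Qbar)
  (hueq : ∀ i, ∀ τ ∈ P.inertiaSubgroupIn ℚ, ∀ x : ↥X1,
    u i (restrictAct P act X1 hstab τ x) = τ (u i x))
  (humem : ∀ i x, u i x ∈ P.nonunits)
  (husep : ∀ x y : ↥X1, x ≠ y → ∃ i, u i x ≠ u i y)
  (hucomul : ∀ i, ∃ (m : ℕ) (a b : Fin m → ↥X1 → Qbar),
    (∀ k, a k ∈ Algebra.adjoin (inertiaInt P) (Set.range u)) ∧
    (∀ k, b k ∈ Algebra.adjoin (inertiaInt P) (Set.range u)) ∧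
    ∀ s t : ↥X1, u i (s + t) = ∑ k, a k s * b k t)

include hℓ hP h1 hmul hadd hueq humem husep hucomul in
/-- **`NoTriv` for an inertia-stable subgroup carrying exact coordinates.** -/
theorem noTriv_of_coords_sub [Finite X1] (hℓ2 : ℓ ≠ 2)
    (htors : ∀ x ∈ X1, ∃ m : ℕ, ℓ ^ m • x = 0) :
    Fermat.Agent.S33x.Consumer.Ord.NoTriv (P.inertiaSubgroupIn ℚ : Set Γℚ) act X1 := by
  intro A B hAB hBX1 hτ
  have htors' : ∀ x : ↥X1, ∃ m : ℕ, ℓ ^ m • x = 0 := by
    intro x
    obtain ⟨m, hm⟩ := htors x x.2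
    refine ⟨m, Subtype.ext ?_⟩
    rw [AddSubgroup.coe_nsmul, hm]
    rfl
  have key := noTriv_of_coords P hℓ hP (act := restrictAct P act X1 hstab)
    (restrictAct_one P act X1 hstab h1) (restrictAct_mul P act X1 hstab hmul)
    (restrictAct_add P act X1 hstab hadd) u hueq humem husep hucomul hℓ2 htors'
    (A := A.comap X1.subtype) (B := B.comap X1.subtype) (AddSubgroup.comap_mono hAB) ?_ ?_
  · intro b hb
    have h2 : (⟨b, hBX1 hb⟩ : ↥X1) ∈ B.comap X1.subtype := hb
    exact key h2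
  · intro τ hτI a ha
    show ((restrictAct P act X1 hstab τ a : ↥X1) : X) ∈ A
    rw [coe_restrictAct_of_mem P act X1 hstab hτI]
    have ha' : (a : X) ∈ A := ha
    have h2 : act τ (a : X) = (act τ (a : X) - (a : X)) + (a : X) := by abel
    rw [h2]
    exact A.add_mem (hτ τ hτI _ (hAB ha')) ha'
  · intro τ hτI y hy
    show ((restrictAct P act X1 hstab τ y - y : ↥X1) : X) ∈ A
    rw [AddSubgroup.coe_sub, coe_restrictAct_of_mem P act X1 hstab hτI]
    exact hτ τ hτI _ hy

end Main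

end Fermat.Agent.S33x.L3.NoTrivSub
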