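import Fermat.Agent.S33x.Iface.ApproxChart
import Fermat.Agent.S33x.Ax.EqvLift
import Fermat.Agent.S33x.L3.CoordComul
import Fermat.Agent.S33x.L3.OrderOfCoords

/-!
# S33, Layer 3, TOP ASSEMBLY (independent second, helper41): `Iface.NoTrivOfCharts`

From approximate charts at every level, separating at ONE precision `p ^ c0`
(`Iface.HasApproxCharts`, exported by Layer 2), to: no nonzero subquotient with trivial inertia
action.

* pick the level `N + 1`, `N = c0 * (|X × X| - 1) + c0 + 1`;
* `Ax.exists_equivariant_coord` (Ax's lemma): exactly inertia-equivariant `u` with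
  `u - coord ∈ p ^ N P`;
* transfer: `u` has values in the maximal ideal (`Ax.mem_nonunits_of_sub_eq`), separates to the
  precision `p ^ c0` (`sep_transfer`), satisfies the group law modulo `p ^ N P`
  (`aeval_congr`);
* `CoordComul.coord_comul_fin` (uniform conductor on `X × X`) gives the comultiplication;
* `OrderOfCoords.noTriv_of_coords` (Hopf order + LEMMA (CP)) concludes.
-/

set_option autoImplicit false
set_option linter.unusedSectionVars false
set_option linter.unusedVariables false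

namespace Fermat.Agent.S33x.L3.AssembleB

open Fermat.Agent.S56x.Flat.InertiaField Fermat.Agent.S33x.Iface

local notation "Qbar" => AlgebraicClosure ℚ
local notation "Γℚ" => (AlgebraicClosure ℚ ≃ₐ[ℚ] AlgebraicClosure ℚ)

section PowMemApi

variable {P : ValuationSubring Qbar} {p : ℕ}

theorem powMem_add {n : ℕ} {x y : Qbar} (hx : PowMem P p n x) (hy : PowMem P p n y) :
    PowMem P p n (x + y) := by
  obtain ⟨w, hw, rfl⟩ := hx
  obtain ⟨w', hw', rfl⟩ := hy
  exact ⟨w + w', P.add_mem _ _ hw hw', by ring⟩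

theorem powMem_sub {n : ℕ} {x y : Qbar} (hx : PowMem P p n x) (hy : PowMem P p n y) :
    PowMem P p n (x - y) := by
  obtain ⟨w, hw, rfl⟩ := hx
  obtain ⟨w', hw', rfl⟩ := hy
  exact ⟨w - w', sub_mem hw hw', by ring⟩

theorem powMem_mul_right {n : ℕ} {x a : Qbar} (hx : PowMem P p n x) (ha : a ∈ P) :
    PowMem P p n (x * a) := by
  obtain ⟨w, hw, rfl⟩ := hx
  exact ⟨w * a, P.mul_mem _ _ hw ha, by ring⟩

theorem powMem_mul_left {n : ℕ} {x a : Qbar} (ha : a ∈ P) (hx : PowMem P p n x) :
    PowMem P p n (a * x) := by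
  rw [mul_comm]
  exact powMem_mul_right hx ha

theorem powMem_zero {n : ℕ} : PowMem P p n 0 := ⟨0, P.zero_mem, by rw [mul_zero]⟩

theorem powMem_mono (hpP : (p : Qbar) ∈ P) {m n : ℕ} (hmn : m ≤ n) {x : Qbar}
    (hx : PowMem P p n x) : PowMem P p m x := by
  obtain ⟨w, hw, rfl⟩ := hx
  refine ⟨(p : Qbar) ^ (n - m) * w, P.mul_mem _ _ (pow_mem hpP _) hw, ?_⟩
  rw [← mul_assoc, ← pow_add, Nat.add_sub_cancel' hmn]

/-- **polynomial congruence**: a polynomial over `O^ur` takes congruent values at congruent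
integral points. -/
theorem aeval_congr {ι : Type*} (G : MvPolynomial ι (inertiaInt P)) (a b : ι → Qbar)
    (ha : ∀ j, a j ∈ P) (hb : ∀ j, b j ∈ P) (N : ℕ) (hab : ∀ j, PowMem P p N (a j - b j)) :
    MvPolynomial.aeval a G ∈ P ∧ MvPolynomial.aeval b G ∈ P ∧
      PowMem P p N (MvPolynomial.aeval a G - MvPolynomial.aeval b G) := by
  induction G using MvPolynomial.induction_on with
  | C o =>
    refine ⟨?_, ?_, ?_⟩
    · rw [MvPolynomial.aeval_C]; exact o.2.1
    · rw [MvPolynomial.aeval_C]; exact o.2.1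
    · rw [MvPolynomial.aeval_C, MvPolynomial.aeval_C, sub_self]; exact powMem_zero
  | add q r hq hr =>
    obtain ⟨hq1, hq2, hq3⟩ := hq
    obtain ⟨hr1, hr2, hr3⟩ := hr
    refine ⟨?_, ?_, ?_⟩
    · rw [map_add]; exact P.add_mem _ _ hq1 hr1
    · rw [map_add]; exact P.add_mem _ _ hq2 hr2
    · have h : MvPolynomial.aeval a (q + r) - MvPolynomial.aeval b (q + r) =
          (MvPolynomial.aeval a q - MvPolynomial.aeval b q) +
            (MvPolynomial.aeval a r - MvPolynomial.aeval b r) := by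
        rw [map_add, map_add]; ring
      rw [h]
      exact powMem_add hq3 hr3
  | mul_X q j hq =>
    obtain ⟨hq1, hq2, hq3⟩ := hq
    refine ⟨?_, ?_, ?_⟩
    · rw [map_mul, MvPolynomial.aeval_X]; exact P.mul_mem _ _ hq1 (ha j)
    · rw [map_mul, MvPolynomial.aeval_X]; exact P.mul_mem _ _ hq2 (hb j)
    · have h : MvPolynomial.aeval a (q * MvPolynomial.X j) -
          MvPolynomial.aeval b (q * MvPolynomial.X j) =
          (MvPolynomial.aeval a q - MvPolynomial.aeval b q) * a j +
            MvPolynomial.aeval b q * (a j - b j) := by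
        rw [map_mul, map_mul, MvPolynomial.aeval_X, MvPolynomial.aeval_X]; ring
      rw [h]
      exact powMem_add (powMem_mul_right hq3 (ha j)) (powMem_mul_left hq2 (hab j))

/-- **transfer of the separation**: if `a ∉ p ^ c0 P` and `a' ≡ a` modulo `p ^ N P`, `c0 ≤ N`, then
`p ^ c0 ∈ a' P`. -/
theorem sep_transfer (hp0 : (p : Qbar) ≠ 0) (hpP : (p : Qbar) ∈ P) {c0 N : ℕ} (hN : c0 ≤ N)
    {a a' : Qbar} (hna : ¬ PowMem P p c0 a) (hclose : PowMem P p N (a' - a)) :
    ∃ w ∈ P, (p : Qbar) ^ c0 = a' * w := by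
  have hpc : (p : Qbar) ^ c0 ≠ 0 := pow_ne_zero _ hp0
  have ha0 : a ≠ 0 := fun h => hna (h ▸ powMem_zero)
  set w0 : Qbar := (p : Qbar) ^ c0 / a with hw0
  have hw0n : w0 ∈ P.nonunits := by
    rw [ValuationSubring.mem_nonunits_iff_or]
    right
    intro hin
    refine hna ⟨w0⁻¹, hin, ?_⟩
    rw [hw0, inv_div]
    field_simp
  have haw0 : a * w0 = (p : Qbar) ^ c0 := by
    rw [hw0]; field_simp
  obtain ⟨e, he, hae⟩ := powMem_mono hpP hN hclose
  set t : Qbar := w0 * e with ht
  have htn : t ∈ P.nonunits := Fermat.Agent.Lib.mul_mem_nonunits_of_mem P hw0n he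
  have hv : a' = a * (1 + t) := by
    have h1 : a' = a + (p : Qbar) ^ c0 * e := by rw [← hae]; ring
    rw [h1, ← haw0, ht]; ring
  have hvn : (1 + t) ∉ P.nonunits := by
    intro h
    have h1 : (1 : Qbar) = (1 + t) - t := by ring
    have h2 : (1 : Qbar) ∈ P.nonunits := by
      rw [h1]; exact P.nonunits.sub_mem h htn
    exact Fermat.Agent.Lib.one_not_mem_nonunits P h2
  rw [ValuationSubring.mem_nonunits_iff_or, not_or, not_not] at hvn
  obtain ⟨hv0, hvinv⟩ := hvn
  refine ⟨(1 + t)⁻¹ * w0, P.mul_mem _ _ hvinv (P.nonunits_le hw0n), ?_⟩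
  rw [hv, ← haw0]
  field_simp

end PowMemApi

/-- **LAYER 3 of the S33 blueprint**: approximate charts at every level, separating at one fixed
precision, exclude nonzero subquotients with trivial inertia action. -/
theorem noTrivOfCharts : NoTrivOfCharts := by
  intro p hp hp2 P hP X _ _ act h1 hmul hadd htors hcharts A B hAB hA hB
  obtain ⟨c0, hch⟩ := hcharts
  have hp0 : (p : Qbar) ≠ 0 := Nat.cast_ne_zero.mpr hp.ne_zero
  have hpP : (p : Qbar) ∈ P := P.nonunits_le hP
  set K : ℕ := Nat.card (X × X) - 1 with hK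
  set N : ℕ := c0 * K + c0 + 1 with hN
  obtain ⟨C, hsep⟩ := hch (N + 1)
  obtain ⟨F, hF⟩ := C.add_approx
  obtain ⟨u', hu'eq, hu'close⟩ := Fermat.Agent.S33x.Ax.exists_equivariant_coord P hp hp2 hP act
    h1 hmul C.coord N (fun σ hσ x i => C.coord_inertia σ hσ x i)
  have hclose : ∀ x i, PowMem P p N (u' x i - C.coord x i) := hu'close
  set u : Fin C.g → X → Qbar := fun i x => u' x i with hu
  have hueq : ∀ i, ∀ τ ∈ P.inertiaSubgroupIn ℚ, ∀ x, u i (act τ x) = τ (u i x) :=
    fun i τ hτ x => hu'eq τ hτ x i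
  have hN0 : N ≠ 0 := Nat.succ_ne_zero _
  have humem : ∀ i x, u i x ∈ P.nonunits := by
    intro i x
    obtain ⟨w, hw, he⟩ := hu'close x i
    exact Fermat.Agent.S33x.Ax.mem_nonunits_of_sub_eq P hP hN0 (C.coord_mem x i) hw he
  have huint : ∀ i x, u i x ∈ P := fun i x => P.nonunits_le (humem i x)
  have hcint : ∀ x i, C.coord x i ∈ P := fun x i => P.nonunits_le (C.coord_mem x i)
  have hfixnat : ∀ (k : ℕ), ∀ τ ∈ P.inertiaSubgroupIn ℚ, τ ((p : Qbar) ^ k) = (p : Qbar) ^ k := by
    intro k τ _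
    rw [map_pow, map_natCast]
  have hc0N : c0 ≤ N := by rw [hN]; omega
  have hsep' : ∀ x x', x ≠ x' → ∃ i, ∃ w ∈ P, (p : Qbar) ^ c0 = (u i x - u i x') * w := by
    intro x x' hne
    obtain ⟨i, hi⟩ := hsep x x' hne
    refine ⟨i, sep_transfer hp0 hpP hc0N hi ?_⟩
    have h : (u i x - u i x') - (C.coord x i - C.coord x' i) =
        (u' x i - C.coord x i) - (u' x' i - C.coord x' i) := by
      rw [hu]; ring
    rw [h]
    exact powMem_sub (hclose x i) (hclose x' i)
  have hϖ : ∃ o ∈ P, (p : Qbar) ^ N = ((p : Qbar) ^ c0) ^ (Nat.card (X × X) - 1) * o := by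
    refine ⟨(p : Qbar) ^ (c0 + 1), pow_mem hpP _, ?_⟩
    rw [← pow_mul, ← pow_add, hN, add_assoc]
  have hF' : ∀ x y i, ∃ w ∈ P, u i (x + y) -
      MvPolynomial.aeval (CoordComul.pairPt u x y) (F i) = (p : Qbar) ^ N * w := by
    intro x y i
    have e1 : PowMem P p N (C.coord (x + y) i -
        MvPolynomial.aeval (Sum.elim (C.coord x) (C.coord y)) (F i)) :=
      powMem_mono hpP (Nat.le_succ N) (hF x y i)
    have e2 : PowMem P p N (u' (x + y) i - C.coord (x + y) i) := hclose (x + y) i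
    have e3 := (aeval_congr (p := p) (F i) (CoordComul.pairPt u x y)
      (Sum.elim (C.coord x) (C.coord y))
      (by rintro (j | j)
          · exact huint j x
          · exact huint j y)
      (by rintro (j | j)
          · exact hcint x j
          · exact hcint y j) N
      (by rintro (j | j)
          · exact hclose x j
          · exact hclose y j)).2.2
    have h : u i (x + y) - MvPolynomial.aeval (CoordComul.pairPt u x y) (F i) =
        (u' (x + y) i - C.coord (x + y) i) + (C.coord (x + y) i -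
          MvPolynomial.aeval (Sum.elim (C.coord x) (C.coord y)) (F i)) -
        (MvPolynomial.aeval (CoordComul.pairPt u x y) (F i) -
          MvPolynomial.aeval (Sum.elim (C.coord x) (C.coord y)) (F i)) := by
      rw [hu]; ring
    rw [h]
    exact powMem_sub (powMem_add e2 e1) e3
  have hpc0 : (p : Qbar) ^ c0 ≠ 0 := pow_ne_zero _ hp0
  have hucomul := CoordComul.coord_comul_fin u h1 hmul hadd hueq huint ((p : Qbar) ^ c0) hpc0
    (hfixnat c0) hsep' ((p : Qbar) ^ N) (hfixnat N) hϖ F hF'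
  have husep := CoordComul.coord_separating u ((p : Qbar) ^ c0) hpc0 hsep'
  exact OrderOfCoords.noTriv_of_coords P hp hP h1 hmul hadd u hueq humem husep hucomul hp2 htors
    hAB hA hB

end Fermat.Agent.S33x.L3.AssembleB
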