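import Mathlib
import Fermat.Agent.S56x.Flat.InertiaField

/-!
# S33 support, Layer 3, leaf (L3-b), independent second: the UNIFORM conductor via an invariant Lagrange polynomial (helper25)

`Z` a finite set with an action of inertia, `f i : Z → Qbar` inertia-equivariant `P`-valued
functions which separate the points of `Z` WITH PRECISION `c`: for `z ≠ z'` some difference
`f i z - f i z'` divides `ℓ ^ c` in `P`.  Then `ℓ ^ (c * (|Z| - 1))` times EVERY inertia-equivariant
`P`-valued function on `Z` lies in `Algebra.adjoin (inertiaInt P) (Set.range f)`.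

Unlike `S19x/Alg/ConductorInertia.exists_pow_smul_mem` (qualitative `k`), the exponent is explicit
and depends only on `c` and `|Z|`.

Proof: the Lagrange interpolation polynomial
`Q = ∑ z, C (W z) * ∏ z' ≠ z, C (w z z') * (X (idx z z') - C (f (idx z z') z'))`
(`idx z z'` := a canonically chosen separating index, `w z z' := ℓ ^ c / (f _ z - f _ z')`)
has coefficients in `P`, is coefficientwise invariant under inertia (re-index `z ↦ τ z`), and
`Q (f · z₀) = ℓ ^ (c (|Z| - 1)) * W z₀`.  No determinants, no choice of a basis.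
-/

set_option autoImplicit false
set_option linter.unusedSectionVars false
set_option linter.unusedVariables false

open scoped Pointwise

noncomputable section

namespace Fermat.Agent.S33x.L3.LagrangeConductor

open MvPolynomial

/-! ### The abstract Lagrange polynomial -/

section Core

variable {Om : Type*} [Field Om] {Z : Type*} [Fintype Z] [DecidableEq Z] {ι : Type*}

/-- the Lagrange interpolation polynomial attached to separating indices `idx`, cofactors `w`
and target values `W`. -/
def lagr (f : ι → Z → Om) (idx : Z → Z → ι) (w : Z → Z → Om) (W : Z → Om) : MvPolynomial ι Om :=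
  ∑ z, C (W z) * ∏ z', if z' = z then 1 else C (w z z') * (X (idx z z') - C (f (idx z z') z'))

theorem eval_lagr (f : ι → Z → Om) (idx : Z → Z → ι) (w : Z → Z → Om) (W : Z → Om) (d : Om)
    (hw : ∀ z z', z' ≠ z → w z z' * (f (idx z z') z - f (idx z z') z') = d) (z0 : Z) :
    eval (fun i => f i z0) (lagr f idx w W) = d ^ (Fintype.card Z - 1) * W z0 := by
  unfold lagr
  rw [map_sum, Finset.sum_eq_single z0]
  · rw [map_mul, eval_C, map_prod, mul_comm]
    congr 1
    have h1 : ∀ z', eval (fun i => f i z0)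
        (if z' = z0 then (1 : MvPolynomial ι Om)
          else C (w z0 z') * (X (idx z0 z') - C (f (idx z0 z') z'))) =
        if z' = z0 then 1 else d := by
      intro z'
      by_cases h : z' = z0
      · simp [h]
      · rw [if_neg h, if_neg h, map_mul, eval_C, map_sub, eval_X, eval_C]
        exact hw z0 z' h
    rw [Finset.prod_congr rfl fun z' _ => h1 z', Finset.prod_ite, Finset.prod_const_one, one_mul,
      Finset.prod_const]
    congr 1
    rw [Finset.filter_not, Finset.filter_eq', if_pos (Finset.mem_univ _),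
      Finset.card_sdiff_of_subset (by simp), Finset.card_univ, Finset.card_singleton]
  · intro z _ hz
    rw [map_mul, map_prod]
    have : eval (fun i => f i z0)
        (if z0 = z then (1 : MvPolynomial ι Om)
          else C (w z z0) * (X (idx z z0) - C (f (idx z z0) z0))) = 0 := by
      rw [if_neg (Ne.symm hz), map_mul, map_sub, eval_X, eval_C, eval_C, sub_self, mul_zero]
    rw [Finset.prod_eq_zero (Finset.mem_univ z0) this, mul_zero]
  · intro h
    exact absurd (Finset.mem_univ _) h

/-- coefficients in a subring. -/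
theorem lagr_mem_range_map (V : Subring Om) (f : ι → Z → Om) (idx : Z → Z → ι) (w : Z → Z → Om)
    (W : Z → Om) (hf : ∀ i z, f i z ∈ V) (hw : ∀ z z', w z z' ∈ V) (hW : ∀ z, W z ∈ V) :
    lagr f idx w W ∈ (MvPolynomial.map (σ := ι) V.subtype).range := by
  have hC : ∀ c ∈ V, (C c : MvPolynomial ι Om) ∈ (MvPolynomial.map (σ := ι) V.subtype).range :=
    fun c hc => ⟨C ⟨c, hc⟩, by simp⟩
  have hX : ∀ i, (X i : MvPolynomial ι Om) ∈ (MvPolynomial.map (σ := ι) V.subtype).range :=
    fun i => ⟨X i, by simp⟩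
  unfold lagr
  refine Subring.sum_mem _ fun z _ => Subring.mul_mem _ (hC _ (hW z)) ?_
  refine Subring.prod_mem _ fun z' _ => ?_
  split_ifs
  · exact Subring.one_mem _
  · exact Subring.mul_mem _ (hC _ (hw z z')) (Subring.sub_mem _ (hX _) (hC _ (hf _ _)))

/-- invariance under a ring endomorphism `σ` compatible with a permutation `a` of `Z`. -/
theorem map_lagr (f : ι → Z → Om) (idx : Z → Z → ι) (w : Z → Z → Om) (W : Z → Om)
    (σ : Om →+* Om) (a : Z ≃ Z) (hf : ∀ i z, f i (a z) = σ (f i z))
    (hidx : ∀ z z', idx (a z) (a z') = idx z z') (hw : ∀ z z', w (a z) (a z') = σ (w z z'))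
    (hW : ∀ z, W (a z) = σ (W z)) :
    MvPolynomial.map σ (lagr f idx w W) = lagr f idx w W := by
  unfold lagr
  rw [map_sum]
  conv_rhs => rw [← Equiv.sum_comp a]
  refine Finset.sum_congr rfl fun z _ => ?_
  rw [map_mul, map_C, ← hW z, map_prod]
  conv_rhs => rw [← Equiv.prod_comp a]
  congr 1
  refine Finset.prod_congr rfl fun z' _ => ?_
  by_cases h : z' = z
  · simp [h]
  · have h' : a z' ≠ a z := fun e => h (a.injective e)
    rw [if_neg h, if_neg h', map_mul, map_C, map_sub, map_X, map_C, hidx, hw, hf]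

end Core

/-! ### The arithmetic statement -/

section Main

open Fermat.Agent.S56x.Flat.InertiaField

local notation "Qbar" => AlgebraicClosure ℚ
local notation "Γℚ" => (AlgebraicClosure ℚ ≃ₐ[ℚ] AlgebraicClosure ℚ)

variable (P : ValuationSubring Qbar)

/-- inertia preserves `P`. -/
theorem map_mem_of_mem_inertia {τ : Γℚ} (hτ : τ ∈ P.inertiaSubgroupIn ℚ) {c : Qbar} (hc : c ∈ P) :
    τ c ∈ P := by
  obtain ⟨x, _, rfl⟩ := hτ
  have h1 : (x : Γℚ) • P = P := x.2
  have h2 : (x : Γℚ) c ∈ (x : Γℚ) • P := ⟨c, hc, rfl⟩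
  rwa [h1] at h2

/-- evaluation at a point of `aeval` in the function algebra. -/
theorem aeval_apply_eq_eval_map {Z : Type*} {ι : Type*} (f : ι → Z → Qbar)
    (Q0 : MvPolynomial ι (inertiaInt P)) (z0 : Z) :
    (MvPolynomial.aeval f Q0) z0 =
      eval (fun i => f i z0) (MvPolynomial.map (inertiaInt P).subtype Q0) := by
  rw [eval_map, MvPolynomial.aeval_def]
  have h := eval₂_comp_left (Pi.evalRingHom (fun _ : Z => Qbar) z0)
    (algebraMap (inertiaInt P) (Z → Qbar)) f Q0
  exact h

/-- **(L3-b) The uniform conductor.**  If the inertia-equivariant `P`-valued functions `f i`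
separate the points of the finite inertia-set `Z` with precision `c`, then
`ℓ ^ (c * (|Z| - 1))` times every inertia-equivariant `P`-valued function on `Z` is a polynomial
in the `f i` with coefficients in `inertiaInt P`. -/
theorem pow_smul_mem_adjoin {ℓ : ℕ} {Z : Type*} [Finite Z] (actZ : Γℚ → Z → Z)
    (hact1 : ∀ z, actZ 1 z = z) (hactmul : ∀ σ τ z, actZ (σ * τ) z = actZ σ (actZ τ z))
    {ι : Type*} (f : ι → Z → Qbar)
    (hfeq : ∀ i, ∀ τ ∈ P.inertiaSubgroupIn ℚ, ∀ z, f i (actZ τ z) = τ (f i z))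
    (hfint : ∀ i z, f i z ∈ P) (c : ℕ)
    (hsep : ∀ z z', z ≠ z' → ∃ i, ∃ w ∈ P, (f i z - f i z') * w = (ℓ : Qbar) ^ c)
    (W : Z → Qbar) (hWeq : ∀ τ ∈ P.inertiaSubgroupIn ℚ, ∀ z, W (actZ τ z) = τ (W z))
    (hWint : ∀ z, W z ∈ P) :
    (fun z => (ℓ : Qbar) ^ (c * (Nat.card Z - 1)) * W z) ∈
      Algebra.adjoin (inertiaInt P) (Set.range f) := by
  classical
  let _ : Fintype Z := Fintype.ofFinite Z
  rcases isEmpty_or_nonempty ι with hι | hι
  · -- no functions at all: `Z` has at most one point and `W` is a constant in `inertiaInt P`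
    have hsub : Subsingleton Z := ⟨fun z z' => by
      by_contra h
      obtain ⟨i, _⟩ := hsep z z' h
      exact hι.false i⟩
    have hcard : Nat.card Z - 1 = 0 := by
      have := Finite.card_le_one_iff_subsingleton.2 hsub
      omega
    rw [hcard, mul_zero]
    simp only [pow_zero, one_mul]
    rcases isEmpty_or_nonempty Z with hZ | ⟨⟨z0⟩⟩
    · have : (fun z => W z) = (0 : Z → Qbar) := funext fun z => hZ.elim z
      rw [this]
      exact Subalgebra.zero_mem _
    · have hfix : ∀ τ ∈ P.inertiaSubgroupIn ℚ, τ (W z0) = W z0 := fun τ hτ => by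
        rw [← hWeq τ hτ z0, Subsingleton.elim (actZ τ z0) z0]
      have : (fun z => W z) =
          algebraMap (inertiaInt P) (Z → Qbar) ⟨W z0, hWint z0, hfix⟩ := by
        funext z
        rw [Subsingleton.elim z z0]
        rfl
      rw [this]
      exact Subalgebra.algebraMap_mem _ _
  · set d : Qbar := (ℓ : Qbar) ^ c with hd
    -- inertia fixes `d`
    have hdfix : ∀ τ : Γℚ, τ d = d := fun τ => by rw [hd, map_pow, map_natCast]
    -- the separating predicate and its canonical witness
    let pred : Z → Z → ι → Prop := fun z z' i => ∃ w ∈ P, (f i z - f i z') * w = d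
    let idx : Z → Z → ι := fun z z' => Classical.epsilon (pred z z')
    let w : Z → Z → Qbar := fun z z' => d * (f (idx z z') z - f (idx z z') z')⁻¹
    have hspec : ∀ z z', z' ≠ z → pred z z' (idx z z') := fun z z' h =>
      Classical.epsilon_spec (hsep z z' (Ne.symm h))
    have hw : ∀ z z', z' ≠ z → w z z' * (f (idx z z') z - f (idx z z') z') = d := by
      intro z z' h
      obtain ⟨w', _, hw'⟩ := hspec z z' h
      by_cases h0 : f (idx z z') z - f (idx z z') z' = 0
      · rw [h0, mul_zero]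
        rw [h0, zero_mul] at hw'
        exact hw'
      · show d * (f (idx z z') z - f (idx z z') z')⁻¹ * (f (idx z z') z - f (idx z z') z') = d
        rw [mul_assoc, inv_mul_cancel₀ h0, mul_one]
    have hwP : ∀ z z', w z z' ∈ P := by
      intro z z'
      by_cases h0 : f (idx z z') z - f (idx z z') z' = 0
      · show d * (f (idx z z') z - f (idx z z') z')⁻¹ ∈ P
        rw [h0, inv_zero, mul_zero]
        exact P.zero_mem
      · have hne : z' ≠ z := by
          rintro rfl
          exact h0 (sub_self _)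
        obtain ⟨w', hw'P, hw'⟩ := hspec z z' hne
        have : w z z' = w' := by
          show d * (f (idx z z') z - f (idx z z') z')⁻¹ = w'
          rw [← hw', mul_comm, ← mul_assoc, inv_mul_cancel₀ h0, one_mul]
        rw [this]
        exact hw'P
    -- the permutation of `Z` attached to an element of the Galois group
    let perm : Γℚ → Z ≃ Z := fun τ =>
      { toFun := actZ τ
        invFun := actZ τ⁻¹
        left_inv := fun z => by rw [← hactmul, inv_mul_cancel, hact1]
        right_inv := fun z => by rw [← hactmul, mul_inv_cancel, hact1] }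
    -- equivariance of the canonical choices
    have hpred : ∀ τ ∈ P.inertiaSubgroupIn ℚ, ∀ z z' i,
        pred (actZ τ z) (actZ τ z') i → pred z z' i := by
      rintro τ hτ z z' i ⟨w', hw'P, hw'⟩
      refine ⟨τ⁻¹ w', map_mem_of_mem_inertia P (inv_mem hτ) hw'P, ?_⟩
      have h1 := congrArg (τ⁻¹ : Γℚ) hw'
      rw [hdfix, map_mul, map_sub, hfeq i τ hτ, hfeq i τ hτ] at h1
      have h2 : ∀ x : Qbar, (τ⁻¹ : Γℚ) (τ x) = x := fun x => by
        show (τ⁻¹ * τ) x = x
        rw [inv_mul_cancel]
        rfl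
      rwa [h2, h2] at h1
    have hpred' : ∀ τ ∈ P.inertiaSubgroupIn ℚ, ∀ z z' i,
        pred z z' i → pred (actZ τ z) (actZ τ z') i := by
      rintro τ hτ z z' i ⟨w', hw'P, hw'⟩
      refine ⟨τ w', map_mem_of_mem_inertia P hτ hw'P, ?_⟩
      rw [hfeq i τ hτ, hfeq i τ hτ, ← map_sub, ← map_mul, hw', hdfix]
    have hidx : ∀ τ ∈ P.inertiaSubgroupIn ℚ, ∀ z z', idx (actZ τ z) (actZ τ z') = idx z z' := by
      intro τ hτ z z'
      have : pred (actZ τ z) (actZ τ z') = pred z z' :=
        funext fun i => propext ⟨hpred τ hτ z z' i, hpred' τ hτ z z' i⟩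
      show Classical.epsilon (pred (actZ τ z) (actZ τ z')) = Classical.epsilon (pred z z')
      rw [this]
    have hwτ : ∀ τ ∈ P.inertiaSubgroupIn ℚ, ∀ z z', w (actZ τ z) (actZ τ z') = τ (w z z') := by
      intro τ hτ z z'
      show d * (f (idx (actZ τ z) (actZ τ z')) (actZ τ z) -
        f (idx (actZ τ z) (actZ τ z')) (actZ τ z'))⁻¹ =
        τ (d * (f (idx z z') z - f (idx z z') z')⁻¹)
      rw [hidx τ hτ, hfeq _ τ hτ, hfeq _ τ hτ, map_mul, hdfix, map_inv₀, map_sub]
    -- the Lagrange polynomial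
    set Q : MvPolynomial ι Qbar := lagr f idx w W with hQ
    have hQP : Q ∈ (MvPolynomial.map (σ := ι) P.toSubring.subtype).range :=
      lagr_mem_range_map P.toSubring f idx w W hfint hwP hWint
    have hQfix : ∀ τ ∈ P.inertiaSubgroupIn ℚ,
        MvPolynomial.map ((τ : Γℚ) : Qbar →+* Qbar) Q = Q := fun τ hτ =>
      map_lagr f idx w W ((τ : Γℚ) : Qbar →+* Qbar) (perm τ) (fun i z => hfeq i τ hτ z)
        (hidx τ hτ) (hwτ τ hτ) (hWeq τ hτ)
    have hcoeff : ∀ m, Q.coeff m ∈ inertiaInt P := by
      intro m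
      refine ⟨?_, fun τ hτ => ?_⟩
      · obtain ⟨Q1, hQ1⟩ := hQP
        rw [← hQ1, coeff_map]
        exact (Q1.coeff m).2
      · have := congrArg (MvPolynomial.coeff m) (hQfix τ hτ)
        rwa [coeff_map] at this
    have hQO : Q ∈ Set.range (MvPolynomial.map (σ := ι) (inertiaInt P).subtype) := by
      rw [mem_range_map_iff_coeffs_subset]
      intro x hx
      obtain ⟨n, _, rfl⟩ := mem_coeffs_iff.1 hx
      exact ⟨⟨_, hcoeff n⟩, rfl⟩
    obtain ⟨Q0, hQ0⟩ := hQO
    have hfun : (fun z => (ℓ : Qbar) ^ (c * (Nat.card Z - 1)) * W z) =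
        MvPolynomial.aeval f Q0 := by
      funext z0
      rw [aeval_apply_eq_eval_map, hQ0, hQ, eval_lagr f idx w W d hw z0, hd, ← pow_mul,
        Nat.card_eq_fintype_card]
    rw [hfun, Algebra.adjoin_range_eq_range_aeval]
    exact ⟨Q0, rfl⟩

/-- the same, for a subalgebra containing the `f i` (shape of
`S19x.Alg.OfChart.ConductorStatement`, with an explicit exponent). -/
theorem pow_smul_mem {ℓ : ℕ} {Z : Type*} [Finite Z] (actZ : Γℚ → Z → Z)
    (hact1 : ∀ z, actZ 1 z = z) (hactmul : ∀ σ τ z, actZ (σ * τ) z = actZ σ (actZ τ z))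
    (M : Subalgebra (inertiaInt P) (Z → Qbar)) {ι : Type*} (f : ι → Z → Qbar)
    (hfM : ∀ i, f i ∈ M)
    (hfeq : ∀ i, ∀ τ ∈ P.inertiaSubgroupIn ℚ, ∀ z, f i (actZ τ z) = τ (f i z))
    (hfint : ∀ i z, f i z ∈ P) (c : ℕ)
    (hsep : ∀ z z', z ≠ z' → ∃ i, ∃ w ∈ P, (f i z - f i z') * w = (ℓ : Qbar) ^ c)
    (W : Z → Qbar) (hWeq : ∀ τ ∈ P.inertiaSubgroupIn ℚ, ∀ z, W (actZ τ z) = τ (W z))
    (hWint : ∀ z, W z ∈ P) :
    (fun z => (ℓ : Qbar) ^ (c * (Nat.card Z - 1)) * W z) ∈ M :=
  Algebra.adjoin_le (by rintro _ ⟨i, rfl⟩; exact hfM i)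
    (pow_smul_mem_adjoin P actZ hact1 hactmul f hfeq hfint c hsep W hWeq hWint)

end Main

end Fermat.Agent.S33x.L3.LagrangeConductor
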