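/-
S33 (blueprint v2, LAYER 3), leaf (L3-a) LIFTING LEMMA (helper10).

`Qbar = AlgebraicClosure ℚ`, `P` a valuation subring of `Qbar` over the prime `p`, `H` a group of
automorphisms of `Qbar` preserving `P` (e.g. a subgroup of the decomposition or of the inertia group of
`P`).  An element `y` which is `H`-invariant modulo `p ^ n P` is congruent, modulo `p ^ (n - δ) P`, to an
exactly `H`-invariant element; the loss `δ` depends only on the degree of `y` over `ℚ`
(`exists_fixed_approx`).  Proof: average over the (finite) `H`-orbit of `y`; the orbit has at most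
`deg y` elements, and `p ^ d / N ∈ P` for `0 < N ≤ d`.  No trace form, no different, no Tate.

Function form (`exists_equivariant_approx`, `exists_equivariant_approx_inertia`): on a set `X` with
an action of `Γℚ`, a `Qbar`-valued function which is `I`-equivariant modulo `p ^ n P`, and whose values
are fixed by the elements of `I` fixing ONE field `L` of finite degree `d` over `ℚ`, is congruent
modulo `p ^ (n - d) P` to an exactly `I`-equivariant function (orbit representatives + transport).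
The loss is bounded by the orbit sizes only (`lift_approx`).
-/
import Mathlib
import Fermat.Prelude.Def_FLTPrelim_Ramification

set_option autoImplicit false
set_option linter.unusedSectionVars false
set_option linter.unusedVariables false

open scoped Pointwise

noncomputable section

namespace Fermat.Agent.S33x.L3.LiftingAvg

local notation "Qbar" => AlgebraicClosure ℚ
local notation "Γℚ" => (AlgebraicClosure ℚ ≃ₐ[ℚ] AlgebraicClosure ℚ)

/-- `x ∈ p ^ n P`. -/
def PowMem (P : ValuationSubring Qbar) (p n : ℕ) (x : Qbar) : Prop :=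
  ∃ w ∈ P, x = (p : Qbar) ^ n * w

section PowMem

variable {P : ValuationSubring Qbar} {p n : ℕ}

theorem PowMem.zero : PowMem P p n 0 := ⟨0, P.zero_mem, by simp⟩

theorem PowMem.add {x y : Qbar} (hx : PowMem P p n x) (hy : PowMem P p n y) :
    PowMem P p n (x + y) := by
  obtain ⟨w, hw, rfl⟩ := hx
  obtain ⟨w', hw', rfl⟩ := hy
  exact ⟨w + w', P.add_mem _ _ hw hw', by ring⟩

theorem PowMem.neg {x : Qbar} (hx : PowMem P p n x) : PowMem P p n (-x) := by
  obtain ⟨w, hw, rfl⟩ := hx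
  exact ⟨-w, P.neg_mem _ hw, by ring⟩

theorem PowMem.sub {x y : Qbar} (hx : PowMem P p n x) (hy : PowMem P p n y) :
    PowMem P p n (x - y) := by
  rw [sub_eq_add_neg]
  exact hx.add hy.neg

theorem PowMem.mul_left {x : Qbar} (hx : PowMem P p n x) {a : Qbar} (ha : a ∈ P) :
    PowMem P p n (a * x) := by
  obtain ⟨w, hw, rfl⟩ := hx
  exact ⟨a * w, P.mul_mem _ _ ha hw, by ring⟩

theorem PowMem.sum {ι : Type*} (s : Finset ι) (f : ι → Qbar) (h : ∀ i ∈ s, PowMem P p n (f i)) :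
    PowMem P p n (∑ i ∈ s, f i) := by
  classical
  induction s using Finset.induction_on with
  | empty => simpa using PowMem.zero
  | insert a s ha ih =>
    rw [Finset.sum_insert ha]
    exact (h a (Finset.mem_insert_self a s)).add
      (ih fun i hi => h i (Finset.mem_insert_of_mem hi))

theorem PowMem.map {x : Qbar} (hx : PowMem P p n x) (σ : Γℚ) (hσ : ∀ w ∈ P, σ w ∈ P) :
    PowMem P p n (σ x) := by
  obtain ⟨w, hw, rfl⟩ := hx
  exact ⟨σ w, hσ w hw, by simp⟩

theorem PowMem.mono {x : Qbar} {m : ℕ} (hx : PowMem P p n x) (hmn : m ≤ n) :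
    PowMem P p m x := by
  obtain ⟨w, hw, rfl⟩ := hx
  refine ⟨(p : Qbar) ^ (n - m) * w, P.mul_mem _ _ (P.pow_mem (natCast_mem P p) _) hw, ?_⟩
  rw [← mul_assoc, ← pow_add, Nat.add_sub_cancel' hmn]

/-- cancelling `p ^ d`: if `p ^ d x ∈ p ^ n P` and `d ≤ n` then `x ∈ p ^ (n - d) P`. -/
theorem PowMem.cancel {x : Qbar} {d : ℕ} (hp : p ≠ 0) (hx : PowMem P p n ((p : Qbar) ^ d * x))
    (hdn : d ≤ n) : PowMem P p (n - d) x := by
  obtain ⟨w, hw, hxw⟩ := hx
  refine ⟨w, hw, ?_⟩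
  have hp0 : ((p : Qbar) ^ d) ≠ 0 := pow_ne_zero _ (Nat.cast_ne_zero.mpr hp)
  apply mul_left_cancel₀ hp0
  rw [hxw, ← mul_assoc, ← pow_add, Nat.add_sub_cancel' hdn]

end PowMem

/-! ### `p ^ d / N ∈ P` for `0 < N ≤ d` -/

/-- a natural number prime to `p` is a unit of `P`. -/
theorem inv_natCast_mem (P : ValuationSubring Qbar) {p : ℕ} (hp : p.Prime)
    (hP : P.LiesOverPrime p) {u : ℕ} (hu : ¬ p ∣ u) : ((u : Qbar))⁻¹ ∈ P := by
  have hcop : Nat.Coprime u p := ((Nat.Prime.coprime_iff_not_dvd hp).2 hu).symm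
  have hbez := Int.gcd_eq_gcd_ab (u : ℤ) (p : ℤ)
  have hg : Int.gcd (u : ℤ) (p : ℤ) = 1 := by
    rw [Int.gcd_natCast_natCast]
    exact hcop
  rw [hg] at hbez
  have hbezQ : (1 : Qbar) = (u : Qbar) * ((Int.gcdA (u : ℤ) (p : ℤ) : ℤ) : Qbar) +
      (p : Qbar) * ((Int.gcdB (u : ℤ) (p : ℤ) : ℤ) : Qbar) := by
    have := congrArg (fun z : ℤ => (z : Qbar)) hbez
    simpa using this
  set a : Qbar := ((Int.gcdA (u : ℤ) (p : ℤ) : ℤ) : Qbar) with ha
  set b : Qbar := ((Int.gcdB (u : ℤ) (p : ℤ) : ℤ) : Qbar) with hb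
  have haP : a ∈ P := intCast_mem P _
  have hbP : b ∈ P := intCast_mem P _
  have huP : (u : Qbar) ∈ P := natCast_mem P u
  have hpb : P.valuation ((p : Qbar) * b) < 1 := by
    rw [map_mul]
    have h1 : P.valuation (p : Qbar) < 1 := (ValuationSubring.mem_nonunits_iff P).mp hP
    have h2 : P.valuation b ≤ 1 := (P.valuation_le_one_iff b).mpr hbP
    calc P.valuation (p : Qbar) * P.valuation b ≤ P.valuation (p : Qbar) * 1 := by gcongr
      _ = P.valuation (p : Qbar) := mul_one _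
      _ < 1 := h1
  have hua : (u : Qbar) * a = 1 - (p : Qbar) * b := by linear_combination -hbezQ
  have hv1 : P.valuation ((u : Qbar) * a) = 1 := by
    rw [hua]
    exact Valuation.map_one_sub_of_lt _ hpb
  rw [map_mul] at hv1
  have hvu : P.valuation (u : Qbar) ≤ 1 := (P.valuation_le_one_iff _).mpr huP
  have hva : P.valuation a ≤ 1 := (P.valuation_le_one_iff _).mpr haP
  have hvu1 : P.valuation (u : Qbar) = 1 := by
    apply le_antisymm hvu
    calc (1 : _) = P.valuation (u : Qbar) * P.valuation a := hv1.symm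
      _ ≤ P.valuation (u : Qbar) * 1 := by gcongr
      _ = P.valuation (u : Qbar) := mul_one _
  rw [← P.valuation_le_one_iff, map_inv₀, hvu1, inv_one]

/-- `p ^ d / N ∈ P` for `0 < N ≤ d`. -/
theorem pow_div_natCast_mem (P : ValuationSubring Qbar) {p : ℕ} (hp : p.Prime)
    (hP : P.LiesOverPrime p) {N d : ℕ} (hN : 0 < N) (hNd : N ≤ d) :
    (p : Qbar) ^ d * ((N : Qbar))⁻¹ ∈ P := by
  obtain ⟨e, u, hu, hNe⟩ := Nat.exists_eq_pow_mul_and_not_dvd hN.ne' p hp.ne_one
  have hu0 : u ≠ 0 := by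
    rintro rfl
    exact hu (dvd_zero p)
  have hed : e ≤ d := by
    have h1 : p ^ e ≤ N := by
      rw [hNe]
      exact Nat.le_mul_of_pos_right _ (Nat.pos_of_ne_zero hu0)
    have h2 : e < p ^ e := Nat.lt_pow_self hp.one_lt
    omega
  have hp0 : (p : Qbar) ≠ 0 := Nat.cast_ne_zero.mpr hp.ne_zero
  have hu0' : (u : Qbar) ≠ 0 := Nat.cast_ne_zero.mpr hu0
  have h3 : (p : Qbar) ^ d * ((N : Qbar))⁻¹ = (p : Qbar) ^ (d - e) * ((u : Qbar))⁻¹ := by
    rw [hNe]
    push_cast
    have : (p : Qbar) ^ d = (p : Qbar) ^ (d - e) * (p : Qbar) ^ e := by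
      rw [← pow_add, Nat.sub_add_cancel hed]
    rw [this]
    field_simp
  rw [h3]
  exact P.mul_mem _ _ (P.pow_mem (natCast_mem P p) _) (inv_natCast_mem P hp hP hu)

/-! ### the element form: orbit averaging -/

section Element

variable (P : ValuationSubring Qbar) {p : ℕ} (H : Subgroup Γℚ)

open Classical in
/-- the `H`-orbit of `y`, as a finset (inside the roots of the minimal polynomial of `y`). -/
def orb (y : Qbar) : Finset Qbar :=
  (((minpoly ℚ y).aroots Qbar).toFinset).filter (fun z => ∃ σ ∈ H, σ y = z)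

theorem mem_orb {y z : Qbar} : z ∈ orb H y ↔ ∃ σ ∈ H, σ y = z := by
  classical
  unfold orb
  rw [Finset.mem_filter, Multiset.mem_toFinset]
  constructor
  · exact fun h => h.2
  · rintro ⟨σ, hσ, rfl⟩
    refine ⟨?_, σ, hσ, rfl⟩
    have : Algebra.IsAlgebraic ℚ Qbar := AlgebraicClosure.isAlgebraic ℚ
    have hy : IsIntegral ℚ y := Algebra.IsIntegral.isIntegral y
    rw [Polynomial.mem_aroots]
    refine ⟨minpoly.ne_zero hy, ?_⟩
    rw [Polynomial.aeval_algHom_apply, minpoly.aeval, map_zero]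

theorem self_mem_orb (y : Qbar) : y ∈ orb H y := (mem_orb H).mpr ⟨1, H.one_mem, rfl⟩

theorem card_orb_pos (y : Qbar) : 0 < (orb H y).card :=
  Finset.card_pos.mpr ⟨y, self_mem_orb H y⟩

theorem card_orb_le (y : Qbar) : (orb H y).card ≤ (minpoly ℚ y).natDegree := by
  classical
  unfold orb
  calc _ ≤ (((minpoly ℚ y).aroots Qbar).toFinset).card := Finset.card_filter_le _ _
    _ ≤ ((minpoly ℚ y).aroots Qbar).card := Multiset.toFinset_card_le _
    _ ≤ ((minpoly ℚ y).map (algebraMap ℚ Qbar)).natDegree := Polynomial.card_roots' _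
    _ = (minpoly ℚ y).natDegree := Polynomial.natDegree_map _

/-- `H` permutes the orbit. -/
theorem sum_orb_map (y : Qbar) {σ : Γℚ} (hσ : σ ∈ H) :
    ∑ z ∈ orb H y, σ z = ∑ z ∈ orb H y, z := by
  classical
  refine Finset.sum_bij' (fun z _ => σ z) (fun z _ => σ⁻¹ z) ?_ ?_ ?_ ?_ ?_
  · intro z hz
    obtain ⟨τ, hτ, rfl⟩ := (mem_orb H).mp hz
    exact (mem_orb H).mpr ⟨σ * τ, H.mul_mem hσ hτ, rfl⟩
  · intro z hz
    obtain ⟨τ, hτ, rfl⟩ := (mem_orb H).mp hz
    exact (mem_orb H).mpr ⟨σ⁻¹ * τ, H.mul_mem (H.inv_mem hσ) hτ, rfl⟩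
  · intro z _
    show σ⁻¹ (σ z) = z
    rw [← AlgEquiv.mul_apply, inv_mul_cancel, AlgEquiv.one_apply]
  · intro z _
    show σ (σ⁻¹ z) = z
    rw [← AlgEquiv.mul_apply, mul_inv_cancel, AlgEquiv.one_apply]
  · intro z _
    rfl

/-- the orbit average. -/
def avg (y : Qbar) : Qbar := (((orb H y).card : ℕ) : Qbar)⁻¹ * ∑ z ∈ orb H y, z

theorem avg_fixed (y : Qbar) {σ : Γℚ} (hσ : σ ∈ H) : σ (avg H y) = avg H y := by
  unfold avg
  rw [map_mul, map_inv₀, map_natCast, map_sum, sum_orb_map H y hσ]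

/-- `y - avg = (1 / |orbit|) ∑ (y - z)`. -/
theorem sub_avg (y : Qbar) :
    y - avg H y = (((orb H y).card : ℕ) : Qbar)⁻¹ * ∑ z ∈ orb H y, (y - z) := by
  unfold avg
  have hc : (((orb H y).card : ℕ) : Qbar) ≠ 0 := Nat.cast_ne_zero.mpr (card_orb_pos H y).ne'
  rw [Finset.sum_sub_distrib, Finset.sum_const, nsmul_eq_mul, mul_sub, ← mul_assoc,
    inv_mul_cancel₀ hc, one_mul]

/-- **(L3-a), element form.**  If `y` is `H`-invariant modulo `p ^ n P` and has degree `≤ d` over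
`ℚ`, then the orbit average `y'` is exactly `H`-invariant and `p ^ d (y - y') ∈ p ^ n P`. -/
theorem exists_fixed_approx (hp : p.Prime) (hP : P.LiesOverPrime p)
    (hH : ∀ σ ∈ H, ∀ w ∈ P, σ w ∈ P) {d n : ℕ} {y : Qbar}
    (hd : (orb H y).card ≤ d)
    (hy : ∀ σ ∈ H, PowMem P p n (σ y - y)) :
    (∀ σ ∈ H, σ (avg H y) = avg H y) ∧ PowMem P p n ((p : Qbar) ^ d * (y - avg H y)) := by
  refine ⟨fun σ hσ => avg_fixed H y hσ, ?_⟩
  rw [sub_avg, ← mul_assoc]
  refine PowMem.mul_left ?_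
    (pow_div_natCast_mem P hp hP (card_orb_pos H y) hd)
  refine PowMem.sum _ _ fun z hz => ?_
  obtain ⟨σ, hσ, rfl⟩ := (mem_orb H).mp hz
  have := (hy σ hσ).neg
  rwa [neg_sub] at this

/-- the average of elements of an `H`-stable subfield lies in it. -/
theorem avg_mem_of_stable (L : IntermediateField ℚ Qbar) (hL : ∀ σ ∈ H, ∀ a ∈ L, σ a ∈ L)
    {y : Qbar} (hy : y ∈ L) : avg H y ∈ L := by
  unfold avg
  refine L.mul_mem (L.inv_mem (natCast_mem L _)) (L.sum_mem fun z hz => ?_)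
  obtain ⟨σ, hσ, rfl⟩ := (mem_orb H).mp hz
  exact hL σ hσ y hy

/-- the average of an element of `P` which is invariant modulo `p ^ n P`, `d ≤ n`, lies in `P`. -/
theorem avg_mem (hp : p.Prime) (hP : P.LiesOverPrime p)
    (hH : ∀ σ ∈ H, ∀ w ∈ P, σ w ∈ P) {d n : ℕ} {y : Qbar} (hyP : y ∈ P)
    (hd : (orb H y).card ≤ d) (hdn : d ≤ n)
    (hy : ∀ σ ∈ H, PowMem P p n (σ y - y)) : avg H y ∈ P := by
  have h1 := (exists_fixed_approx P H hp hP hH hd hy).2
  obtain ⟨w, hw, hwe⟩ := PowMem.cancel hp.ne_zero h1 hdn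
  have h2 : avg H y = y - (p : Qbar) ^ (n - d) * w := by rw [← hwe]; ring
  rw [h2]
  exact sub_mem hyP (P.mul_mem _ _ (P.pow_mem (natCast_mem P p) _) hw)

/-- the degree bound from a finite-dimensional field of definition. -/
theorem natDegree_minpoly_le_finrank (L : IntermediateField ℚ Qbar) [FiniteDimensional ℚ L]
    {y : Qbar} (hy : y ∈ L) : (minpoly ℚ y).natDegree ≤ Module.finrank ℚ L := by
  have h1 := minpoly.natDegree_le (A := ℚ) (⟨y, hy⟩ : L)
  exact (congrArg Polynomial.natDegree (IntermediateField.minpoly_eq (⟨y, hy⟩ : L))).symm.le.trans h1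

/-- orbit bound (a): a field of definition of finite degree. -/
theorem card_orb_le_finrank_of_mem (L : IntermediateField ℚ Qbar) [FiniteDimensional ℚ L]
    {y : Qbar} (hy : y ∈ L) : (orb H y).card ≤ Module.finrank ℚ L :=
  (card_orb_le H y).trans (natDegree_minpoly_le_finrank L hy)

/-- orbit bound (b): `y` is fixed by the elements of `H` fixing a field `L` of finite degree
(e.g. `y` is a polynomial expression, with coefficients fixed by `H`, in elements of `L`). -/
theorem card_orb_le_finrank (L : IntermediateField ℚ Qbar) [FiniteDimensional ℚ L]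
    {y : Qbar} (hy : ∀ σ ∈ H, (∀ a ∈ L, σ a = a) → σ y = y) :
    (orb H y).card ≤ Module.finrank ℚ L := by
  classical
  rw [← AlgHom.card ℚ L Qbar]
  -- `g φ` : the value `σ y` for a `σ ∈ H` restricting to `φ`
  let g : (L →ₐ[ℚ] Qbar) → Qbar := fun φ =>
    if h : ∃ σ ∈ H, (σ : Qbar →ₐ[ℚ] Qbar).comp L.val = φ then (Classical.choose h) y else y
  have hsub : orb H y ⊆ Finset.image g Finset.univ := by
    intro z hz
    obtain ⟨σ, hσ, rfl⟩ := (mem_orb H).mp hz
    rw [Finset.mem_image]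
    refine ⟨(σ : Qbar →ₐ[ℚ] Qbar).comp L.val, Finset.mem_univ _, ?_⟩
    have h : ∃ τ ∈ H, (τ : Qbar →ₐ[ℚ] Qbar).comp L.val = (σ : Qbar →ₐ[ℚ] Qbar).comp L.val :=
      ⟨σ, hσ, rfl⟩
    show (if h : ∃ τ ∈ H, (τ : Qbar →ₐ[ℚ] Qbar).comp L.val = (σ : Qbar →ₐ[ℚ] Qbar).comp L.val
      then (Classical.choose h) y else y) = σ y
    rw [dif_pos h]
    obtain ⟨hτ, hτσ⟩ := Classical.choose_spec h
    set τ := Classical.choose h with hτdef
    -- `σ⁻¹ τ` fixes `L`
    have hfix : ∀ a ∈ L, (σ⁻¹ * τ) a = a := by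
      intro a ha
      have h1 : τ a = σ a := by
        exact congrArg (fun φ : L →ₐ[ℚ] Qbar => φ ⟨a, ha⟩) hτσ
      rw [AlgEquiv.mul_apply, h1, ← AlgEquiv.mul_apply, inv_mul_cancel, AlgEquiv.one_apply]
    have h2 := hy (σ⁻¹ * τ) (H.mul_mem (H.inv_mem hσ) hτ) hfix
    have h3 : τ = σ * (σ⁻¹ * τ) := by group
    rw [h3, AlgEquiv.mul_apply, h2]
  calc (orb H y).card ≤ (Finset.image g Finset.univ).card := Finset.card_le_card hsub
    _ ≤ (Finset.univ : Finset (L →ₐ[ℚ] Qbar)).card := Finset.card_image_le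
    _ = Fintype.card (L →ₐ[ℚ] Qbar) := Finset.card_univ

end Element

/-! ### the function form: orbit representatives and transport -/

section Function

variable (P : ValuationSubring Qbar) {p : ℕ} (I : Subgroup Γℚ)
  {X : Type*} (act : Γℚ → X → X)

/-- the action axioms, bundled. -/
structure IsAct : Prop where
  one : ∀ x, act 1 x = x
  mul : ∀ σ τ x, act (σ * τ) x = act σ (act τ x)

variable {act}

theorem IsAct.inv_act (ha : IsAct act) (σ : Γℚ) (x : X) : act σ⁻¹ (act σ x) = x := by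
  rw [← ha.mul, inv_mul_cancel, ha.one]

/-- the stabiliser of `r` in `I`. -/
def stab (ha : IsAct act) (r : X) : Subgroup Γℚ where
  carrier := {σ | σ ∈ I ∧ act σ r = r}
  mul_mem' := by
    rintro σ τ ⟨hσ, hσr⟩ ⟨hτ, hτr⟩
    exact ⟨I.mul_mem hσ hτ, by rw [ha.mul, hτr, hσr]⟩
  one_mem' := ⟨I.one_mem, ha.one r⟩
  inv_mem' := by
    rintro σ ⟨hσ, hσr⟩
    refine ⟨I.inv_mem hσ, ?_⟩
    have := ha.inv_act σ r
    rwa [hσr] at this

theorem mem_stab (ha : IsAct act) {r : X} {σ : Γℚ} :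
    σ ∈ stab I ha r ↔ σ ∈ I ∧ act σ r = r := Iff.rfl

/-- the orbit relation of `I` on `X`. -/
def orbSetoid (ha : IsAct act) : Setoid X where
  r x x' := ∃ σ ∈ I, act σ x = x'
  iseqv :=
    { refl := fun x => ⟨1, I.one_mem, ha.one x⟩
      symm := by
        rintro x x' ⟨σ, hσ, rfl⟩
        exact ⟨σ⁻¹, I.inv_mem hσ, ha.inv_act σ x⟩
      trans := by
        rintro x x' x'' ⟨σ, hσ, rfl⟩ ⟨τ, hτ, rfl⟩
        exact ⟨τ * σ, I.mul_mem hτ hσ, ha.mul τ σ x⟩ }

/-- the chosen representative of the `I`-orbit of `x`. -/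
def rep (ha : IsAct act) (x : X) : X := (Quotient.mk (orbSetoid I ha) x).out

theorem exists_act_rep (ha : IsAct act) (x : X) : ∃ σ ∈ I, act σ (rep I ha x) = x :=
  Quotient.mk_out (s := orbSetoid I ha) x

theorem rep_act (ha : IsAct act) {σ : Γℚ} (hσ : σ ∈ I) (x : X) :
    rep I ha (act σ x) = rep I ha x := by
  unfold rep
  congr 1
  exact Quotient.sound (s := orbSetoid I ha) ⟨σ⁻¹, I.inv_mem hσ, ha.inv_act σ x⟩

/-- a chosen element of `I` moving the representative to `x`. -/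
def tr (ha : IsAct act) (x : X) : Γℚ := Classical.choose (exists_act_rep I ha x)

theorem tr_mem (ha : IsAct act) (x : X) : tr I ha x ∈ I :=
  (Classical.choose_spec (exists_act_rep I ha x)).1

theorem tr_spec (ha : IsAct act) (x : X) : act (tr I ha x) (rep I ha x) = x :=
  (Classical.choose_spec (exists_act_rep I ha x)).2

/-- the exact lift: transport of the stabiliser-average at the representative. -/
def lift (ha : IsAct act) (c : X → Qbar) (x : X) : Qbar :=
  tr I ha x (avg (stab I ha (rep I ha x)) (c (rep I ha x)))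

/-- two elements of `I` moving `r` to the same point agree on the stabiliser-average. -/
theorem apply_avg_eq (ha : IsAct act) (c : X → Qbar) (r : X) {τ₁ τ₂ : Γℚ} (h₁ : τ₁ ∈ I)
    (h₂ : τ₂ ∈ I) (h : act τ₁ r = act τ₂ r) :
    τ₁ (avg (stab I ha r) (c r)) = τ₂ (avg (stab I ha r) (c r)) := by
  have hmem : τ₂⁻¹ * τ₁ ∈ stab I ha r := by
    refine ⟨I.mul_mem (I.inv_mem h₂) h₁, ?_⟩
    rw [ha.mul, h, ha.inv_act]
  have hfix := avg_fixed (stab I ha r) (c r) hmem
  have h3 : τ₁ = τ₂ * (τ₂⁻¹ * τ₁) := by group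
  rw [h3, AlgEquiv.mul_apply, hfix]

/-- **exact equivariance of the lift.** -/
theorem lift_act (ha : IsAct act) (c : X → Qbar) {σ : Γℚ} (hσ : σ ∈ I) (x : X) :
    lift I ha c (act σ x) = σ (lift I ha c x) := by
  unfold lift
  rw [rep_act I ha hσ x, ← AlgEquiv.mul_apply]
  refine apply_avg_eq I ha c (rep I ha x) ?_ (I.mul_mem hσ (tr_mem I ha x)) ?_
  · exact tr_mem I ha (act σ x)
  · have h1 := tr_spec I ha (act σ x)
    rw [rep_act I ha hσ x] at h1
    rw [h1, ha.mul, tr_spec I ha x]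

/-- **(L3-a), function form.**  If `c` is `I`-equivariant modulo `p ^ n P` with values of degree
`≤ d` over `ℚ`, then `lift c` is exactly `I`-equivariant and `p ^ d (lift c - c) ∈ p ^ n P`. -/
theorem lift_approx (hp : p.Prime) (hP : P.LiesOverPrime p)
    (hI : ∀ σ ∈ I, ∀ w ∈ P, σ w ∈ P) (ha : IsAct act) {d n : ℕ} {c : X → Qbar}
    (hd : ∀ x, (orb (stab I ha x) (c x)).card ≤ d)
    (hc : ∀ σ ∈ I, ∀ x, PowMem P p n (c (act σ x) - σ (c x))) (x : X) :
    PowMem P p n ((p : Qbar) ^ d * (lift I ha c x - c x)) := by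
  set r := rep I ha x with hr
  set τ := tr I ha x with hτ
  have hτI : τ ∈ I := tr_mem I ha x
  have hx : act τ r = x := tr_spec I ha x
  have hstab : ∀ σ ∈ stab I ha r, ∀ w ∈ P, σ w ∈ P := fun σ hσ => hI σ hσ.1
  have hinv : ∀ σ ∈ stab I ha r, PowMem P p n (σ (c r) - c r) := by
    rintro σ ⟨hσI, hσr⟩
    have := (hc σ hσI r).neg
    rwa [neg_sub, hσr] at this
  have h1 := (exists_fixed_approx P (stab I ha r) hp hP hstab (hd r) hinv).2
  have h2 : PowMem P p n (τ ((p : Qbar) ^ d * (c r - avg (stab I ha r) (c r)))) :=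
    h1.map τ (hI τ hτI)
  have h3 : PowMem P p n ((p : Qbar) ^ d * (c (act τ r) - τ (c r))) :=
    (hc τ hτI r).mul_left (P.pow_mem (natCast_mem P p) _)
  have h4 : (p : Qbar) ^ d * (lift I ha c x - c x) =
      -(τ ((p : Qbar) ^ d * (c r - avg (stab I ha r) (c r)))) -
        (p : Qbar) ^ d * (c (act τ r) - τ (c r)) := by
    have h5 : lift I ha c x = τ (avg (stab I ha r) (c r)) := rfl
    rw [h5, hx, map_mul, map_pow, map_natCast, map_sub]
    ring
  rw [h4]
  exact h2.neg.sub h3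

/-- the lift has values in `P` when `c` has and `d ≤ n`. -/
theorem lift_mem (hp : p.Prime) (hP : P.LiesOverPrime p)
    (hI : ∀ σ ∈ I, ∀ w ∈ P, σ w ∈ P) (ha : IsAct act) {d n : ℕ} {c : X → Qbar}
    (hd : ∀ x, (orb (stab I ha x) (c x)).card ≤ d) (hdn : d ≤ n) (hcP : ∀ x, c x ∈ P)
    (hc : ∀ σ ∈ I, ∀ x, PowMem P p n (c (act σ x) - σ (c x))) (x : X) :
    lift I ha c x ∈ P := by
  obtain ⟨w, hw, hwe⟩ := PowMem.cancel hp.ne_zero (lift_approx P I hp hP hI ha hd hc x) hdn
  have h2 : lift I ha c x = c x + (p : Qbar) ^ (n - d) * w := by rw [← hwe]; ring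
  rw [h2]
  exact P.add_mem _ _ (hcP x) (P.mul_mem _ _ (P.pow_mem (natCast_mem P p) _) hw)

/-- the lift has values in an `I`-stable field containing the values of `c`. -/
theorem lift_mem_field (ha : IsAct act) (c : X → Qbar) (L : IntermediateField ℚ Qbar)
    (hL : ∀ σ ∈ I, ∀ a ∈ L, σ a ∈ L) (hcL : ∀ x, c x ∈ L) (x : X) : lift I ha c x ∈ L := by
  unfold lift
  refine hL _ (tr_mem I ha x) _ ?_
  exact avg_mem_of_stable (stab I ha (rep I ha x)) L (fun σ hσ => hL σ hσ.1) (hcL _)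

/-- **(L3-a), packaged.**  `c : X → ι → Qbar` with values in `P`, `I`-equivariant modulo `p ^ n P`,
all of whose values are fixed by the elements of `I` fixing ONE field `L` of finite degree `d ≤ n`
(e.g. values in `L`, or polynomial expressions in elements of `L` with `I`-fixed coefficients):
there is `c'`, exactly `I`-equivariant, with values in `P`, and `c' - c ∈ p ^ (n - d) P`. -/
theorem exists_equivariant_approx (hp : p.Prime) (hP : P.LiesOverPrime p)
    (hI : ∀ σ ∈ I, ∀ w ∈ P, σ w ∈ P) (ha : IsAct act) {ι : Type*}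
    (L : IntermediateField ℚ Qbar) [FiniteDimensional ℚ L] {n : ℕ}
    (hn : Module.finrank ℚ L ≤ n) (c : X → ι → Qbar)
    (hcL : ∀ σ ∈ I, (∀ a ∈ L, σ a = a) → ∀ x i, σ (c x i) = c x i)
    (hcP : ∀ x i, c x i ∈ P)
    (hc : ∀ σ ∈ I, ∀ x i, PowMem P p n (c (act σ x) i - σ (c x i))) :
    ∃ c' : X → ι → Qbar, (∀ σ ∈ I, ∀ x i, c' (act σ x) i = σ (c' x i)) ∧
      (∀ x i, c' x i ∈ P) ∧
      (∀ x i, PowMem P p (n - Module.finrank ℚ L) (c' x i - c x i)) := by
  have hd : ∀ i x, (orb (stab I ha x) (c x i)).card ≤ Module.finrank ℚ L :=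
    fun i x => card_orb_le_finrank _ L fun σ hσ hσL => hcL σ hσ.1 hσL x i
  refine ⟨fun x i => lift I ha (fun x => c x i) x, ?_, ?_, ?_⟩
  · exact fun σ hσ x i => lift_act I ha _ hσ x
  · exact fun x i => lift_mem P I hp hP hI ha (hd i) hn (fun x => hcP x i)
      (fun σ hσ x => hc σ hσ x i) x
  · exact fun x i => PowMem.cancel hp.ne_zero
      (lift_approx P I hp hP hI ha (hd i) (fun σ hσ x => hc σ hσ x i) x) hn

/-- the same for values in `L` itself. -/
theorem exists_equivariant_approx_of_mem (hp : p.Prime) (hP : P.LiesOverPrime p)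
    (hI : ∀ σ ∈ I, ∀ w ∈ P, σ w ∈ P) (ha : IsAct act) {ι : Type*}
    (L : IntermediateField ℚ Qbar) [FiniteDimensional ℚ L] {n : ℕ}
    (hn : Module.finrank ℚ L ≤ n) (c : X → ι → Qbar)
    (hcL : ∀ x i, c x i ∈ L) (hcP : ∀ x i, c x i ∈ P)
    (hc : ∀ σ ∈ I, ∀ x i, PowMem P p n (c (act σ x) i - σ (c x i))) :
    ∃ c' : X → ι → Qbar, (∀ σ ∈ I, ∀ x i, c' (act σ x) i = σ (c' x i)) ∧
      (∀ x i, c' x i ∈ P) ∧
      (∀ x i, PowMem P p (n - Module.finrank ℚ L) (c' x i - c x i)) :=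
  exists_equivariant_approx P I hp hP hI ha L hn c
    (fun σ _ hσL x i => hσL _ (hcL x i)) hcP hc

end Function

/-! ### the inertia group preserves `P` -/

theorem map_mem_of_mem_decomposition (P : ValuationSubring Qbar) {σ : Γℚ}
    (hσ : σ ∈ P.decompositionSubgroup ℚ) {w : Qbar} (hw : w ∈ P) : σ w ∈ P := by
  have h1 : σ • P = P := hσ
  have h2 : σ • w ∈ σ • P := ValuationSubring.smul_mem_pointwise_smul σ w P hw
  rw [h1] at h2
  exact h2

theorem map_mem_of_mem_inertia (P : ValuationSubring Qbar) {σ : Γℚ}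
    (hσ : σ ∈ P.inertiaSubgroupIn ℚ) {w : Qbar} (hw : w ∈ P) : σ w ∈ P := by
  obtain ⟨τ, _, rfl⟩ := hσ
  exact map_mem_of_mem_decomposition P τ.2 hw

/-- **(L3-a) for the inertia group of `P`, in literal form** (no `PowMem`, no `IsAct`): a function
`c : X → ι → Qbar` with values in `P`, inertia-equivariant modulo `p ^ n P`, whose values are fixed by
the inertia elements fixing ONE field `L` of finite degree `d ≤ n`, is congruent modulo
`p ^ (n - d) P` to an exactly inertia-equivariant function with values in `P`. -/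
theorem exists_equivariant_approx_inertia (P : ValuationSubring Qbar) {p : ℕ} (hp : p.Prime)
    (hP : P.LiesOverPrime p) {X : Type*} (act : Γℚ → X → X) (hact1 : ∀ x, act 1 x = x)
    (hactmul : ∀ σ τ x, act (σ * τ) x = act σ (act τ x)) {ι : Type*}
    (L : IntermediateField ℚ Qbar) [FiniteDimensional ℚ L] {n : ℕ}
    (hn : Module.finrank ℚ L ≤ n) (c : X → ι → Qbar)
    (hcL : ∀ σ ∈ P.inertiaSubgroupIn ℚ, (∀ a ∈ L, σ a = a) → ∀ x i, σ (c x i) = c x i)
    (hcP : ∀ x i, c x i ∈ P)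
    (hc : ∀ σ ∈ P.inertiaSubgroupIn ℚ, ∀ x i, ∃ w ∈ P,
      c (act σ x) i - σ (c x i) = (p : Qbar) ^ n * w) :
    ∃ c' : X → ι → Qbar,
      (∀ σ ∈ P.inertiaSubgroupIn ℚ, ∀ x i, c' (act σ x) i = σ (c' x i)) ∧
      (∀ x i, c' x i ∈ P) ∧
      (∀ x i, ∃ w ∈ P, c' x i - c x i = (p : Qbar) ^ (n - Module.finrank ℚ L) * w) :=
  exists_equivariant_approx P (P.inertiaSubgroupIn ℚ) hp hP
    (fun _ hσ _ hw => map_mem_of_mem_inertia P hσ hw) ⟨hact1, hactmul⟩ L hn c hcL hcP hc

end Fermat.Agent.S33x.L3.LiftingAvg
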