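/-
S33 (blueprint v2, LAYER 3), leaf (L3-a), TRANSPORT PART (helper10): from an element-level lifting
lemma (orbit averaging, or Ax's lemma) to the function-level statement.

`I` a group of automorphisms of `Qbar = AlgebraicClosure ℚ`, `X` a set on which `I` acts (through a map
`act : Γℚ → X → X` satisfying the action axioms FOR THE ELEMENTS OF `I` ONLY), `M ≤ M'` two `I`-stable
additive subgroups of `Qbar` (e.g. `p ^ n P ≤ p ^ (n - 1) P`).  Let `c : X → Qbar` be `I`-equivariant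
modulo `M`.  If for every `r : X` there is `b`, fixed by the stabiliser of `r` in `I`, with
`b - c r ∈ M'`, then there is `c' : X → Qbar`, EXACTLY `I`-equivariant, with `c' x - c x ∈ M'` for all `x`
(`exists_equivariant_of_fixed`).  Proof: orbit representatives `r`, `c' (σ r) := σ b_r`.

`exists_equivariant_pow` : the case `M = p ^ n P`, `M' = p ^ m P` (`m ≤ n`), values in `P`, several
coordinates; `exists_equivariant_pow_inertia` : the same for the inertia group of `P`, in literal form.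
-/
import Mathlib
import Fermat.Prelude.Def_FLTPrelim_Ramification

set_option autoImplicit false
set_option linter.unusedSectionVars false
set_option linter.unusedVariables false

open scoped Pointwise

noncomputable section

namespace Fermat.Agent.S33x.L3.LiftingTransport

local notation "Qbar" => AlgebraicClosure ℚ
local notation "Γℚ" => (AlgebraicClosure ℚ ≃ₐ[ℚ] AlgebraicClosure ℚ)

section Transport

variable (I : Subgroup Γℚ) {X : Type*} (act : Γℚ → X → X)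

/-- the action axioms, for the elements of `I` only. -/
structure IsActOn : Prop where
  one : ∀ x, act 1 x = x
  mul : ∀ σ ∈ I, ∀ τ ∈ I, ∀ x, act (σ * τ) x = act σ (act τ x)

variable {I act}

theorem IsActOn.inv_act (ha : IsActOn I act) {σ : Γℚ} (hσ : σ ∈ I) (x : X) :
    act σ⁻¹ (act σ x) = x := by
  rw [← ha.mul _ (I.inv_mem hσ) _ hσ, inv_mul_cancel, ha.one]

variable (I)

/-- the stabiliser of `r` in `I`. -/
def stabOn (ha : IsActOn I act) (r : X) : Subgroup Γℚ where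
  carrier := {σ | σ ∈ I ∧ act σ r = r}
  mul_mem' := by
    rintro σ τ ⟨hσ, hσr⟩ ⟨hτ, hτr⟩
    exact ⟨I.mul_mem hσ hτ, by rw [ha.mul σ hσ τ hτ, hτr, hσr]⟩
  one_mem' := ⟨I.one_mem, ha.one r⟩
  inv_mem' := by
    rintro σ ⟨hσ, hσr⟩
    refine ⟨I.inv_mem hσ, ?_⟩
    have := ha.inv_act hσ r
    rwa [hσr] at this

theorem mem_stabOn (ha : IsActOn I act) {r : X} {σ : Γℚ} :
    σ ∈ stabOn I ha r ↔ σ ∈ I ∧ act σ r = r := Iff.rfl

theorem stabOn_le (ha : IsActOn I act) (r : X) : stabOn I ha r ≤ I := fun _ h => h.1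

/-- the orbit relation of `I` on `X`. -/
def orbSetoidOn (ha : IsActOn I act) : Setoid X where
  r x x' := ∃ σ ∈ I, act σ x = x'
  iseqv :=
    { refl := fun x => ⟨1, I.one_mem, ha.one x⟩
      symm := by
        rintro x x' ⟨σ, hσ, rfl⟩
        exact ⟨σ⁻¹, I.inv_mem hσ, ha.inv_act hσ x⟩
      trans := by
        rintro x x' x'' ⟨σ, hσ, rfl⟩ ⟨τ, hτ, rfl⟩
        exact ⟨τ * σ, I.mul_mem hτ hσ, ha.mul τ hτ σ hσ x⟩ }

/-- the chosen representative of the `I`-orbit of `x`. -/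
def repOn (ha : IsActOn I act) (x : X) : X := (Quotient.mk (orbSetoidOn I ha) x).out

theorem exists_act_repOn (ha : IsActOn I act) (x : X) : ∃ σ ∈ I, act σ (repOn I ha x) = x :=
  Quotient.mk_out (s := orbSetoidOn I ha) x

theorem repOn_act (ha : IsActOn I act) {σ : Γℚ} (hσ : σ ∈ I) (x : X) :
    repOn I ha (act σ x) = repOn I ha x := by
  unfold repOn
  congr 1
  exact Quotient.sound (s := orbSetoidOn I ha) ⟨σ⁻¹, I.inv_mem hσ, ha.inv_act hσ x⟩

/-- a chosen element of `I` moving the representative to `x`. -/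
def trOn (ha : IsActOn I act) (x : X) : Γℚ := Classical.choose (exists_act_repOn I ha x)

theorem trOn_mem (ha : IsActOn I act) (x : X) : trOn I ha x ∈ I :=
  (Classical.choose_spec (exists_act_repOn I ha x)).1

theorem trOn_spec (ha : IsActOn I act) (x : X) : act (trOn I ha x) (repOn I ha x) = x :=
  (Classical.choose_spec (exists_act_repOn I ha x)).2

/-- the transported function: `x = τ r ↦ τ (b r)`. -/
def liftOf (ha : IsActOn I act) (b : X → Qbar) (x : X) : Qbar :=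
  trOn I ha x (b (repOn I ha x))

/-- two elements of `I` moving `r` to the same point agree on a stabiliser-fixed element. -/
theorem apply_eq_of_fixed (ha : IsActOn I act) (r : X) {β : Qbar}
    (hβ : ∀ σ ∈ stabOn I ha r, σ β = β) {τ₁ τ₂ : Γℚ} (h₁ : τ₁ ∈ I) (h₂ : τ₂ ∈ I)
    (h : act τ₁ r = act τ₂ r) : τ₁ β = τ₂ β := by
  have hmem : τ₂⁻¹ * τ₁ ∈ stabOn I ha r := by
    refine ⟨I.mul_mem (I.inv_mem h₂) h₁, ?_⟩
    rw [ha.mul _ (I.inv_mem h₂) _ h₁, h, ha.inv_act h₂]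
  have hfix := hβ _ hmem
  have h3 : τ₁ = τ₂ * (τ₂⁻¹ * τ₁) := by group
  rw [h3, AlgEquiv.mul_apply, hfix]

/-- **exact equivariance of the transported function.** -/
theorem liftOf_act (ha : IsActOn I act) (b : X → Qbar)
    (hb : ∀ r, ∀ σ ∈ stabOn I ha r, σ (b r) = b r) {σ : Γℚ} (hσ : σ ∈ I) (x : X) :
    liftOf I ha b (act σ x) = σ (liftOf I ha b x) := by
  unfold liftOf
  rw [repOn_act I ha hσ x, ← AlgEquiv.mul_apply]
  refine apply_eq_of_fixed I ha (repOn I ha x) (hb _) (trOn_mem I ha (act σ x))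
    (I.mul_mem hσ (trOn_mem I ha x)) ?_
  have h1 := trOn_spec I ha (act σ x)
  rw [repOn_act I ha hσ x] at h1
  rw [h1, ha.mul σ hσ _ (trOn_mem I ha x), trOn_spec I ha x]

/-- **approximation property of the transported function.** -/
theorem liftOf_sub_mem (ha : IsActOn I act) (M M' : AddSubgroup Qbar) (hMM' : M ≤ M')
    (hM' : ∀ σ ∈ I, ∀ w ∈ M', σ w ∈ M') {c : X → Qbar}
    (hc : ∀ σ ∈ I, ∀ x, c (act σ x) - σ (c x) ∈ M) (b : X → Qbar)
    (hbc : ∀ r, b r - c r ∈ M') (x : X) : liftOf I ha b x - c x ∈ M' := by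
  set r := repOn I ha x with hr
  set τ := trOn I ha x with hτ
  have hτI : τ ∈ I := trOn_mem I ha x
  have hx : act τ r = x := trOn_spec I ha x
  have h1 : τ (b r - c r) ∈ M' := hM' τ hτI _ (hbc r)
  have h2 : c (act τ r) - τ (c r) ∈ M' := hMM' (hc τ hτI r)
  have h3 : liftOf I ha b x - c x = τ (b r - c r) - (c (act τ r) - τ (c r)) := by
    have h4 : liftOf I ha b x = τ (b r) := rfl
    rw [h4, hx, map_sub]
    ring
  rw [h3]
  exact M'.sub_mem h1 h2

/-- **(L3-a), transport.**  `c` is `I`-equivariant modulo `M`; at every point `r` there is an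
element `b`, fixed by the stabiliser of `r` in `I`, with `b - c r ∈ M'` (`M ≤ M'`, `M'` `I`-stable).
Then there is an exactly `I`-equivariant `c'` with `c' x - c x ∈ M'` for all `x`. -/
theorem exists_equivariant_of_fixed (ha : IsActOn I act) (M M' : AddSubgroup Qbar)
    (hMM' : M ≤ M') (hM' : ∀ σ ∈ I, ∀ w ∈ M', σ w ∈ M') (c : X → Qbar)
    (hc : ∀ σ ∈ I, ∀ x, c (act σ x) - σ (c x) ∈ M)
    (hfix : ∀ r : X, ∃ b : Qbar, (∀ σ ∈ I, act σ r = r → σ b = b) ∧ b - c r ∈ M') :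
    ∃ c' : X → Qbar, (∀ σ ∈ I, ∀ x, c' (act σ x) = σ (c' x)) ∧ ∀ x, c' x - c x ∈ M' := by
  choose b hb hbc using hfix
  refine ⟨liftOf I ha b, fun σ hσ x => liftOf_act I ha b ?_ hσ x,
    liftOf_sub_mem I ha M M' hMM' hM' hc b hbc⟩
  exact fun r σ hσ => hb r σ hσ.1 hσ.2

end Transport

/-! ### the subgroups `p ^ n P` -/

/-- `p ^ n P` as an additive subgroup of `Qbar`. -/
def powSub (P : ValuationSubring Qbar) (p n : ℕ) : AddSubgroup Qbar where
  carrier := {x | ∃ w ∈ P, x = (p : Qbar) ^ n * w}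
  add_mem' := by
    rintro x y ⟨w, hw, rfl⟩ ⟨w', hw', rfl⟩
    exact ⟨w + w', P.add_mem _ _ hw hw', by ring⟩
  zero_mem' := ⟨0, P.zero_mem, by simp⟩
  neg_mem' := by
    rintro x ⟨w, hw, rfl⟩
    exact ⟨-w, P.neg_mem _ hw, by ring⟩

theorem mem_powSub {P : ValuationSubring Qbar} {p n : ℕ} {x : Qbar} :
    x ∈ powSub P p n ↔ ∃ w ∈ P, x = (p : Qbar) ^ n * w := Iff.rfl

theorem powSub_mono (P : ValuationSubring Qbar) (p : ℕ) {m n : ℕ} (hmn : m ≤ n) :
    powSub P p n ≤ powSub P p m := by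
  rintro x ⟨w, hw, rfl⟩
  refine ⟨(p : Qbar) ^ (n - m) * w, P.mul_mem _ _ (P.pow_mem (natCast_mem P p) _) hw, ?_⟩
  rw [← mul_assoc, ← pow_add, Nat.add_sub_cancel' hmn]

theorem map_mem_powSub {P : ValuationSubring Qbar} {p n : ℕ} {σ : Γℚ}
    (hσ : ∀ w ∈ P, σ w ∈ P) {x : Qbar} (hx : x ∈ powSub P p n) : σ x ∈ powSub P p n := by
  obtain ⟨w, hw, rfl⟩ := hx
  exact ⟨σ w, hσ w hw, by simp⟩

theorem powSub_le (P : ValuationSubring Qbar) (p n : ℕ) {x : Qbar} (hx : x ∈ powSub P p n) :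
    x ∈ P := by
  obtain ⟨w, hw, rfl⟩ := hx
  exact P.mul_mem _ _ (P.pow_mem (natCast_mem P p) _) hw

/-- **(L3-a), transport, `p`-power form, several coordinates.**  `elt` is the element-level
lifting statement (orbit averaging: loss `[L:ℚ]`; Ax: loss `1`) at the points of `X`. -/
theorem exists_equivariant_pow (P : ValuationSubring Qbar) {p : ℕ} (I : Subgroup Γℚ)
    (hI : ∀ σ ∈ I, ∀ w ∈ P, σ w ∈ P) {X : Type*} {act : Γℚ → X → X} (ha : IsActOn I act)
    {ι : Type*} {m n : ℕ} (hmn : m ≤ n) (c : X → ι → Qbar) (hcP : ∀ x i, c x i ∈ P)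
    (hc : ∀ σ ∈ I, ∀ x i, ∃ w ∈ P, c (act σ x) i - σ (c x i) = (p : Qbar) ^ n * w)
    (elt : ∀ (r : X) (i : ι), ∃ b : Qbar, (∀ σ ∈ I, act σ r = r → σ b = b) ∧
      ∃ w ∈ P, b - c r i = (p : Qbar) ^ m * w) :
    ∃ c' : X → ι → Qbar, (∀ σ ∈ I, ∀ x i, c' (act σ x) i = σ (c' x i)) ∧
      (∀ x i, c' x i ∈ P) ∧ (∀ x i, ∃ w ∈ P, c' x i - c x i = (p : Qbar) ^ m * w) := by
  have key : ∀ i : ι, ∃ c' : X → Qbar, (∀ σ ∈ I, ∀ x, c' (act σ x) = σ (c' x)) ∧
      ∀ x, c' x - c x i ∈ powSub P p m := by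
    intro i
    refine exists_equivariant_of_fixed I ha (powSub P p n) (powSub P p m) (powSub_mono P p hmn)
      (fun σ hσ w hw => map_mem_powSub (hI σ hσ) hw) (fun x => c x i)
      (fun σ hσ x => hc σ hσ x i) (fun r => ?_)
    obtain ⟨b, hb, hbc⟩ := elt r i
    exact ⟨b, hb, hbc⟩
  choose c' hc'eq hc'sub using key
  refine ⟨fun x i => c' i x, fun σ hσ x i => hc'eq i σ hσ x, fun x i => ?_, fun x i => hc'sub i x⟩
  have h1 : c' i x = c x i + (c' i x - c x i) := by ring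
  show c' i x ∈ P
  rw [h1]
  exact P.add_mem _ _ (hcP x i) (powSub_le P p m (hc'sub i x))

/-! ### the inertia group preserves `P` -/

theorem map_mem_of_mem_decompositionSubgroup (P : ValuationSubring Qbar) {σ : Γℚ}
    (hσ : σ ∈ P.decompositionSubgroup ℚ) {w : Qbar} (hw : w ∈ P) : σ w ∈ P := by
  have h1 : σ • P = P := hσ
  have h2 : σ • w ∈ σ • P := ValuationSubring.smul_mem_pointwise_smul σ w P hw
  rw [h1] at h2
  exact h2

theorem map_mem_of_mem_inertiaSubgroupIn (P : ValuationSubring Qbar) {σ : Γℚ}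
    (hσ : σ ∈ P.inertiaSubgroupIn ℚ) {w : Qbar} (hw : w ∈ P) : σ w ∈ P := by
  obtain ⟨τ, _, rfl⟩ := hσ
  exact map_mem_of_mem_decompositionSubgroup P τ.2 hw

/-- **(L3-a), transport, for the inertia group of `P`, literal form.**  The element-level
hypothesis `elt` is stated for an arbitrary subgroup `H` of the inertia group (it will be applied to
the stabilisers): an element which is `H`-invariant modulo `p ^ n P` is congruent modulo `p ^ m P` to
an `H`-fixed element. -/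
theorem exists_equivariant_pow_inertia (P : ValuationSubring Qbar) {p : ℕ}
    {X : Type*} (act : Γℚ → X → X) (hact1 : ∀ x, act 1 x = x)
    (hactmul : ∀ σ ∈ P.inertiaSubgroupIn ℚ, ∀ τ ∈ P.inertiaSubgroupIn ℚ, ∀ x,
      act (σ * τ) x = act σ (act τ x))
    {ι : Type*} {m n : ℕ} (hmn : m ≤ n) (c : X → ι → Qbar) (hcP : ∀ x i, c x i ∈ P)
    (hc : ∀ σ ∈ P.inertiaSubgroupIn ℚ, ∀ x i, ∃ w ∈ P,
      c (act σ x) i - σ (c x i) = (p : Qbar) ^ n * w)
    (elt : ∀ (H : Subgroup Γℚ), H ≤ P.inertiaSubgroupIn ℚ → ∀ (x : X) (i : ι),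
      (∀ σ ∈ H, ∃ w ∈ P, σ (c x i) - c x i = (p : Qbar) ^ n * w) →
      ∃ b : Qbar, (∀ σ ∈ H, σ b = b) ∧ ∃ w ∈ P, b - c x i = (p : Qbar) ^ m * w) :
    ∃ c' : X → ι → Qbar,
      (∀ σ ∈ P.inertiaSubgroupIn ℚ, ∀ x i, c' (act σ x) i = σ (c' x i)) ∧
      (∀ x i, c' x i ∈ P) ∧ (∀ x i, ∃ w ∈ P, c' x i - c x i = (p : Qbar) ^ m * w) := by
  have ha : IsActOn (P.inertiaSubgroupIn ℚ) act := ⟨hact1, hactmul⟩
  refine exists_equivariant_pow P (P.inertiaSubgroupIn ℚ)
    (fun _ hσ _ hw => map_mem_of_mem_inertiaSubgroupIn P hσ hw) ha hmn c hcP hc fun r i => ?_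
  have hinv : ∀ σ ∈ stabOn (P.inertiaSubgroupIn ℚ) ha r, ∃ w ∈ P,
      σ (c r i) - c r i = (p : Qbar) ^ n * w := by
    rintro σ ⟨hσ, hσr⟩
    obtain ⟨w, hw, hwe⟩ := hc σ hσ r i
    rw [hσr] at hwe
    refine ⟨-w, P.neg_mem _ hw, ?_⟩
    rw [mul_neg, ← hwe]
    ring
  obtain ⟨b, hb, hbc⟩ := elt (stabOn (P.inertiaSubgroupIn ℚ) ha r) (stabOn_le _ ha r) r i hinv
  exact ⟨b, fun σ hσ hσr => hb σ ⟨hσ, hσr⟩, hbc⟩

end Fermat.Agent.S33x.L3.LiftingTransport
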