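import Fermat.Agent.S19x.Alg.Closedness

/-!
# S33, Layer 3, leaf (L3-b), matrix core (helper41): valuation-maximal minors

`Om` a field, `V` a valuation subring, `Z` a finite set, `m i : Z → Om` (`i : ι`, `ι` finite) a
family of functions.

* `exists_maximal_minor` : among the `|Z|`-tuples `e : Z → ι` there is one whose evaluation
  determinant is non-zero and divides (in `V`) all the others;
* `exists_coeff_mem` : for such an `e` every `m i` is a `V`-combination of the `m (e j)` (Cramer);
* `exists_minor_of_span` : a tuple with non-zero determinant exists as soon as the `m i` span;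
* `smul_mem_span_of_delta` : if `π • δ_z` is a `V`-combination of the `m i` for every `z`, then for
  a maximal `e`, `π • F` is a `V`-combination of the `m (e j)` for EVERY `V`-valued `F`
  (the conductor exponent is bounded by `π`, whatever the family).
-/

set_option autoImplicit false
set_option linter.unusedSectionVars false
set_option linter.style.haveILetI false

open Matrix

namespace Fermat.Agent.S33x.L3.MaxMinor

open Fermat.Agent.S19x.Alg.Closedness

variable {Om : Type*} [Field Om] {Z : Type*} [Fintype Z] [DecidableEq Z]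

/-- the evaluation determinant of the tuple `e` of members of the family `m`. -/
def minor {ι : Type*} (m : ι → Z → Om) (e : Z → ι) : Om := (evalMatrix fun j => m (e j)).det

/-- **A valuation-maximal minor.** -/
theorem exists_maximal_minor {ι : Type*} [Finite ι] (V : ValuationSubring Om) (m : ι → Z → Om)
    (hne : ∃ e : Z → ι, minor m e ≠ 0) :
    ∃ e : Z → ι, minor m e ≠ 0 ∧ ∀ e' : Z → ι, ∃ w ∈ V, minor m e' = minor m e * w := by
  classical
  haveI : Fintype ι := Fintype.ofFinite ι
  obtain ⟨e0, he0⟩ := hne
  obtain ⟨e, -, he⟩ := Finset.exists_max_image (Finset.univ : Finset (Z → ι))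
    (fun e => V.valuation (minor m e)) ⟨e0, Finset.mem_univ _⟩
  have hv0 : V.valuation (minor m e0) ≠ 0 := (Valuation.ne_zero_iff _).mpr he0
  have hve : V.valuation (minor m e) ≠ 0 := by
    intro h
    have h1 := he e0 (Finset.mem_univ _)
    rw [h] at h1
    exact hv0 (le_antisymm h1 zero_le)
  have hde : minor m e ≠ 0 := (Valuation.ne_zero_iff _).mp hve
  refine ⟨e, hde, fun e' => ⟨minor m e' / minor m e, ?_, ?_⟩⟩
  · rw [← ValuationSubring.valuation_le_one_iff, map_div₀]
    exact div_le_one_of_le₀ (he e' (Finset.mem_univ _)) zero_le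
  · field_simp

/-- replacing the `j`-th member of a tuple: the evaluation matrix gets its `j`-th column
replaced. -/
theorem evalMatrix_update {ι : Type*} (m : ι → Z → Om) (e : Z → ι) (j : Z) (i : ι) :
    (evalMatrix fun j' => m (Function.update e j i j')) =
      (evalMatrix fun j' => m (e j')).updateCol j (m i) := by
  ext z j'
  rw [evalMatrix_apply, Matrix.updateCol_apply]
  by_cases h : j' = j
  · subst h
    rw [Function.update_self, if_pos rfl]
  · rw [Function.update_of_ne h, if_neg h, evalMatrix_apply]

/-- **Cramer**: for a valuation-maximal tuple `e`, every member of the family is a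
`V`-combination of the `m (e j)`. -/
theorem exists_coeff_mem {ι : Type*} (V : ValuationSubring Om) (m : ι → Z → Om) (e : Z → ι)
    (hd : minor m e ≠ 0) (hmax : ∀ e' : Z → ι, ∃ w ∈ V, minor m e' = minor m e * w) (i : ι) :
    ∃ c : Z → Om, (∀ j, c j ∈ V) ∧ ∀ z, m i z = ∑ j, c j * m (e j) z := by
  classical
  set E : Matrix Z Z Om := evalMatrix fun j => m (e j) with hE
  have hdet : E.det ≠ 0 := hd
  choose w hwV hw using fun j => hmax (Function.update e j i)
  refine ⟨w, hwV, fun z => ?_⟩
  have hcr : ∀ j, E.cramer (m i) j = E.det * w j := by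
    intro j
    rw [Matrix.cramer_apply, hE, ← evalMatrix_update]
    exact hw j
  have h1 : E.mulVec (E.cramer (m i)) = E.det • m i := Matrix.mulVec_cramer E (m i)
  have h2 := congr_fun h1 z
  rw [Pi.smul_apply, smul_eq_mul] at h2
  have h3 : E.mulVec (E.cramer (m i)) z = E.det * ∑ j, w j * m (e j) z := by
    rw [Matrix.mulVec, dotProduct, Finset.mul_sum]
    refine Finset.sum_congr rfl fun j _ => ?_
    rw [hcr j, hE, evalMatrix_apply]
    ring
  rw [h3] at h2
  exact (mul_left_cancel₀ hdet h2).symm

/-- a spanning family contains a tuple with non-zero evaluation determinant. -/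
theorem exists_minor_of_span {ι : Type*} (m : ι → Z → Om)
    (hspan : Submodule.span Om (Set.range m) = ⊤) : ∃ e : Z → ι, minor m e ≠ 0 := by
  classical
  let b0 := Module.Basis.ofSpan hspan.ge
  have hb0 : ∀ i, b0 i ∈ Set.range m := fun i => Module.Basis.ofSpan_subset hspan.ge ⟨i, rfl⟩
  let b : Module.Basis Z Om (Z → Om) := b0.reindex (b0.indexEquiv (Pi.basisFun Om Z))
  have hb : ∀ j, b j ∈ Set.range m := fun j => by
    rw [Module.Basis.reindex_apply]
    exact hb0 _
  choose e he using hb
  refine ⟨e, ?_⟩
  have hE : (evalMatrix fun j => m (e j)) = (Pi.basisFun Om Z).toMatrix b := by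
    ext z j
    simp [Module.Basis.toMatrix_apply, he]
  rw [minor, hE, ← Module.Basis.det_apply]
  exact ((Pi.basisFun Om Z).isUnit_det b).ne_zero

/-- **The uniform conductor, matrix form.**  If `π • δ_z` lies in the `V`-span of the family for
every `z` (`π ≠ 0`), there is a tuple `e` with non-zero determinant such that `π • F` is a
`V`-combination of the `m (e j)` for every `V`-valued `F`. -/
theorem smul_mem_span_of_delta {ι : Type*} [Finite ι] (V : ValuationSubring Om)
    (m : ι → Z → Om) (π : Om) (hπ : π ≠ 0)
    (hδ : ∀ z0 : Z, (fun z => if z = z0 then π else 0) ∈ Submodule.span V (Set.range m)) :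
    ∃ e : Z → ι, minor m e ≠ 0 ∧ ∀ F : Z → Om, (∀ z, F z ∈ V) →
      ∃ lam : Z → Om, (∀ j, lam j ∈ V) ∧ ∀ z, π * F z = ∑ j, lam j * m (e j) z := by
  classical
  haveI : Fintype ι := Fintype.ofFinite ι
  have hδ' : ∀ z0 : Z, ∃ a : ι → Om, (∀ i, a i ∈ V) ∧
      ∀ z, (if z = z0 then π else 0) = ∑ i, a i * m i z := by
    intro z0
    obtain ⟨c, hc⟩ := (Submodule.mem_span_range_iff_exists_fun V).mp (hδ z0)
    refine ⟨fun i => (c i : Om), fun i => (c i).2, fun z => ?_⟩
    have := congr_fun hc z
    rw [Finset.sum_apply] at this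
    rw [← this]
    rfl
  choose a haV ha using hδ'
  -- the family spans
  have hspan : Submodule.span Om (Set.range m) = ⊤ := by
    rw [eq_top_iff]
    intro F _
    have hF : F = ∑ z0, (π⁻¹ * F z0) • ∑ i, a z0 i • m i := by
      funext z
      rw [Finset.sum_apply]
      simp only [Pi.smul_apply, Finset.sum_apply, smul_eq_mul]
      have h1 : ∀ z0, π⁻¹ * F z0 * ∑ i, a z0 i * m i z = π⁻¹ * F z0 * (if z = z0 then π else 0) :=
        fun z0 => by rw [ha z0 z]
      rw [Finset.sum_congr rfl fun z0 _ => h1 z0, Finset.sum_eq_single z]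
      · rw [if_pos rfl]
        field_simp
      · intro z0 _ hz0
        rw [if_neg (Ne.symm hz0), mul_zero]
      · intro h
        exact absurd (Finset.mem_univ _) h
    rw [hF]
    refine Submodule.sum_mem _ fun z0 _ => Submodule.smul_mem _ _ (Submodule.sum_mem _ fun i _ =>
      Submodule.smul_mem _ _ (Submodule.subset_span ⟨i, rfl⟩))
  obtain ⟨e, hde, hmax⟩ := exists_maximal_minor V m (exists_minor_of_span m hspan)
  refine ⟨e, hde, fun F hF => ?_⟩
  choose c hcV hc using fun i => exists_coeff_mem V m e hde hmax i
  refine ⟨fun j => ∑ z0, ∑ i, F z0 * a z0 i * c i j, fun j => ?_, fun z => ?_⟩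
  · exact sum_mem fun z0 _ => sum_mem fun i _ =>
      V.mul_mem _ _ (V.mul_mem _ _ (hF z0) (haV z0 i)) (hcV i j)
  · have h1 : π * F z = ∑ z0, F z0 * (if z = z0 then π else 0) := by
      rw [Finset.sum_eq_single z]
      · rw [if_pos rfl, mul_comm]
      · intro z0 _ hz0
        rw [if_neg (Ne.symm hz0), mul_zero]
      · intro h
        exact absurd (Finset.mem_univ _) h
    rw [h1]
    calc ∑ z0, F z0 * (if z = z0 then π else 0)
        = ∑ z0, ∑ i, ∑ j, F z0 * a z0 i * c i j * m (e j) z := by
          refine Finset.sum_congr rfl fun z0 _ => ?_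
          rw [ha z0 z, Finset.mul_sum]
          refine Finset.sum_congr rfl fun i _ => ?_
          rw [hc i z, Finset.mul_sum, Finset.mul_sum]
          refine Finset.sum_congr rfl fun j _ => ?_
          ring
      _ = ∑ j, (∑ z0, ∑ i, F z0 * a z0 i * c i j) * m (e j) z := by
          rw [Finset.sum_congr rfl fun z0 _ => Finset.sum_comm]
          rw [Finset.sum_comm]
          refine Finset.sum_congr rfl fun j _ => ?_
          rw [Finset.sum_mul]
          refine Finset.sum_congr rfl fun z0 _ => ?_
          rw [Finset.sum_mul]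

end Fermat.Agent.S33x.L3.MaxMinor
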