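import Mathlib
import Fermat.Agent.S33x.L3.AssembleDone
import Fermat.Agent.S33x.L3.NoTrivSub

/-!
# S33, Layer 3 → bridge: `Consumer.Ord.OrdPts` from approximate charts on a subgroup

`X` an abelian group with maps `act : G_ℚ → X → X` satisfying the action axioms on the inertia group
`I` of `P` (`p` odd, `P` over `p`); `X1 ≤ X` a finite `I`-stable `p`-subgroup carrying approximate
Cech charts for the restricted action (`Iface.HasApproxCharts p P ↥X1 (restrictAct …)`: what Layer 2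
exports for `X1 = K_m`).  Then

* `noTriv_of_hasApproxCharts_sub` : `Consumer.Ord.NoTriv I act X1`;
* `ordPts_of_hasApproxCharts_sub` : if moreover `act τ x - x ∈ X1` for `τ ∈ I`, `x : X`
  (property (i) of the Kummer subgroup), then `Consumer.Ord.OrdPts I act`.
-/

set_option autoImplicit false
set_option linter.unusedSectionVars false
set_option linter.unusedVariables false

noncomputable section

namespace Fermat.Agent.S33x.L3.OrdPtsOfCharts

open Fermat.Agent.S56x.Flat.InertiaField Fermat.Agent.S33x.Iface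
  Fermat.Agent.S33x.L3.NoTrivSub

local notation "Qbar" => AlgebraicClosure ℚ
local notation "Γℚ" => (AlgebraicClosure ℚ ≃ₐ[ℚ] AlgebraicClosure ℚ)

variable {p : ℕ} (hp : p.Prime) (hp2 : p ≠ 2) (P : ValuationSubring Qbar)
  (hP : P.LiesOverPrime p) {X : Type} [AddCommGroup X] (act : Γℚ → X → X)
  (X1 : AddSubgroup X)
  (hstab : ∀ τ ∈ P.inertiaSubgroupIn ℚ, ∀ x ∈ X1, act τ x ∈ X1)
  (h1 : ∀ x, act 1 x = x)
  (hmul : ∀ σ ∈ P.inertiaSubgroupIn ℚ, ∀ τ ∈ P.inertiaSubgroupIn ℚ, ∀ x,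
    act (σ * τ) x = act σ (act τ x))
  (hadd : ∀ σ ∈ P.inertiaSubgroupIn ℚ, ∀ x y, act σ (x + y) = act σ x + act σ y)

include hp hp2 hP h1 hmul hadd in
/-- **`NoTriv` for an inertia-stable subgroup carrying approximate charts.** -/
theorem noTriv_of_hasApproxCharts_sub [Finite X1]
    (htors : ∀ x ∈ X1, ∃ m : ℕ, p ^ m • x = 0)
    (hch : HasApproxCharts p P ↥X1 (restrictAct P act X1 hstab)) :
    Fermat.Agent.S33x.Consumer.Ord.NoTriv (P.inertiaSubgroupIn ℚ : Set Γℚ) act X1 := by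
  intro A B hAB hBX1 hτ
  have htors' : ∀ x : ↥X1, ∃ m : ℕ, p ^ m • x = 0 := by
    intro x
    obtain ⟨m, hm⟩ := htors x x.2
    refine ⟨m, Subtype.ext ?_⟩
    rw [AddSubgroup.coe_nsmul, hm]
    rfl
  have key := Fermat.Agent.S33x.L3.AssembleDone.noTrivOfCharts p hp hp2 P hP ↥X1
    (restrictAct P act X1 hstab) (restrictAct_one P act X1 hstab h1)
    (restrictAct_mul P act X1 hstab hmul) (restrictAct_add P act X1 hstab hadd) htors' hch
    (A.comap X1.subtype) (B.comap X1.subtype) (AddSubgroup.comap_mono hAB) ?_ ?_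
  · intro b hb
    have h2 : (⟨b, hBX1 hb⟩ : ↥X1) ∈ B.comap X1.subtype := hb
    exact key h2
  · intro τ hτI a ha
    show ((restrictAct P act X1 hstab τ a : ↥X1) : X) ∈ A
    rw [coe_restrictAct_of_mem P act X1 hstab hτI]
    have ha' : (a : X) ∈ A := ha
    have h2 : act τ (a : X) = (act τ (a : X) - (a : X)) + (a : X) := by abel
    rw [h2]
    exact A.add_mem (hτ τ hτI _ (hAB ha')) ha'
  · intro τ hτI y hy
    show ((restrictAct P act X1 hstab τ y - y : ↥X1) : X) ∈ A
    rw [AddSubgroup.coe_sub, coe_restrictAct_of_mem P act X1 hstab hτI]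
    exact hτ τ hτI _ hy

include hp hp2 hP h1 hmul hadd in
/-- **`OrdPts` from the Kummer-type subgroup**: (i) + approximate charts. -/
theorem ordPts_of_hasApproxCharts_sub [Finite X1]
    (hi : ∀ τ ∈ P.inertiaSubgroupIn ℚ, ∀ x : X, act τ x - x ∈ X1)
    (htors : ∀ x ∈ X1, ∃ m : ℕ, p ^ m • x = 0)
    (hch : HasApproxCharts p P ↥X1 (restrictAct P act X1 hstab)) :
    Fermat.Agent.S33x.Consumer.Ord.OrdPts (P.inertiaSubgroupIn ℚ : Set Γℚ) act :=
  ⟨X1, hi, noTriv_of_hasApproxCharts_sub hp hp2 P hP act X1 hstab h1 hmul hadd htors hch⟩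

end Fermat.Agent.S33x.L3.OrdPtsOfCharts
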