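import Mathlib
import Fermat.Agent.S56x.Flat.InertiaField

/-!
# S33, Layer 3: polynomials over `inertiaInt P` at integral points (congruence transfer)

`P` a valuation subring of `ℚ̄`, `G` a polynomial over `O = inertiaInt P` (the inertia-fixed
integers).

* `aeval_mem` : `G` takes `P`-integral values at `P`-integral points;
* `aeval_map_inertia` : `G` commutes with the inertia group of `P`;
* `aeval_sub_mem` : **congruence transfer**: if `a j - b j ∈ δ P` for all `j` (`a`, `b` integral)
  then `G a - G b ∈ δ P`.  This transfers an approximate group law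
  `coord (x + y) ≡ F (coord x, coord y) mod δ` from approximate coordinates to exact lifts
  `coord' ≡ coord mod δ`;
* `add_approx_transfer` : that transfer, in the `Sum.elim` form of the chart interface.
-/

set_option autoImplicit false
set_option linter.unusedSectionVars false

noncomputable section

namespace Fermat.Agent.S33x.L3.PolyCongr

open Fermat.Agent.S56x.Flat.InertiaField

local notation "Qbar" => AlgebraicClosure ℚ
local notation "Γℚ" => (AlgebraicClosure ℚ ≃ₐ[ℚ] AlgebraicClosure ℚ)

variable {P : ValuationSubring Qbar} {σ : Type*}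

/-- a polynomial over `inertiaInt P` takes `P`-integral values at `P`-integral points. -/
theorem aeval_mem (G : MvPolynomial σ (inertiaInt P)) (a : σ → Qbar) (ha : ∀ j, a j ∈ P) :
    MvPolynomial.aeval a G ∈ P := by
  induction G using MvPolynomial.induction_on with
  | C o =>
    rw [MvPolynomial.aeval_C]
    exact o.2.1
  | add p q hp hq =>
    rw [map_add]
    exact P.add_mem _ _ hp hq
  | mul_X p n hp =>
    rw [map_mul, MvPolynomial.aeval_X]
    exact P.mul_mem _ _ hp (ha n)

/-- a polynomial over `inertiaInt P` commutes with the inertia group. -/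
theorem aeval_map_inertia (G : MvPolynomial σ (inertiaInt P)) (a : σ → Qbar) (τ : Γℚ)
    (hτ : τ ∈ P.inertiaSubgroupIn ℚ) :
    τ (MvPolynomial.aeval a G) = MvPolynomial.aeval (fun j => τ (a j)) G := by
  induction G using MvPolynomial.induction_on with
  | C o =>
    rw [MvPolynomial.aeval_C, MvPolynomial.aeval_C]
    exact o.2.2 τ hτ
  | add p q hp hq =>
    rw [map_add, map_add, map_add, hp, hq]
  | mul_X p n hp =>
    rw [map_mul, map_mul, map_mul, MvPolynomial.aeval_X, MvPolynomial.aeval_X, hp]

/-- **congruence transfer**: a polynomial over `inertiaInt P` takes congruent values at congruent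
integral points. -/
theorem aeval_sub_mem (G : MvPolynomial σ (inertiaInt P)) (δ : Qbar) (a b : σ → Qbar)
    (ha : ∀ j, a j ∈ P) (hb : ∀ j, b j ∈ P) (hab : ∀ j, ∃ w ∈ P, a j - b j = δ * w) :
    ∃ w ∈ P, MvPolynomial.aeval a G - MvPolynomial.aeval b G = δ * w := by
  induction G using MvPolynomial.induction_on with
  | C o =>
    refine ⟨0, P.zero_mem, ?_⟩
    rw [MvPolynomial.aeval_C, MvPolynomial.aeval_C, sub_self, mul_zero]
  | add p q hp hq =>
    obtain ⟨w, hw, hpw⟩ := hp
    obtain ⟨w', hw', hqw⟩ := hq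
    refine ⟨w + w', P.add_mem _ _ hw hw', ?_⟩
    rw [map_add, map_add, mul_add, ← hpw, ← hqw]
    ring
  | mul_X p n hp =>
    obtain ⟨w, hw, hpw⟩ := hp
    obtain ⟨w', hw', hnw⟩ := hab n
    refine ⟨w * a n + MvPolynomial.aeval b p * w', P.add_mem _ _ (P.mul_mem _ _ hw (ha n))
      (P.mul_mem _ _ (aeval_mem p b hb) hw'), ?_⟩
    rw [map_mul, map_mul, MvPolynomial.aeval_X, MvPolynomial.aeval_X]
    have h1 : MvPolynomial.aeval a p * a n - MvPolynomial.aeval b p * b n =
        (MvPolynomial.aeval a p - MvPolynomial.aeval b p) * a n +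
          MvPolynomial.aeval b p * (a n - b n) := by ring
    rw [h1, hpw, hnw]
    ring

/-- **transfer of an approximate group law** from approximate coordinates `c` to lifts `c'` which
are congruent to them modulo `δ`: if `c (x + y) i ≡ F i (c x, c y)` and `c' ≡ c` modulo `δ`
(everything `P`-integral) then `c' (x + y) i ≡ F i (c' x, c' y)` modulo `δ`. -/
theorem add_approx_transfer {X : Type*} [Add X] {g : ℕ}
    (F : Fin g → MvPolynomial (Fin g ⊕ Fin g) (inertiaInt P)) (δ : Qbar)
    (c c' : X → Fin g → Qbar) (hc : ∀ x i, c x i ∈ P) (hc' : ∀ x i, c' x i ∈ P)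
    (hcc' : ∀ x i, ∃ w ∈ P, c' x i - c x i = δ * w)
    (hF : ∀ x y i, ∃ w ∈ P,
      c (x + y) i - MvPolynomial.aeval (Sum.elim (c x) (c y)) (F i) = δ * w) :
    ∀ x y i, ∃ w ∈ P,
      c' (x + y) i - MvPolynomial.aeval (Sum.elim (c' x) (c' y)) (F i) = δ * w := by
  intro x y i
  obtain ⟨w0, hw0, h0⟩ := hcc' (x + y) i
  obtain ⟨w1, hw1, h1⟩ := hF x y i
  obtain ⟨w2, hw2, h2⟩ := aeval_sub_mem (F i) δ (Sum.elim (c x) (c y)) (Sum.elim (c' x) (c' y))
    (by rintro (j | j) <;> simp only [Sum.elim_inl, Sum.elim_inr] <;> exact hc _ _)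
    (by rintro (j | j) <;> simp only [Sum.elim_inl, Sum.elim_inr] <;> exact hc' _ _)
    (by
      rintro (j | j)
      · obtain ⟨w, hw, h⟩ := hcc' x j
        refine ⟨-w, P.neg_mem _ hw, ?_⟩
        simp only [Sum.elim_inl]
        rw [mul_neg, ← h]
        ring
      · obtain ⟨w, hw, h⟩ := hcc' y j
        refine ⟨-w, P.neg_mem _ hw, ?_⟩
        simp only [Sum.elim_inr]
        rw [mul_neg, ← h]
        ring)
  refine ⟨w0 + w1 + w2, P.add_mem _ _ (P.add_mem _ _ hw0 hw1) hw2, ?_⟩
  have h3 : c' (x + y) i - MvPolynomial.aeval (Sum.elim (c' x) (c' y)) (F i) =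
      (c' (x + y) i - c (x + y) i) +
      (c (x + y) i - MvPolynomial.aeval (Sum.elim (c x) (c y)) (F i)) +
      (MvPolynomial.aeval (Sum.elim (c x) (c y)) (F i) -
        MvPolynomial.aeval (Sum.elim (c' x) (c' y)) (F i)) := by ring
  rw [h3, h0, h1, h2]
  ring

end Fermat.Agent.S33x.L3.PolyCongr
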