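import Fermat.Agent.S33x.L3.MaxMinor
import Fermat.Agent.S56x.Flat.InertiaField

/-!
# S33, Layer 3, leaf (L3-b) (helper41): the UNIFORM conductor

`P` a valuation subring of `ℚ̄`, `Z` a finite set with an action of `G_ℚ`, `S` a set of
inertia-equivariant `P`-valued functions on `Z` which separates the points of `Z` to precision `π`
(`π ≠ 0` inertia-fixed: for `z ≠ z'` some `f ∈ S` has `π ∈ (f z - f z') P`).  Then
`π ^ (|Z| - 1)` times EVERY inertia-equivariant `P`-valued function lies in the
`inertiaInt P`-algebra generated by `S` (`uniform_conductor`; `uniform_conductor_of_surjective`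
only asks that the inertia group acts through surjections).

Contrary to `S19x/Alg/ConductorInertia.exists_pow_smul_mem` the exponent depends only on the
separation precision and on `|Z|`, not on the algebra: this is what allows coordinates which are
only defined to finite precision.

Proof: Lagrange products give `π ^ (|Z| - 1) • δ_z` in the `P`-span of finitely many monomials in
members of `S`; a valuation-maximal minor of that family (`MaxMinor.smul_mem_span_of_delta`) gives
`P`-coefficients for every `P`-valued function, which are inertia-fixed for an equivariant function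
(`Closedness.coeff_fixed`).
-/

set_option autoImplicit false
set_option linter.unusedSectionVars false
set_option linter.style.haveILetI false

open Matrix

namespace Fermat.Agent.S33x.L3.UniformConductor

open Fermat.Agent.S19x.Alg.Closedness Fermat.Agent.S33x.L3.MaxMinor
  Fermat.Agent.S56x.Flat.InertiaField

section Lagrange

variable {Om : Type*} [Field Om] {Z : Type*} [Fintype Z] [DecidableEq Z]

/-- the monomial `∏_{z' ∈ T} G z'`. -/
def mono (G : Z → Z → Om) (T : Finset Z) : Z → Om := fun z => ∏ z' ∈ T, G z' z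

/-- the `V`-span of the monomials `∏_{z' ∈ T} G z'`, `T ⊆ U`. -/
def monoSpan (V : ValuationSubring Om) (G : Z → Z → Om) (U : Finset Z) :
    Submodule V (Z → Om) :=
  Submodule.span V {F | ∃ T : Finset Z, T ⊆ U ∧ F = mono G T}

theorem monoSpan_mono (V : ValuationSubring Om) (G : Z → Z → Om) {U U' : Finset Z}
    (h : U ⊆ U') : monoSpan V G U ≤ monoSpan V G U' :=
  Submodule.span_mono fun _ ⟨T, hT, hF⟩ => ⟨T, hT.trans h, hF⟩

/-- multiplication by a new `G a` maps `monoSpan U` into `monoSpan (insert a U)`. -/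
theorem mul_mem_monoSpan (V : ValuationSubring Om) (G : Z → Z → Om) {U : Finset Z} {a : Z}
    (ha : a ∉ U) {F : Z → Om} (hF : F ∈ monoSpan V G U) :
    (fun z => G a z * F z) ∈ monoSpan V G (insert a U) := by
  induction hF using Submodule.span_induction with
  | mem F hF =>
    obtain ⟨T, hT, rfl⟩ := hF
    refine Submodule.subset_span ⟨insert a T, Finset.insert_subset_insert a hT, ?_⟩
    funext z
    rw [mono, mono, Finset.prod_insert (fun h => ha (hT h))]
  | zero =>
    have : (fun z => G a z * (0 : Z → Om) z) = 0 := by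
      funext z
      simp
    rw [this]
    exact Submodule.zero_mem _
  | add F F' _ _ h h' =>
    have : (fun z => G a z * (F + F') z) = (fun z => G a z * F z) + fun z => G a z * F' z := by
      funext z
      simp [mul_add]
    rw [this]
    exact Submodule.add_mem _ h h'
  | smul c F _ h =>
    have : (fun z => G a z * (c • F) z) = c • fun z => G a z * F z := by
      funext z
      simp only [Pi.smul_apply]
      rw [Algebra.smul_def, Algebra.smul_def]
      ring
    rw [this]
    exact Submodule.smul_mem _ _ h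

/-- **Lagrange products are combinations of monomials**: `∏_{z' ∈ U} (G z' - c z') w z'` lies in
the `V`-span of the monomials `∏_{z' ∈ T} G z'`, `T ⊆ U`, if the constants `c z'`, `w z'` lie in
`V`. -/
theorem lagrange_mem_monoSpan (V : ValuationSubring Om) (G : Z → Z → Om) (c w : Z → Om)
    (hc : ∀ z', c z' ∈ V) (hw : ∀ z', w z' ∈ V) (U : Finset Z) :
    (fun z => ∏ z' ∈ U, (G z' z - c z') * w z') ∈ monoSpan V G U := by
  induction U using Finset.induction_on with
  | empty =>
    refine Submodule.subset_span ⟨∅, Finset.Subset.refl _, ?_⟩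
    funext z
    simp [mono]
  | insert a U ha ih =>
    have h1 : (fun z => ∏ z' ∈ insert a U, (G z' z - c z') * w z') =
        (⟨w a, hw a⟩ : V) • (fun z => G a z * ∏ z' ∈ U, (G z' z - c z') * w z') -
          (⟨c a * w a, V.mul_mem _ _ (hc a) (hw a)⟩ : V) •
            (fun z => ∏ z' ∈ U, (G z' z - c z') * w z') := by
      funext z
      rw [Finset.prod_insert ha]
      simp only [Pi.sub_apply, Pi.smul_apply]
      rw [Algebra.smul_def, Algebra.smul_def]
      show _ = w a * _ - c a * w a * _
      ring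
    rw [h1]
    exact Submodule.sub_mem _ (Submodule.smul_mem _ _ (mul_mem_monoSpan V G ha ih))
      (Submodule.smul_mem _ _ (monoSpan_mono V G (Finset.subset_insert a U) ih))

end Lagrange

section Main

local notation "Qbar" => AlgebraicClosure ℚ
local notation "Γℚ" => (AlgebraicClosure ℚ ≃ₐ[ℚ] AlgebraicClosure ℚ)

/-- **(L3-b) The uniform conductor**, with the only property of the action which is used: the
inertia group acts through surjections. -/
theorem uniform_conductor_of_surjective (P : ValuationSubring Qbar)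
    {Z : Type} [Finite Z] (actZ : Γℚ → Z → Z)
    (hsurj : ∀ τ ∈ P.inertiaSubgroupIn ℚ, Function.Surjective (actZ τ))
    (S : Set (Z → Qbar))
    (hSeq : ∀ f ∈ S, ∀ τ ∈ P.inertiaSubgroupIn ℚ, ∀ z, f (actZ τ z) = τ (f z))
    (hSint : ∀ f ∈ S, ∀ z, f z ∈ P)
    (π : Qbar) (hπ : π ≠ 0) (hπfix : ∀ τ ∈ P.inertiaSubgroupIn ℚ, τ π = π)
    (hsep : ∀ z z', z ≠ z' → ∃ f ∈ S, ∃ w ∈ P, π = (f z - f z') * w) :
    ∀ W : Z → Qbar, (∀ τ ∈ P.inertiaSubgroupIn ℚ, ∀ z, W (actZ τ z) = τ (W z)) →
      (∀ z, W z ∈ P) →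
      (fun z => π ^ (Nat.card Z - 1) * W z) ∈ Algebra.adjoin (inertiaInt P) S := by
  classical
  letI : Fintype Z := Fintype.ofFinite Z
  intro W hWeq hWint
  -- the separating functions and constants, made total
  choose fsep hfS wsep hwP hsepeq using hsep
  set G : Z → Z → Z → Qbar := fun z0 z' => if h : z0 ≠ z' then fsep z0 z' h else 0 with hG
  set wt : Z → Z → Qbar := fun z0 z' => if h : z0 ≠ z' then wsep z0 z' h else 0 with hwt
  have hGmem : ∀ z0 z', G z0 z' ∈ Algebra.adjoin (inertiaInt P) S := by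
    intro z0 z'
    rw [hG]
    simp only
    split_ifs with h
    · exact Algebra.subset_adjoin (hfS z0 z' h)
    · exact Subalgebra.zero_mem _
  have hGint : ∀ z0 z' z, G z0 z' z ∈ P := by
    intro z0 z' z
    rw [hG]
    simp only
    split_ifs with h
    · exact hSint _ (hfS z0 z' h) z
    · exact P.zero_mem
  have hGeq : ∀ z0 z', ∀ τ ∈ P.inertiaSubgroupIn ℚ, ∀ z, G z0 z' (actZ τ z) = τ (G z0 z' z) := by
    intro z0 z' τ hτ z
    rw [hG]
    simp only
    split_ifs with h
    · exact hSeq _ (hfS z0 z' h) τ hτ z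
    · simp
  have hwtP : ∀ z0 z', wt z0 z' ∈ P := by
    intro z0 z'
    rw [hwt]
    simp only
    split_ifs with h
    · exact hwP z0 z' h
    · exact P.zero_mem
  have hpair : ∀ z0 z', z0 ≠ z' → π = (G z0 z' z0 - G z0 z' z') * wt z0 z' := by
    intro z0 z' h
    rw [hG, hwt]
    simp only
    rw [dif_pos h, dif_pos h]
    exact hsepeq z0 z' h
  -- the family of monomials
  set m : Z × Finset Z → Z → Qbar := fun i => mono (G i.1) i.2 with hm
  have hm_mem : ∀ i, m i ∈ Algebra.adjoin (inertiaInt P) S := by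
    intro i
    have : m i = ∏ z' ∈ i.2, G i.1 z' := by
      funext z
      rw [Finset.prod_apply]
      rfl
    rw [this]
    exact Subalgebra.prod_mem _ fun z' _ => hGmem _ _
  have hm_int : ∀ i z, m i z ∈ P := fun i z => prod_mem fun z' _ => hGint _ _ _
  have hm_eq : ∀ i, ∀ τ ∈ P.inertiaSubgroupIn ℚ, ∀ z, m i (actZ τ z) = τ (m i z) := by
    intro i τ hτ z
    show ∏ z' ∈ i.2, G i.1 z' (actZ τ z) = τ (∏ z' ∈ i.2, G i.1 z' z)
    rw [map_prod]
    exact Finset.prod_congr rfl fun z' _ => hGeq _ _ τ hτ z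
  -- `π ^ (|Z| - 1) δ_z0` in the span
  set N : ℕ := Nat.card Z - 1 with hN
  have hcard : ∀ z0 : Z, (Finset.univ.erase z0).card = N := by
    intro z0
    rw [Finset.card_erase_of_mem (Finset.mem_univ _), Finset.card_univ, hN,
      Nat.card_eq_fintype_card]
  have hδ : ∀ z0 : Z, (fun z => if z = z0 then π ^ N else 0) ∈
      Submodule.span P (Set.range m) := by
    intro z0
    have h1 := lagrange_mem_monoSpan P (G z0) (fun z' => G z0 z' z') (wt z0)
      (fun z' => hGint _ _ _) (hwtP z0) (Finset.univ.erase z0)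
    have h2 : (fun z => ∏ z' ∈ Finset.univ.erase z0, (G z0 z' z - G z0 z' z') * wt z0 z') =
        fun z => if z = z0 then π ^ N else 0 := by
      funext z
      by_cases hz : z = z0
      · subst hz
        rw [if_pos rfl, ← hcard z, ← Finset.prod_const]
        refine Finset.prod_congr rfl fun z' hz' => ?_
        exact (hpair z z' (Ne.symm (Finset.ne_of_mem_erase hz'))).symm
      · rw [if_neg hz]
        refine Finset.prod_eq_zero (Finset.mem_erase.mpr ⟨hz, Finset.mem_univ z⟩) ?_
        rw [sub_self, zero_mul]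
    rw [h2] at h1
    refine Submodule.span_mono ?_ h1
    rintro F ⟨T, -, rfl⟩
    exact ⟨(z0, T), rfl⟩
  obtain ⟨e, hde, hlam⟩ := smul_mem_span_of_delta P m (π ^ N) (pow_ne_zero _ hπ) hδ
  obtain ⟨lam, hlamP, hlamW⟩ := hlam W hWint
  -- the coefficients are inertia-fixed
  have hfix : ∀ j, ∀ τ ∈ P.inertiaSubgroupIn ℚ, τ (lam j) = lam j := fun j τ hτ =>
    coeff_fixed (fun j => m (e j)) hde lam (fun z => π ^ N * W z) hlamW (τ : Qbar →+* Qbar)
      (actZ τ) (hsurj τ hτ) (fun j z => hm_eq (e j) τ hτ z)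
      (fun z => by
        show π ^ N * W (actZ τ z) = τ (π ^ N * W z)
        rw [hWeq τ hτ, map_mul, map_pow, hπfix τ hτ]) j
  have hsum : (fun z => π ^ N * W z) =
      ∑ j, (⟨lam j, hlamP j, hfix j⟩ : inertiaInt P) • m (e j) := by
    funext z
    rw [hlamW z, Finset.sum_apply]
    rfl
  rw [hsum]
  exact Subalgebra.sum_mem _ fun j _ => Subalgebra.smul_mem _ (hm_mem (e j)) _

/-- **(L3-b) The uniform conductor**, for an action of `G_ℚ`. -/
theorem uniform_conductor (P : ValuationSubring Qbar)
    {Z : Type} [Finite Z] (actZ : Γℚ → Z → Z) (hact1 : ∀ z, actZ 1 z = z)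
    (hactmul : ∀ σ τ z, actZ (σ * τ) z = actZ σ (actZ τ z))
    (S : Set (Z → Qbar))
    (hSeq : ∀ f ∈ S, ∀ τ ∈ P.inertiaSubgroupIn ℚ, ∀ z, f (actZ τ z) = τ (f z))
    (hSint : ∀ f ∈ S, ∀ z, f z ∈ P)
    (π : Qbar) (hπ : π ≠ 0) (hπfix : ∀ τ ∈ P.inertiaSubgroupIn ℚ, τ π = π)
    (hsep : ∀ z z', z ≠ z' → ∃ f ∈ S, ∃ w ∈ P, π = (f z - f z') * w) :
    ∀ W : Z → Qbar, (∀ τ ∈ P.inertiaSubgroupIn ℚ, ∀ z, W (actZ τ z) = τ (W z)) →
      (∀ z, W z ∈ P) →
      (fun z => π ^ (Nat.card Z - 1) * W z) ∈ Algebra.adjoin (inertiaInt P) S :=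
  uniform_conductor_of_surjective P actZ
    (fun τ _ z => ⟨actZ τ⁻¹ z, by rw [← hactmul, mul_inv_cancel, hact1]⟩)
    S hSeq hSint π hπ hπfix hsep

end Main

end Fermat.Agent.S33x.L3.UniformConductor
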