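/-
S33 blueprint v2, Layer 3, leaf (L3-b) (helper94): the UNIFORM CONDUCTOR by equivariant Lagrange
interpolation.

`P` a valuation subring of `Qbar`, `I = P.inertiaSubgroupIn ℚ`, `O^ur = inertiaInt P`.  `Z` a finite
set with an action of `I`, `u : Fin g → Z → Qbar` inertia-equivariant `P`-valued functions which
separate the points of `Z` with precision `d` (`d ∈ P` inertia-fixed; for `z ≠ z'` some difference
`u i z - u i z'` divides `d` in `P`).  Then `d ^ (|Z| - 1)` times every inertia-equivariant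
`P`-valued function on `Z` lies in `O^ur[u]`.  (The exponent depends only on `|Z|` and the
separation precision, not on the functions `u`.)
-/
import Mathlib
import Fermat.Agent.S56x.Flat.InertiaField
import Fermat.Agent.S19x.Alg.Descent

set_option autoImplicit false
set_option linter.unusedSectionVars false
set_option linter.unusedVariables false
set_option linter.style.haveILetI false

noncomputable section

namespace Fermat.Agent.S33x.L3.UniformConductorLagrange

open Fermat.Agent.S56x.Hens Fermat.Agent.S56x.Flat.InertiaField MvPolynomial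
open scoped Classical

local notation "Qbar" => AlgebraicClosure ℚ
local notation "Γℚ" => (AlgebraicClosure ℚ ≃ₐ[ℚ] AlgebraicClosure ℚ)

variable (P : ValuationSubring Qbar)

/-! ### Polynomials with unramified coefficients -/

/-- a polynomial all of whose coefficients lie in `inertiaInt P`, evaluated at functions `u i`,
lies in the `inertiaInt P`-algebra generated by the `u i`. -/
theorem eval_mem_adjoin {σ Z : Type*} (u : σ → Z → Qbar) (Q : MvPolynomial σ Qbar)
    (hQ : ∀ m, Q.coeff m ∈ inertiaInt P) :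
    (fun z => MvPolynomial.eval (fun i => u i z) Q) ∈
      Algebra.adjoin (inertiaInt P) (Set.range u) := by
  have h : (fun z => MvPolynomial.eval (fun i => u i z) Q) =
      ∑ m ∈ Q.support, (⟨Q.coeff m, hQ m⟩ : inertiaInt P) • ∏ i ∈ m.support, u i ^ m i := by
    funext z
    rw [MvPolynomial.eval_eq, Finset.sum_apply]
    refine Finset.sum_congr rfl fun m _ => ?_
    show Q.coeff m * _ = Q.coeff m * (∏ i ∈ m.support, u i ^ m i) z
    rw [Finset.prod_apply]
    rfl
  rw [h]
  refine Subalgebra.sum_mem _ fun m _ => Subalgebra.smul_mem _ ?_ _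
  refine Subalgebra.prod_mem _ fun i _ => Subalgebra.pow_mem _ ?_ _
  exact Algebra.subset_adjoin (Set.mem_range_self i)

/-- the polynomials with coefficients in `P`. -/
def polyP (σ : Type*) : Subring (MvPolynomial σ Qbar) :=
  (MvPolynomial.map (P.subtype : P →+* Qbar)).range

theorem C_mem_polyP {σ : Type*} {c : Qbar} (hc : c ∈ P) : (C c : MvPolynomial σ Qbar) ∈ polyP P σ :=
  ⟨C ⟨c, hc⟩, by simp⟩

theorem X_mem_polyP {σ : Type*} (i : σ) : (X i : MvPolynomial σ Qbar) ∈ polyP P σ :=
  ⟨X i, by simp⟩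

theorem coeff_mem_of_mem_polyP {σ : Type*} {Q : MvPolynomial σ Qbar} (hQ : Q ∈ polyP P σ)
    (m : σ →₀ ℕ) : Q.coeff m ∈ P := by
  obtain ⟨Q', rfl⟩ := hQ
  rw [MvPolynomial.coeff_map]
  exact (Q'.coeff m).2

/-- an automorphism as a ring endomorphism of `Qbar`. -/
abbrev toHom (τ : Γℚ) : Qbar →+* Qbar := (τ : Qbar →+* Qbar)

/-- a polynomial with coefficients in `P` fixed coefficientwise by the inertia group has its
coefficients in `inertiaInt P`. -/
theorem coeff_mem_inertiaInt {σ : Type*} {Q : MvPolynomial σ Qbar} (hQ : Q ∈ polyP P σ)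
    (hfix : ∀ τ ∈ P.inertiaSubgroupIn ℚ, MvPolynomial.map (toHom τ) Q = Q) (m : σ →₀ ℕ) :
    Q.coeff m ∈ inertiaInt P := by
  refine ⟨coeff_mem_of_mem_polyP P hQ m, fun τ hτ => ?_⟩
  have := congrArg (MvPolynomial.coeff m) (hfix τ hτ)
  rw [MvPolynomial.coeff_map] at this
  exact this

/-! ### The interpolation polynomial -/

section Main

variable {Z : Type} [Fintype Z] (actZ : Γℚ → Z → Z) {g : ℕ} (u : Fin g → Z → Qbar) (d : Qbar)

/-- the index `i` separates `z` and `z'` with precision `d`. -/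
def Sep (z z' : Z) (i : Fin g) : Prop := ∃ w ∈ P, d = (u i z - u i z') * w

/-- `i` is the least separating index of the pair `(z, z')`. -/
def Least (z z' : Z) (i : Fin g) : Prop := Sep P u d z z' i ∧ ∀ j < i, ¬ Sep P u d z z' j

variable {P u d}

theorem least_unique {z z' : Z} {i j : Fin g} (hi : Least P u d z z' i)
    (hj : Least P u d z z' j) : i = j := by
  rcases lt_trichotomy i j with h | h | h
  · exact absurd hi.1 (hj.2 i h)
  · exact h
  · exact absurd hj.1 (hi.2 j h)

theorem exists_least {z z' : Z} (h : ∃ i, Sep P u d z z' i) : ∃ i, Least P u d z z' i :=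
  ⟨Fin.find _ h, Fin.find_spec h, fun j hj => Fin.find_min h hj⟩

theorem div_mul_of_sep {z z' : Z} {i : Fin g} (h : Sep P u d z z' i) :
    d / (u i z - u i z') * (u i z - u i z') = d := by
  obtain ⟨w, -, hd⟩ := h
  by_cases hΔ : u i z - u i z' = 0
  · rw [hΔ, zero_mul] at hd
    rw [hΔ, hd, mul_zero]
  · exact div_mul_cancel₀ d hΔ

theorem div_mem_of_sep {z z' : Z} {i : Fin g} (h : Sep P u d z z' i) :
    d / (u i z - u i z') ∈ P := by
  obtain ⟨w, hw, hd⟩ := h
  by_cases hΔ : u i z - u i z' = 0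
  · rw [hΔ, div_zero]
    exact P.zero_mem
  · rw [hd, mul_div_cancel_left₀ _ hΔ]
    exact hw

variable (P u d)

/-- the factor attached to the ordered pair `(z₀, z')`: a polynomial over `P` vanishing at `u z'`
with value `d` at `u z₀`. -/
def factor (z₀ z' : Z) : MvPolynomial (Fin g) Qbar :=
  ∑ i : Fin g,
    if Least P u d z₀ z' i then C (d / (u i z₀ - u i z')) * (X i - C (u i z')) else 0

theorem eval_factor_self (z₀ z' : Z) :
    MvPolynomial.eval (fun i => u i z') (factor P u d z₀ z') = 0 := by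
  unfold factor
  rw [map_sum]
  refine Finset.sum_eq_zero fun i _ => ?_
  split_ifs
  · simp
  · simp

theorem eval_factor (z₀ z' : Z) (h : ∃ i, Sep P u d z₀ z' i) :
    MvPolynomial.eval (fun i => u i z₀) (factor P u d z₀ z') = d := by
  obtain ⟨i, hi⟩ := exists_least h
  unfold factor
  rw [map_sum, Finset.sum_eq_single i]
  · rw [if_pos hi]
    simp only [map_mul, map_sub, MvPolynomial.eval_C, MvPolynomial.eval_X]
    exact div_mul_of_sep hi.1
  · intro j _ hji
    rw [if_neg (fun hj => hji (least_unique hj hi))]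
    simp
  · intro h'
    exact absurd (Finset.mem_univ i) h'

theorem factor_mem_polyP (huint : ∀ i z, u i z ∈ P) (z₀ z' : Z) :
    factor P u d z₀ z' ∈ polyP P (Fin g) := by
  unfold factor
  refine Subring.sum_mem _ fun i _ => ?_
  split_ifs with h
  · exact Subring.mul_mem _ (C_mem_polyP P (div_mem_of_sep h.1))
      (Subring.sub_mem _ (X_mem_polyP P i) (C_mem_polyP P (huint i z')))
  · exact Subring.zero_mem _

/-- the interpolation polynomial of `W`. -/
def interp (W : Z → Qbar) : MvPolynomial (Fin g) Qbar :=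
  ∑ z₀ : Z, C (W z₀) * ∏ z' : Z, if z' = z₀ then 1 else factor P u d z₀ z'

theorem interp_mem_polyP (huint : ∀ i z, u i z ∈ P) (W : Z → Qbar) (hW : ∀ z, W z ∈ P) :
    interp P u d W ∈ polyP P (Fin g) := by
  unfold interp
  refine Subring.sum_mem _ fun z₀ _ => Subring.mul_mem _ (C_mem_polyP P (hW z₀)) ?_
  refine Subring.prod_mem _ fun z' _ => ?_
  split_ifs
  · exact Subring.one_mem _
  · exact factor_mem_polyP P u d huint z₀ z'

theorem eval_interp (hsep : ∀ z z' : Z, z ≠ z' → ∃ i, Sep P u d z z' i) (W : Z → Qbar) (z : Z) :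
    MvPolynomial.eval (fun i => u i z) (interp P u d W) = d ^ (Fintype.card Z - 1) * W z := by
  unfold interp
  rw [map_sum, Finset.sum_eq_single z]
  · rw [map_mul, MvPolynomial.eval_C, map_prod]
    have h1 : ∀ z' : Z, MvPolynomial.eval (fun i => u i z)
        (if z' = z then (1 : MvPolynomial (Fin g) Qbar) else factor P u d z z') =
        if z' = z then 1 else d := by
      intro z'
      split_ifs with h
      · simp
      · exact eval_factor P u d z z' (hsep z z' (Ne.symm h))
    simp_rw [h1]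
    rw [Finset.prod_ite, Finset.prod_const_one, Finset.prod_const, one_mul,
      Finset.filter_ne', Finset.card_erase_of_mem (Finset.mem_univ z), Finset.card_univ, mul_comm]
  · intro z₀ _ hz₀
    rw [map_mul, map_prod]
    have h0 : ∏ z' : Z, MvPolynomial.eval (fun i => u i z)
        (if z' = z₀ then (1 : MvPolynomial (Fin g) Qbar) else factor P u d z₀ z') = 0 := by
      refine Finset.prod_eq_zero (Finset.mem_univ z) ?_
      rw [if_neg (fun h => hz₀ h.symm)]
      exact eval_factor_self P u d z₀ z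
    rw [h0, mul_zero]
  · intro h'
    exact absurd (Finset.mem_univ z) h'

/-! ### Equivariance -/

variable {actZ}
variable (hueq : ∀ i, ∀ τ ∈ P.inertiaSubgroupIn ℚ, ∀ z, u i (actZ τ z) = τ (u i z))
  (hdfix : ∀ τ ∈ P.inertiaSubgroupIn ℚ, τ d = d)
include hueq hdfix

theorem sep_act_iff {τ : Γℚ} (hτ : τ ∈ P.inertiaSubgroupIn ℚ) (z z' : Z) (i : Fin g) :
    Sep P u d (actZ τ z) (actZ τ z') i ↔ Sep P u d z z' i := by
  have hτD : τ ∈ P.decompositionSubgroup ℚ := ((mem_inertiaSubgroupIn_iff P τ).mp hτ).1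
  have hτD' : τ⁻¹ ∈ P.decompositionSubgroup ℚ := (P.decompositionSubgroup ℚ).inv_mem hτD
  unfold Sep
  rw [hueq i τ hτ z, hueq i τ hτ z']
  constructor
  · rintro ⟨w, hw, hd⟩
    refine ⟨τ⁻¹ w, (Fermat.Agent.S19x.Alg.Descent.apply_mem_iff P hτD' w).mpr hw, ?_⟩
    have h1 := congrArg (fun x => τ⁻¹ x) hd
    simp only [map_mul, map_sub] at h1
    have h2 : ∀ x : Qbar, τ⁻¹ (τ x) = x := fun x => τ.symm_apply_apply x
    rw [h2, h2] at h1
    have h3 : τ⁻¹ d = d := by
      have := h2 d
      rwa [hdfix τ hτ] at this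
    rw [← h1, h3]
  · rintro ⟨w, hw, hd⟩
    refine ⟨τ w, (Fermat.Agent.S19x.Alg.Descent.apply_mem_iff P hτD w).mpr hw, ?_⟩
    rw [← map_sub, ← map_mul, ← hd, hdfix τ hτ]

theorem least_act_iff {τ : Γℚ} (hτ : τ ∈ P.inertiaSubgroupIn ℚ) (z z' : Z) (i : Fin g) :
    Least P u d (actZ τ z) (actZ τ z') i ↔ Least P u d z z' i := by
  unfold Least
  rw [sep_act_iff P u d hueq hdfix hτ]
  refine and_congr Iff.rfl (forall_congr' fun j => ?_)
  rw [sep_act_iff P u d hueq hdfix hτ]

theorem map_factor {τ : Γℚ} (hτ : τ ∈ P.inertiaSubgroupIn ℚ) (z₀ z' : Z) :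
    MvPolynomial.map (toHom τ) (factor P u d z₀ z') =
      factor P u d (actZ τ z₀) (actZ τ z') := by
  unfold factor
  rw [map_sum]
  refine Finset.sum_congr rfl fun i _ => ?_
  have hL := least_act_iff P u d hueq hdfix hτ z₀ z' i
  by_cases h : Least P u d z₀ z' i
  · rw [if_pos h, if_pos (hL.mpr h)]
    simp only [map_mul, map_sub, MvPolynomial.map_C, MvPolynomial.map_X]
    rw [hueq i τ hτ z₀, hueq i τ hτ z']
    have h1 : toHom τ (d / (u i z₀ - u i z')) = d / (τ (u i z₀) - τ (u i z')) := by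
      show τ (d / (u i z₀ - u i z')) = _
      rw [map_div₀, map_sub, hdfix τ hτ]
    have h2 : toHom τ (u i z') = τ (u i z') := rfl
    rw [h1, h2]
  · rw [if_neg h, if_neg (fun h' => h (hL.mp h'))]
    simp

variable (hact1 : ∀ z, actZ 1 z = z)
  (hactmul : ∀ σ ∈ P.inertiaSubgroupIn ℚ, ∀ τ ∈ P.inertiaSubgroupIn ℚ, ∀ z,
    actZ (σ * τ) z = actZ σ (actZ τ z))
include hact1 hactmul

omit hueq hdfix in
/-- the permutation of `Z` induced by an element of the inertia group. -/
def actEquiv {τ : Γℚ} (hτ : τ ∈ P.inertiaSubgroupIn ℚ) : Z ≃ Z where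
  toFun := actZ τ
  invFun := actZ τ⁻¹
  left_inv z := by
    rw [← hactmul _ ((P.inertiaSubgroupIn ℚ).inv_mem hτ) _ hτ, inv_mul_cancel, hact1]
  right_inv z := by
    rw [← hactmul _ hτ _ ((P.inertiaSubgroupIn ℚ).inv_mem hτ), mul_inv_cancel, hact1]

theorem map_interp {τ : Γℚ} (hτ : τ ∈ P.inertiaSubgroupIn ℚ) (W : Z → Qbar)
    (hWeq : ∀ τ ∈ P.inertiaSubgroupIn ℚ, ∀ z, W (actZ τ z) = τ (W z)) :
    MvPolynomial.map (toHom τ) (interp P u d W) = interp P u d W := by
  set e : Z ≃ Z := actEquiv P hact1 hactmul hτ with he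
  have hterm : ∀ z₀ : Z, MvPolynomial.map (toHom τ)
      (C (W z₀) * ∏ z' : Z, if z' = z₀ then 1 else factor P u d z₀ z') =
      C (W (e z₀)) * ∏ z' : Z, if e z' = e z₀ then 1 else factor P u d (e z₀) (e z') := by
    intro z₀
    rw [map_mul, MvPolynomial.map_C, map_prod]
    congr 1
    · show C (τ (W z₀)) = C (W (actZ τ z₀))
      rw [hWeq τ hτ]
    · refine Finset.prod_congr rfl fun z' _ => ?_
      by_cases h : z' = z₀
      · rw [if_pos h, if_pos (by rw [h]), map_one]
      · rw [if_neg h, if_neg (fun h' => h (e.injective h'))]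
        exact map_factor P u d hueq hdfix hτ z₀ z'
  unfold interp
  rw [map_sum]
  simp_rw [hterm]
  have hprod : ∀ z₀ : Z, (∏ z' : Z, if e z' = e z₀ then 1 else factor P u d (e z₀) (e z')) =
      ∏ z' : Z, if z' = e z₀ then 1 else factor P u d (e z₀) z' := fun z₀ =>
    Equiv.prod_comp e (fun z' => if z' = e z₀ then 1 else factor P u d (e z₀) z')
  simp_rw [hprod]
  exact Equiv.sum_comp e
    (fun z₀ => C (W z₀) * ∏ z' : Z, if z' = z₀ then 1 else factor P u d z₀ z')

/-- **Uniform conductor** (Fintype form). -/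
theorem uniform_conductor_fintype (huint : ∀ i z, u i z ∈ P)
    (hsep : ∀ z z' : Z, z ≠ z' → ∃ i, ∃ w ∈ P, d = (u i z - u i z') * w)
    (W : Z → Qbar) (hWeq : ∀ τ ∈ P.inertiaSubgroupIn ℚ, ∀ z, W (actZ τ z) = τ (W z))
    (hWint : ∀ z, W z ∈ P) :
    (fun z => d ^ (Fintype.card Z - 1) * W z) ∈
      Algebra.adjoin (inertiaInt P) (Set.range u) := by
  have h1 := eval_mem_adjoin P u (interp P u d W)
    (coeff_mem_inertiaInt P (interp_mem_polyP P u d huint W hWint)
      (fun τ hτ => map_interp P u d hueq hdfix hact1 hactmul hτ W hWeq))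
  have h2 : (fun z => MvPolynomial.eval (fun i => u i z) (interp P u d W)) =
      fun z => d ^ (Fintype.card Z - 1) * W z := by
    funext z
    exact eval_interp P u d hsep W z
  rw [h2] at h1
  exact h1

end Main

/-- **Uniform conductor**: if inertia-equivariant `P`-valued functions `u i` on the finite
inertia-set `Z` separate points with precision `d`, then `d ^ (|Z| - 1)` times every
inertia-equivariant `P`-valued function lies in `inertiaInt P [u]`. -/
theorem uniform_conductor {Z : Type} [Finite Z] (actZ : Γℚ → Z → Z)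
    (hact1 : ∀ z, actZ 1 z = z)
    (hactmul : ∀ σ ∈ P.inertiaSubgroupIn ℚ, ∀ τ ∈ P.inertiaSubgroupIn ℚ, ∀ z,
      actZ (σ * τ) z = actZ σ (actZ τ z))
    {g : ℕ} (u : Fin g → Z → Qbar)
    (hueq : ∀ i, ∀ τ ∈ P.inertiaSubgroupIn ℚ, ∀ z, u i (actZ τ z) = τ (u i z))
    (huint : ∀ i z, u i z ∈ P)
    (d : Qbar) (hdfix : ∀ τ ∈ P.inertiaSubgroupIn ℚ, τ d = d)
    (hsep : ∀ z z' : Z, z ≠ z' → ∃ i, ∃ w ∈ P, d = (u i z - u i z') * w)
    (W : Z → Qbar) (hWeq : ∀ τ ∈ P.inertiaSubgroupIn ℚ, ∀ z, W (actZ τ z) = τ (W z))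
    (hWint : ∀ z, W z ∈ P) :
    (fun z => d ^ (Nat.card Z - 1) * W z) ∈ Algebra.adjoin (inertiaInt P) (Set.range u) := by
  haveI := Fintype.ofFinite Z
  rw [Nat.card_eq_fintype_card]
  exact uniform_conductor_fintype P u d hueq hdfix hact1 hactmul huint hsep W hWeq hWint

end Fermat.Agent.S33x.L3.UniformConductorLagrange
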